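import Fermat.Agent.AtP.ThreeOdd.Hecke

/-!
# The invariant lift from the eigen primes

At odd level a differential which is invariant and regular at the cusps modulo `π` and eigen for an
eigenvalue other than `2` at primes `ℓ ≡ 1 (mod 3)` is congruent to an exactly invariant one.
-/

set_option autoImplicit false

noncomputable section

open UpperHalfPlane CongruenceSubgroup
open scoped MatrixGroups

namespace Fermat.Agent.AtP.ThreeOdd

open Fermat.Agent.KummerES
open ModularCurve (coeffMap)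
open DiffLift (diffExp)

variable {L M : ℕ} [NeZero L] {O : Subring ℂ} {k : Type*} [Field k]

/-- **The invariant lift.** -/
theorem invariantLift_of_eigenPrimes [IsAlgClosed k] [CharP k 3] (h2 : 2 ∣ L) (red : O →+* k)
    (π : O) (H : LevelHyp 2 L O) {n₀ : ℕ} (hB : CoeffHyp O π.1 n₀)
    (hsurj : Function.Surjective red) (hker : ∀ r, red r = 0 ↔ π ∣ r) (hML : M ∣ L) (hM : Odd M)
    (a : LRing L O)
    (ha : ∀ (δ : SL(2, ℤ)) (i : ℤ), i ≤ 0 →
      red ((diffExp (lamChart L h2) H.le δ a).coeff i) = 0)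
    (hinv : ∀ γ ∈ Gamma0 M, ∀ δ,
      coeffMap red (diffExp (lamChart L h2) H.le (γ * δ) a) =
        coeffMap red (diffExp (lamChart L h2) H.le δ a))
    (heig : EigenPrimes h2 red H.le a) : InvariantLift h2 M red H.le a := by
  obtain ⟨S, rfl, rfl, rfl, rfl⟩ := exists_sys h2 H red π hB hsurj hker
  have hinv' : ∀ γ ∈ Gamma0 M, ∀ δ, S.R (γ * δ) a * S.w (γ * δ) = S.R δ a * S.w δ :=
    fun γ hγ δ => by
      rw [← S.coeffMap_diffExp, ← S.coeffMap_diffExp]
      exact hinv γ hγ δ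
  obtain ⟨a₀, hΓ, hR⟩ := S.exists_isGam_congr (M := M) fun γ hγ => hinv' γ hγ.2
  have hinv₀ : ∀ γ ∈ Gamma0 M, ∀ δ, S.R (γ * δ) a₀ * S.w (γ * δ) = S.R δ a₀ * S.w δ :=
    fun γ hγ δ => by rw [hR, hR]; exact hinv' γ hγ δ
  have hd : ∀ δ, coeffMap S.red (diffExp (lamChart L S.h2) S.hO δ a₀) =
      coeffMap S.red (diffExp (lamChart L S.h2) S.hO δ a) := fun δ => by
    rw [S.coeffMap_diffExp, S.coeffMap_diffExp, hR]
  have hc : ∀ δ i, S.red ((diffExp (lamChart L S.h2) S.hO δ a₀).coeff i) =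
      S.red ((diffExp (lamChart L S.h2) S.hO δ a).coeff i) := fun δ i => by
    rw [← ModularCurve.coeffMap_coeff, hd, ModularCurve.coeffMap_coeff]
  have heig₀ : EigenPrimes S.h2 S.red S.hO a₀ := fun m hm => by
    obtain ⟨ℓ, hℓ, h1, h3, hH, aℓ, ha2, he⟩ := heig m hm
    exact ⟨ℓ, hℓ, h1, h3, hH, aℓ, ha2, fun n => by rw [hc, hc, hc]; exact he n⟩
  obtain ⟨a₁, h1, h1'⟩ := S.exists_invariant hM hML hΓ (fun g hg => hinv₀ g hg.1)
    fun g hg hg1 z hz hgz => S.ev_D_eq_zero_of_eigen hML hinv₀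
      (fun i hi => by rw [hc]; exact ha 1 i hi) heig₀ hg.1 hg1 hz hgz
  exact ⟨a₁, h1, fun δ => (h1' δ).trans (hd δ)⟩

end Fermat.Agent.AtP.ThreeOdd
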