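import Fermat.Agent.AtP.ThreeOdd.Form
import Fermat.Agent.AtP.ThreeOdd.Invariant
import Fermat.Agent.AtP.RemoveAtPFinal
import Fermat.Agent.LevelRaisingPrime.Frobenius
import Mathlib.Data.ZMod.ValMinAbs

/-!
# Mazur's principle at `p = 3` for odd level

The differential of the class has an invariant lift, so it lifts to level `M` itself: a prime
`ℓ ≡ 1 (mod 3)` with `a_ℓ ≢ 2` exists as soon as `W[3]` is irreducible.
-/

set_option autoImplicit false

noncomputable section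

open UpperHalfPlane CongruenceSubgroup
open scoped MatrixGroups
open Fermat.Agent.KummerES
open ModularCurve (coeffMap qExpand)
open IsLocalRing (maximalIdeal residue ResidueField)
open Fermat.Agent.LevelLowering (CofiniteResModular)

namespace Fermat.Agent.AtP.ThreeOdd

/-- A prime congruent to `1` modulo `3` outside a finite set with eigenvalue other than `2`. -/
theorem exists_eigenPrime {W : WeierstrassCurve ℤ} (hΔ : W.Δ ≠ 0) (hirr : W.ModRepIsIrreducible 3)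
    (S : Finset ℕ) {m : ℕ} (hm : 0 < m) :
    ∃ ℓ : ℕ, ℓ.Prime ∧ ¬ ℓ ∣ m ∧ ℓ ∉ S ∧ ℓ ≠ 3 ∧ ℓ % 3 = 1 ∧
      (W.apOfModel ℓ : ZMod 3) ≠ 2 := by
  have : Fact (Nat.Prime 3) := ⟨Nat.prime_three⟩
  set P := ∏ q ∈ S with q.Prime, q with hP
  have hP0 : 0 < P := Finset.prod_pos fun q hq => (Finset.mem_filter.1 hq).2.pos
  obtain ⟨ℓ, hℓ, hndvd, -, hone, hne⟩ := LevelRaisingPrime.exists_prime_one_mod_trace_ne_two W 3
    hΔ (by norm_num) (LevelRaisingPrime.frobeniusTraceDet W Nat.prime_three) hirr (m * P)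
    (Nat.mul_pos hm hP0)
  have h3 : ℓ % 3 = 1 := by
    have h := congrArg (ZMod.castHom (dvd_mul_right 3 (m * P)) (ZMod 3)) hone
    rw [map_natCast, map_one, ← Nat.cast_one, ZMod.natCast_eq_natCast_iff] at h
    exact h
  refine ⟨ℓ, hℓ, fun h => hndvd ((h.mul_right P).mul_right 3), fun h => hndvd ?_, ?_, h3, hne⟩
  · exact ((Finset.dvd_prod_of_mem (fun q => q) (Finset.mem_filter.2 ⟨h, hℓ⟩)).mul_left m).mul_right 3
  · rintro rfl
    norm_num at h3

end Fermat.Agent.AtP.ThreeOdd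

namespace Fermat.Agent.AtP

namespace Coeff

variable {p : ℕ} [hp : Fact p.Prime] (C : Coeff p) {M : ℕ} [NeZero M]

/-- **The congruent eigenform of odd level from the differential, `p = 3`.** -/
theorem cofiniteResModular_of_discPow_odd (h3 : p = 3)
    (hModd : Odd M) (hp2 : p ≠ 2) (hpM : ¬ p ∣ M) {a d : LRing (2 * M) C.B}
    (ha : ¬ C.piA M ∣ a) (hd₀ : ¬ C.piA M ∣ d) (hd : C.DiscPow hp2 hpM a d) (hc : C.CuspPow a d)
    (hinv : C.RedInvariant M a d) (sbar : LaurentSeries (ResidueField C.B))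
    (hs : coeffMap (residue C.B) (C.expA M a) =
      coeffMap (residue C.B) (C.expA M d) * qExpand (ResidueField C.B) (2 * M) sbar)
    (hw : serLogDeriv sbar ≠ 0) (W : WeierstrassCurve ℤ) (hΔ : W.Δ ≠ 0)
    (hirr : W.ModRepIsIrreducible p) (S : Finset ℕ)
    (heig : ∀ ℓ : ℕ, ℓ.Prime → ℓ ∉ S → ∀ n : ℤ,
      (serLogDeriv sbar).coeff (ℓ * n) + (ℓ : ResidueField C.B) *
          (if (ℓ : ℤ) ∣ n then (serLogDeriv sbar).coeff (n / ℓ) else 0) =
        (W.apOfModel ℓ : ResidueField C.B) * (serLogDeriv sbar).coeff n) :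
    CofiniteResModular W p M := by
  classical
  subst h3
  have hcp := C.charP
  obtain ⟨c, hcusp, hinv', hne1, heig'⟩ :=
    C.exists_eigenDifferential hp2 hpM ha hd₀ hd hc hinv sbar hs hw W S heig
  set H := C.levelHyp (M := M) hp2 hpM
  have hB := C.coeffHyp (M := M) hp2 hpM
  -- the auxiliary primes
  have h2 : 2 ∣ 2 * M := Dvd.intro M rfl
  have hprimes : ThreeOdd.EigenPrimes h2 (residue C.B) H.le c := fun m hm => by
    obtain ⟨ℓ, hℓ, hℓm, hℓS, hℓ3, hℓ1, hℓa⟩ :=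
      ThreeOdd.exists_eigenPrime hΔ hirr S hm
    have : Fact ℓ.Prime := ⟨hℓ⟩
    have : NeZero (M * ℓ) := ⟨mul_ne_zero (NeZero.ne M) hℓ.ne_zero⟩
    have hpMℓ : ¬ 3 ∣ M * ℓ := fun h => (hp.out.dvd_mul.1 h).elim hpM fun h' =>
      hℓ3 ((Nat.prime_dvd_prime_iff_eq hp.out hℓ).1 h').symm
    have hH : Nonempty (LevelHyp 2 (2 * M * ℓ) C.B) := by
      have hL : ∀ L' : ℕ, ∀ [NeZero L'], 2 * (M * ℓ) = L' → Nonempty (LevelHyp 2 L' C.B) := by
        intro L' _ h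
        subst h
        exact ⟨C.levelHyp hp2 hpMℓ⟩
      exact hL _ (mul_assoc 2 M ℓ).symm
    refine ⟨ℓ, ⟨hℓ⟩, hℓm, hℓ1, hH, W.apOfModel ℓ, fun h => hℓa ?_, heig' ℓ hℓ hℓS⟩
    apply (ZMod.castHom (dvd_refl 3) (ResidueField C.B)).injective
    rw [map_intCast, map_ofNat]
    exact h
  obtain ⟨F, cF, hcF, hcF'⟩ := ThreeOdd.exists_cuspForm_lift_of_invariant h2 (residue C.B) C.unif H
    hB IsLocalRing.residue_surjective C.residue_eq_zero_iff_dvd (dvd_mul_left M 2) hModd c hcusp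
    hinv' (ThreeOdd.invariantLift_of_eigenPrimes h2 (residue C.B) C.unif H hB
      IsLocalRing.residue_surjective C.residue_eq_zero_iff_dvd (dvd_mul_left M 2) hModd c hcusp hinv'
      hprimes)
  exact DiffLift.cofiniteResModular_of_liftedForm hp.out lamChartA (residue C.B) C.unif H.le
    hB.irred.ne_zero C.residue_eq_zero_iff_dvd c hcF hcF' (hcusp 1)
    (hinv' _ ThreeOdd.T_mem_Gamma0) hne1 W S heig'

end Coeff

namespace Setting

variable {p : ℕ} [hp : Fact p.Prime] {C : Coeff p} {M : ℕ} [NeZero M] (S : Setting C M)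

/-- **Mazur's principle at `p = 3` on the function, odd level.** -/
theorem conclusion_three (h3 : p = 3) (hModd : Odd M)
    (hp2 : p ≠ 2) (hpM : ¬ p ∣ M) (hglue : GlueInput p) (hχ : S.χ ≠ 0)
    {ℓ₀ : ℕ} [Fact ℓ₀.Prime] (hℓ₀ : ¬ ℓ₀ ∣ p * M) {a₀ : ℤ}
    (hT₀ : HeckeLattice.transfer hℓ₀ S.χ = a₀ • S.χ) (hne₀ : ((ℓ₀ : ZMod p) + 1 - a₀) ≠ 0)
    (W : WeierstrassCurve ℤ) (hΔ : W.Δ ≠ 0) (hirr : W.ModRepIsIrreducible p) (T : Finset ℕ)
    (heig : ∀ ℓ : ℕ, ℓ.Prime → ℓ ∉ T → ∀ n : ℤ,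
      (serLogDeriv S.sbar).coeff (ℓ * n) + (ℓ : ResidueField C.B) *
          (if (ℓ : ℤ) ∣ n then (serLogDeriv S.sbar).coeff (n / ℓ) else 0) =
        (W.apOfModel ℓ : ResidueField C.B) * (serLogDeriv S.sbar).coeff n) :
    CofiniteResModular W p M := by
  obtain ⟨a, d, ha, hd, hrep, hdisc, hcusp, hinv⟩ := S.exists_discPow_rep hp2 hpM
  obtain ⟨hs, hw⟩ := S.sbar_spec hp2 hχ hℓ₀ hT₀ hne₀ (hglue C M S hp2 hpM) hrep
  exact C.cofiniteResModular_of_discPow_odd h3 hModd hp2 hpM ha hd hdisc hcusp hinv S.sbar hs hw W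
    hΔ hirr T heig

end Setting

variable {p : ℕ} [hp : Fact p.Prime]

/-- **Mazur's principle at `p = 3`, odd level**, for a curve with a local vector. -/
theorem cofiniteResModular_of_localSplit_three
    {W : WeierstrassCurve ℤ} (hΔ : W.Δ ≠ 0) (h3 : p = 3) (hirr : W.ModRepIsIrreducible p)
    (hloc : ∀ (O : Subring ℂ) [IsDiscreteValuationRing O] [IsAdicComplete (maximalIdeal O) O]
      [IsAlgClosed (ResidueField O)], Irreducible (p : O) → HasLocalSplit W p O)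
    {M : ℕ} [NeZero M] (hModd : Odd M) (hpM : ¬ p ∣ M) (hmod : CofiniteResModular W p (p * M)) :
    CofiniteResModular W p M := by
  have hp2 : p ≠ 2 := by omega
  by_contra hnot
  obtain ⟨O, _, _, _, hO⟩ := exists_coeffRing p
  obtain ⟨u, v, huv⟩ := Nat.isCoprime_iff_coprime.2 (hp.out.coprime_iff_not_dvd.2 hpM)
  have h : (p : ℤ) * u - (M : ℤ) * (-v) = 1 := by linear_combination huv
  obtain ⟨C, S, -, hχ, ⟨ℓ₀, hℓp, hℓ₀, a₀, hT₀, hne₀⟩, T, heig⟩ :=
    exists_setting hp2 hpM hO (exists_hasClass_of_odd hΔ hp2 hirr hpM hmod hnot h O (hloc O hO))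
  exact hnot (S.conclusion_three h3 hModd hp2 hpM (glueInput p) hχ hℓ₀ hT₀ hne₀ W hΔ hirr T
    heig)

end Fermat.Agent.AtP
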