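import Fermat.Agent.AtP.DiffLiftForm
import Fermat.Agent.AtP.LambdaBase
import Fermat.Agent.AtP.LambdaMobius

/-!
# The subgroup of index two above `Γ(2)`, for `p = 3` and odd level

`threeTwo` is the subgroup of index two of `SL(2, ℤ)` above `Γ(2)`.  Its elements outside `Γ(2)`
permute `t = 1 / λ` cyclically as `t ↦ (t - 1) / t ↦ 1 / (1 - t)`.
`threeSub M` is its intersection with `Γ₀(M)`; the properties `InvariantLift` and `EigenPrimes`
of a differential are defined here.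
-/

set_option autoImplicit false

noncomputable section

open UpperHalfPlane CongruenceSubgroup Derivative
open scoped MatrixGroups Manifold

namespace Fermat.Agent.AtP.ThreeOdd

open Fermat.Agent.KummerES

/-- The image modulo two lies in the subgroup of order three. -/
def IsEvenMat (m : Matrix (Fin 2) (Fin 2) (ZMod 2)) : Prop := m = 1 ∨ m.trace = 1

instance : DecidablePred IsEvenMat := fun m =>
  inferInstanceAs (Decidable (m = 1 ∨ m.trace = 1))

lemma isEvenMat_mul : ∀ a b : Matrix (Fin 2) (Fin 2) (ZMod 2), a.det = 1 → b.det = 1 →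
    IsEvenMat a → IsEvenMat b → IsEvenMat (a * b) := by
  have key : ∀ a b c d e f g h : ZMod 2, (!![a, b; c, d] : Matrix _ _ (ZMod 2)).det = 1 →
      (!![e, f; g, h] : Matrix _ _ (ZMod 2)).det = 1 → IsEvenMat !![a, b; c, d] →
      IsEvenMat !![e, f; g, h] → IsEvenMat (!![a, b; c, d] * !![e, f; g, h]) := by decide
  intro a b
  rw [Matrix.eta_fin_two a, Matrix.eta_fin_two b]
  apply key

/-- Reduction modulo two. -/
def red2 : SL(2, ℤ) →* SL(2, ZMod 2) :=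
  Matrix.SpecialLinearGroup.map (Int.castRingHom (ZMod 2))

/-- `Γ(2)` is the kernel of reduction modulo two. -/
lemma Gamma_two_eq : Gamma 2 = red2.ker := rfl

/-- The subgroup of index two above `Γ(2)`. -/
def threeTwo : Subgroup SL(2, ℤ) where
  carrier := {γ | IsEvenMat (red2 γ).1}
  one_mem' := Or.inl (by simp)
  mul_mem' {a b} ha hb := by
    show IsEvenMat (red2 (a * b)).1
    rw [map_mul, Matrix.SpecialLinearGroup.coe_mul]
    exact isEvenMat_mul _ _ (red2 a).det_coe (red2 b).det_coe ha hb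
  inv_mem' {a} ha := by
    show IsEvenMat (red2 a⁻¹).1
    rw [map_inv, Matrix.SpecialLinearGroup.coe_inv]
    rcases ha with h | h
    · exact Or.inl (by rw [h, Matrix.adjugate_one])
    · refine Or.inr ?_
      rw [Matrix.adjugate_fin_two, Matrix.trace_fin_two] at *
      simpa [add_comm] using h

/-- Membership in `threeTwo`. -/
lemma mem_threeTwo {γ : SL(2, ℤ)} : γ ∈ threeTwo ↔ IsEvenMat (red2 γ).1 := Iff.rfl

/-- `Γ(2) ≤ threeTwo`. -/
lemma Gamma_two_le_threeTwo : Gamma 2 ≤ threeTwo := fun γ hγ => Or.inl (by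
  rw [Gamma_two_eq, MonoidHom.mem_ker] at hγ
  rw [hγ, Matrix.SpecialLinearGroup.coe_one])

/-- The subgroup of index two of `Γ₀(M)` cut out by `threeTwo`. -/
def threeSub (M : ℕ) : Subgroup SL(2, ℤ) := Gamma0 M ⊓ threeTwo

variable {M : ℕ}

/-- Membership in `threeSub M`. -/
lemma mem_threeSub {γ : SL(2, ℤ)} : γ ∈ threeSub M ↔ γ ∈ Gamma0 M ∧ γ ∈ threeTwo := Iff.rfl

/-- `Γ(2) ∩ Γ₀(M) ≤ threeSub M`. -/
lemma inf_le_threeSub : Gamma 2 ⊓ Gamma0 M ≤ threeSub M := fun _ h =>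
  ⟨h.2, Gamma_two_le_threeTwo h.1⟩

/-- `T` lies in `Γ₀(M)`. -/
lemma T_mem_Gamma0 : ModularGroup.T ∈ Gamma0 M := by simp [Gamma0_mem, ModularGroup.coe_T]

/-- `Γ₀(M)` is covered by two cosets of `threeSub M`. -/
lemma mem_threeSub_or {γ : SL(2, ℤ)} (hγ : γ ∈ Gamma0 M) :
    γ ∈ threeSub M ∨ γ * ModularGroup.T⁻¹ ∈ threeSub M := by
  have key : ∀ a b c d : ZMod 2, (!![a, b; c, d] : Matrix _ _ (ZMod 2)).det = 1 →
      IsEvenMat !![a, b; c, d] ∨ IsEvenMat (!![a, b; c, d] * !![1, 1; 0, 1]) := by decide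
  have h0 := (red2 γ).det_coe
  rw [Matrix.eta_fin_two (red2 γ).1] at h0
  have hT : (red2 ModularGroup.T⁻¹).1 = !![1, 1; 0, 1] := by decide
  rcases key _ _ _ _ h0 with h | h
  · rw [← Matrix.eta_fin_two (red2 γ).1] at h
    exact Or.inl ⟨hγ, h⟩
  · have hT' : ModularGroup.T⁻¹ ∈ Gamma0 M := inv_mem T_mem_Gamma0
    refine Or.inr ⟨mul_mem hγ hT', ?_⟩
    rw [← Matrix.eta_fin_two (red2 γ).1, ← hT, ← Matrix.SpecialLinearGroup.coe_mul, ← map_mul] at h
    exact h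

/-- An element of `threeSub M` of order three modulo two, for odd `M`. -/
lemma exists_threeSub_trace (hM : Odd M) :
    ∃ γ ∈ threeSub M, (red2 γ).1.trace = 1 := by
  refine ⟨⟨!![1, 1; (M : ℤ), M + 1], by rw [Matrix.det_fin_two_of]; ring⟩, ⟨?_, Or.inr ?_⟩, ?_⟩
  · simp [Gamma0_mem]
  all_goals
    have e : ((M : ℤ) : ZMod 2) = 1 := by
      rw [Int.cast_natCast, ← ZMod.natCast_mod, Nat.odd_iff.1 hM, Nat.cast_one]
    have e2 : (1 : ZMod 2) + (1 + 1) = 1 := rfl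
    simp only [red2, Matrix.trace_fin_two, Matrix.SpecialLinearGroup.map_apply_coe,
      RingHom.mapMatrix_apply, Matrix.map_apply, eq_intCast, Matrix.of_apply, Matrix.cons_val',
      Matrix.cons_val_zero, Matrix.cons_val_one, Matrix.cons_val_fin_one, Int.cast_add,
      Int.cast_one, e]
    exact e2

/-- The cube of an element of trace `1` modulo two lies in `Γ(2)`. -/
lemma pow_three_mem {M : ℕ} {γ : SL(2, ℤ)} (hγ : γ ∈ threeSub M)
    (htr : (red2 γ).1.trace = 1) : γ ^ 3 ∈ Gamma 2 ⊓ Gamma0 M := by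
  refine ⟨show γ ^ 3 ∈ Gamma 2 from ?_, pow_mem hγ.1 3⟩
  rw [Gamma_two_eq, MonoidHom.mem_ker, map_pow]
  have key : ∀ a b c d : ZMod 2, (!![a, b; c, d] : Matrix (Fin 2) (Fin 2) (ZMod 2)).det = 1 →
      (!![a, b; c, d] : Matrix (Fin 2) (Fin 2) (ZMod 2)).trace = 1 →
      (!![a, b; c, d] : Matrix (Fin 2) (Fin 2) (ZMod 2)) ^ 3 = 1 := by decide
  have h2 := (red2 γ).det_coe
  rw [Matrix.eta_fin_two (red2 γ).1] at h2 htr
  refine Subtype.ext ?_
  rw [Matrix.SpecialLinearGroup.coe_pow, Matrix.eta_fin_two (red2 γ).1, key _ _ _ _ h2 htr]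
  simp

/-- `threeSub M` consists of `Γ`, `Γ γ` and `Γ γ²`. -/
lemma exists_pow_mul {M : ℕ} {γ g : SL(2, ℤ)} (hγ : γ ∈ threeSub M)
    (htr : (red2 γ).1.trace = 1) (hg : g ∈ threeSub M) :
    ∃ e : ℕ, ∃ u ∈ Gamma 2 ⊓ Gamma0 M, g = u * γ ^ e := by
  have key : ∀ a b c d a' b' c' d' : ZMod 2,
      (!![a, b; c, d] : Matrix (Fin 2) (Fin 2) (ZMod 2)).det = 1 →
      (!![a', b'; c', d'] : Matrix (Fin 2) (Fin 2) (ZMod 2)).det = 1 →
      IsEvenMat !![a, b; c, d] →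
      (!![a', b'; c', d'] : Matrix (Fin 2) (Fin 2) (ZMod 2)).trace = 1 →
      ∃ e : Fin 3, (!![a', b'; c', d'] : Matrix (Fin 2) (Fin 2) (ZMod 2)) ^ (e : ℕ) =
        !![a, b; c, d] := by decide
  have h1 := (red2 g).det_coe
  have h2 := (red2 γ).det_coe
  have h3 : IsEvenMat (red2 g).1 := hg.2
  rw [Matrix.eta_fin_two (red2 g).1] at h1 h3
  rw [Matrix.eta_fin_two (red2 γ).1] at h2 htr
  obtain ⟨e, he⟩ := key _ _ _ _ _ _ _ _ h1 h2 h3 htr
  rw [← Matrix.eta_fin_two (red2 g).1, ← Matrix.eta_fin_two (red2 γ).1,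
    ← Matrix.SpecialLinearGroup.coe_pow, ← map_pow] at he
  refine ⟨e, g * (γ ^ (e : ℕ))⁻¹, ⟨show g * (γ ^ (e : ℕ))⁻¹ ∈ Gamma 2 from ?_,
    (Gamma0 M).mul_mem hg.1 ((Gamma0 M).inv_mem ((Gamma0 M).pow_mem hγ.1 _))⟩, by group⟩
  rw [Gamma_two_eq, MonoidHom.mem_ker, map_mul, map_inv, Subtype.ext he, mul_inv_cancel]

/-- `T²` lies in `threeSub M`. -/
lemma T_sq_mem (M : ℕ) : ModularGroup.T * ModularGroup.T ∈ threeSub M :=
  mem_threeSub.2 ⟨mul_mem T_mem_Gamma0 T_mem_Gamma0, Or.inl (by decide)⟩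

/-- `threeSub M` is stable under conjugation by `T`. -/
lemma T_conj_mem {M : ℕ} {g : SL(2, ℤ)} (hg : g ∈ threeSub M) :
    ModularGroup.T * g * ModularGroup.T⁻¹ ∈ threeSub M := by
  refine mem_threeSub.2 ⟨mul_mem (mul_mem T_mem_Gamma0 hg.1) (inv_mem T_mem_Gamma0), ?_⟩
  have key : ∀ a b c d : ZMod 2, IsEvenMat !![a, b; c, d] →
      IsEvenMat (!![1, 1; 0, 1] * !![a, b; c, d] * !![1, 1; 0, 1]) := by decide
  have h3 : IsEvenMat (red2 g).1 := hg.2
  rw [Matrix.eta_fin_two (red2 g).1] at h3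
  have h := key _ _ _ _ h3
  rw [← Matrix.eta_fin_two (red2 g).1] at h
  have hT : (red2 ModularGroup.T).1 = !![1, 1; 0, 1] := by decide
  have hT' : (red2 ModularGroup.T⁻¹).1 = !![1, 1; 0, 1] := by decide
  rw [mem_threeTwo, map_mul, map_mul, Matrix.SpecialLinearGroup.coe_mul,
    Matrix.SpecialLinearGroup.coe_mul, hT, hT']
  exact h

/-! ## The coordinate `t = 1 / λ` -/

/-- The two fractional maps of order three. -/
lemma mob_of_trace {γ : SL(2, ℤ)} (h : (red2 γ).1.trace = 1) :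
    (∀ x : ℂ, x ≠ 0 → x ≠ 1 → mob γ x = (1 - x)⁻¹) ∨
      ∀ x : ℂ, x ≠ 0 → x ≠ 1 → mob γ x = (x - 1) / x := by
  have key4 : ∀ a b c d : ZMod 2, (!![a, b; c, d] : Matrix _ _ (ZMod 2)).det = 1 →
      (!![a, b; c, d] : Matrix _ _ (ZMod 2)).trace = 1 →
      (!![a, b; c, d] : Matrix _ _ (ZMod 2)) = !![0, 1; 1, 1] ∨
        (!![a, b; c, d] : Matrix _ _ (ZMod 2)) = !![0, 1; 1, 1] * !![0, 1; 1, 1] := by decide
  have key : ∀ a : Matrix (Fin 2) (Fin 2) (ZMod 2), a.det = 1 → a.trace = 1 →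
      a = !![0, 1; 1, 1] ∨ a = !![0, 1; 1, 1] * !![0, 1; 1, 1] := fun a => by
    rw [Matrix.eta_fin_two a]; apply key4
  set g : SL(2, ℤ) := ModularGroup.S * ModularGroup.T
  have hg : (red2 g).1 = !![0, 1; 1, 1] := by decide
  have same : ∀ δ : SL(2, ℤ), (red2 γ).1 = (red2 δ).1 → ∀ x : ℂ, x ≠ 0 → x ≠ 1 →
      mob γ x = mob δ x := fun δ hδ x h0 h1 => by
    have hmem : δ⁻¹ * γ ∈ Gamma 2 := by
      rw [Gamma_two_eq, MonoidHom.mem_ker, map_mul, map_inv, Subtype.ext hδ, inv_mul_cancel]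
    conv_lhs => rw [show γ = δ * (δ⁻¹ * γ) by group, ← mob_mob h0 h1, mob_of_mem_Gamma hmem]
  have hgx : ∀ x : ℂ, x ≠ 0 → x ≠ 1 → mob g x = (1 - x)⁻¹ := by
    intro x h0 h1
    have hx : 1 - x ≠ 0 := sub_ne_zero.2 (Ne.symm h1)
    have hx' : x - 1 ≠ 0 := sub_ne_zero.2 h1
    obtain ⟨⟨a1, a2, a3⟩, b1, b2, b3⟩ := vAct_S_T
    rw [show g = ModularGroup.S * ModularGroup.T from rfl, ← mob_mob h0 h1]
    simp only [mob, a1, a2, a3, b1, b2, b3]
    simp [branchVal, show (![1, 0] : Ind 2) ≠ ![1, 1] by decide,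
      show (![0, 1] : Ind 2) ≠ ![1, 1] by decide, show (![1, 0] : Ind 2) ≠ ![0, 1] by decide]
    field_simp
    ring
  rcases key (red2 γ).1 (red2 γ).det_coe h with e | e
  · exact Or.inl fun x h0 h1 => by rw [same g (e.trans hg.symm) x h0 h1, hgx x h0 h1]
  · refine Or.inr fun x h0 h1 => ?_
    rw [same (g * g) (by rw [map_mul, Matrix.SpecialLinearGroup.coe_mul, hg]; exact e) x h0 h1,
      ← mob_mob h0 h1, hgx x h0 h1]
    have hx : 1 - x ≠ 0 := sub_ne_zero.2 (Ne.symm h1)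
    rw [hgx _ (inv_ne_zero hx) (fun h => h0 (by rw [inv_eq_one] at h; linear_combination -h))]
    have hx' : x - 1 ≠ 0 := sub_ne_zero.2 h1
    field_simp
    ring_nf
    rw [mul_inv_cancel₀ h0, sq, mul_assoc, mul_inv_cancel₀ h0, mul_one]

/-! ## Invariant lifts and eigen primes -/

section Interfaces

open ModularCurve (coeffMap)

variable {L : ℕ} [NeZero L] {O : Subring ℂ} {k : Type*} [Field k]

/-- The differential `a θ t` is congruent to one exactly invariant under `threeSub M`. -/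
def InvariantLift (h2 : 2 ∣ L) (M : ℕ) (red : O →+* k) (hO : zetaRing L ≤ O) (a : LRing L O) :
    Prop :=
  ∃ a₁ : LRing L O, (∀ γ ∈ threeSub M, ∀ δ : SL(2, ℤ),
      DiffLift.diffExp (lamChart L h2) hO (γ * δ) a₁ =
        DiffLift.diffExp (lamChart L h2) hO δ a₁) ∧
    ∀ δ : SL(2, ℤ), coeffMap red (DiffLift.diffExp (lamChart L h2) hO δ a₁) =
      coeffMap red (DiffLift.diffExp (lamChart L h2) hO δ a)

/-- Outside any finite set there is a prime `ℓ ≡ 1 (mod 3)`, usable as a level, at which the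
reduction of `a θ t` is eigen for an eigenvalue other than `2`. -/
def EigenPrimes (h2 : 2 ∣ L) (red : O →+* k) (hO : zetaRing L ≤ O) (a : LRing L O) :
    Prop :=
  ∀ m : ℕ, 0 < m → ∃ (ℓ : ℕ) (_ : Fact ℓ.Prime), ¬ ℓ ∣ m ∧ ℓ % 3 = 1 ∧
    Nonempty (LevelHyp 2 (L * ℓ) O) ∧ ∃ aℓ : ℤ, (aℓ : k) ≠ 2 ∧ ∀ n : ℕ,
      red ((DiffLift.diffExp (lamChart L h2) hO 1 a).coeff ((L : ℤ) * (ℓ * n : ℕ))) +
        (if ℓ ∣ n then (ℓ : k) *
          red ((DiffLift.diffExp (lamChart L h2) hO 1 a).coeff ((L : ℤ) * (n / ℓ : ℕ))) else 0) =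
        (aℓ : k) * red ((DiffLift.diffExp (lamChart L h2) hO 1 a).coeff ((L : ℤ) * n))

end Interfaces

end Fermat.Agent.AtP.ThreeOdd
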