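import Fermat.Agent.AtP.ThreeOdd.Basic
import Fermat.Agent.AtP.LambdaDeriv

/-!
# The derivation `d / dt` of the level `L` ring

`θ t` has unit leading coefficients at all cusps and no zero in `ℍ`, so `f ↦ df / dt` preserves
integral weakly modular functions.
-/

set_option autoImplicit false

noncomputable section

open UpperHalfPlane CongruenceSubgroup Derivative
open scoped MatrixGroups Manifold

namespace Fermat.Agent.AtP.ThreeOdd

open Fermat.Agent.KummerES
open ModularCurve (coeffMap)
open Fermat.Agent.ModularFunctionField (theta coeffMap_theta)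
open DiffLift (chartTL diffExp)

/-- `t = 1 / λ`. -/
def tFun : ℍ → ℂ := fun τ => (lam τ)⁻¹

/-- `df / dt`. -/
def derivFun (f : ℍ → ℂ) : ℍ → ℂ :=
  fun τ => normalizedDerivOfComplex f τ / normalizedDerivOfComplex tFun τ

/-- `t` is holomorphic. -/
lemma mdiff_tFun : MDiff tFun :=
  (lamChart 2 dvd_rfl).t_mem.1

/-- `t` does not take the value `0`. -/
lemma tFun_ne_zero (τ : ℍ) : tFun τ ≠ 0 := inv_ne_zero (lam_ne_zero τ)

/-- `t` does not take the value `1`. -/
lemma tFun_ne_one (τ : ℍ) : tFun τ ≠ 1 := fun h => lam_ne_one τ (inv_eq_one.mp h)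

/-- The derivative of `t` has no zero. -/
lemma deriv_tFun_ne_zero (τ : ℍ) : normalizedDerivOfComplex tFun τ ≠ 0 := by
  have h1 : normalizedDerivOfComplex (lam * tFun) = 0 := by
    rw [show lam * tFun = fun _ => (1 : ℂ) from funext fun σ => mul_inv_cancel₀ (lam_ne_zero σ)]
    exact normalizedDerivOfComplex_const 1
  rw [normalizedDerivOfComplex_mul _ _ mdiff_lam mdiff_tFun] at h1
  intro h0
  have h2 := congrFun h1 τ
  simp only [Pi.add_apply, Pi.mul_apply, h0, mul_zero, add_zero, Pi.zero_apply] at h2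
  have h3 : normalizedDerivOfComplex lam τ ≠ 0 := by
    rw [normalizedDerivOfComplex]
    exact mul_ne_zero (inv_ne_zero (by simp [Real.pi_ne_zero, Complex.I_ne_zero]))
      (deriv_lam_ne_zero τ)
  exact mul_ne_zero h3 (tFun_ne_zero τ) h2

/-- `t` is invariant under `Γ(2)`. -/
lemma comp_tFun {γ : SL(2, ℤ)} (hγ : γ ∈ Gamma 2) : comp tFun γ = tFun :=
  funext fun τ => congrArg (·⁻¹) (congrFun (comp_lam_of_mem_Gamma hγ) τ)

lemma deriv_comp_tFun_ne_zero (δ : SL(2, ℤ)) (τ : ℍ) :
    normalizedDerivOfComplex (comp tFun δ) τ ≠ 0 := fun h => by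
  have := deriv_smul mdiff_tFun δ τ
  rw [h, mul_zero] at this
  exact deriv_tFun_ne_zero _ this

/-- The chain rule. -/
lemma derivFun_comp {f : ℍ → ℂ} (hf : MDiff f) (γ : SL(2, ℤ)) :
    derivFun (comp f γ) = comp (derivFun f) γ * derivFun (comp tFun γ) := by
  funext τ
  simp only [derivFun, Pi.mul_apply, comp_apply, deriv_smul hf, deriv_smul mdiff_tFun]
  have h1 := deriv_tFun_ne_zero τ
  have h2 := deriv_comp_tFun_ne_zero γ τ
  have h3 : denom γ τ ≠ 0 := denom_ne_zero γ τ
  field_simp

lemma derivFun_tFun : derivFun tFun = 1 := funext fun τ => div_self (deriv_tFun_ne_zero τ)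

lemma mdiff_derivFun {f : ℍ → ℂ} (hf : MDiff f) : MDiff (derivFun f) := by
  have h1 := UpperHalfPlane.mdifferentiable_iff.mp (normalizedDerivOfComplex_mdifferentiable hf)
  have h2 := UpperHalfPlane.mdifferentiable_iff.mp
    (normalizedDerivOfComplex_mdifferentiable mdiff_tFun)
  exact UpperHalfPlane.mdifferentiable_iff.mpr (h1.div h2 fun z _ => deriv_tFun_ne_zero _)

variable {L : ℕ} [NeZero L] {O : Subring ℂ} (h2 : 2 ∣ L) (hO : zetaRing L ≤ O)

/-- `t` in the ring of level `L`. -/
abbrev tL : LRing L O := chartTL (lamChart L h2) hO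

/-- The function underlying `tL` is `t`. -/
lemma coe_tL : (tL h2 hO).1 = tFun := rfl

lemma derivFun_mem (f : LRing L O) :
    derivFun f.1 ∈ weak (Gamma L) L O ∧ ∀ δ, expansion L (comp (derivFun f.1) δ) *
      coeffMap O.subtype (theta (expB L O δ (tL h2 hO))) =
        coeffMap O.subtype (theta (expB L O δ f)) := by
  have hd : MDiff f.1 := f.2.1
  have hL : (L : ℂ) ≠ 0 := by exact_mod_cast NeZero.ne L
  have hexp : ∀ δ, ∃ s : LaurentSeries O, HasExp L (comp (derivFun f.1) δ) (coeffMap O.subtype s) ∧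
      s * theta (expB L O δ (tL h2 hO)) = theta (expB L O δ f) := by
    intro δ
    obtain ⟨v, hv, -⟩ :=
      (DiffLift.chartLine (lamChart L h2) hO).w_inverse (QuotientGroup.mk δ⁻¹)
    have e : (DiffLift.chartLine (lamChart L h2) hO).w (QuotientGroup.mk δ⁻¹) =
        theta (expB L O δ (tL h2 hO)) := by
      show theta (DiffLift.expsLine (lamChart L h2) (DiffLift.chartT (lamChart L h2) hO) _) = _
      rw [DiffLift.expsLine, DiffLift.exps_mk, inv_inv]
      rfl
    rw [e] at hv
    refine ⟨theta (expB L O δ f) * v, ?_, by rw [mul_assoc, mul_comm v, hv, mul_one]⟩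
    have he : ∀ g : LRing L O, HasExp L (normalizedDerivOfComplex (comp g.1 δ))
        (HahnSeries.C ((L : ℂ)⁻¹) * coeffMap O.subtype (theta (expB L O δ g))) := fun g => by
      have h := DiffLift.hasExp_deriv (hasExp_expansion g.2 δ)
      rwa [coeffMap_theta, coeffMap_expB, expAt_apply]
    have ht := he (tL h2 hO)
    set s := HahnSeries.C ((L : ℂ)⁻¹) * coeffMap O.subtype (theta (expB L O δ (tL h2 hO)))
    have hsv : s * (HahnSeries.C (L : ℂ) * coeffMap O.subtype v) = 1 := by
      calc s * (HahnSeries.C (L : ℂ) * coeffMap O.subtype v)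
          = HahnSeries.C ((L : ℂ)⁻¹ * L) *
              coeffMap O.subtype (theta (expB L O δ (tL h2 hO)) * v) := by
            simp only [s, map_mul]; ring
        _ = 1 := by rw [inv_mul_cancel₀ hL, hv, map_one, map_one, one_mul]
    have hi := ht.inv (deriv_comp_tFun_ne_zero δ) (left_ne_zero_of_mul_eq_one hsv)
    rw [inv_eq_of_mul_eq_one_right hsv] at hi
    have h := (he f).mul hi
    have hfun : comp (derivFun f.1) δ =
        normalizedDerivOfComplex (comp f.1 δ) * (normalizedDerivOfComplex (comp tFun δ))⁻¹ := by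
      funext τ
      simp only [derivFun, comp_apply, Pi.mul_apply, Pi.inv_apply, deriv_smul hd,
        deriv_smul mdiff_tFun]
      have h3 : denom δ τ ≠ 0 := denom_ne_zero δ τ
      have := deriv_comp_tFun_ne_zero δ τ
      field_simp
    rw [hfun]
    refine (congrArg (HasExp L _) ?_).mp h
    calc HahnSeries.C ((L : ℂ)⁻¹) * coeffMap O.subtype (theta (expB L O δ f)) *
          (HahnSeries.C (L : ℂ) * coeffMap O.subtype v)
        = HahnSeries.C ((L : ℂ)⁻¹ * L) * coeffMap O.subtype (theta (expB L O δ f) * v) := by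
          simp only [map_mul]; ring
      _ = _ := by rw [inv_mul_cancel₀ hL, map_one, one_mul]
  refine ⟨⟨mdiff_derivFun hd, fun γ hγ => ?_, fun δ => ?_⟩, fun δ => ?_⟩
  · have h := derivFun_comp hd γ
    rw [f.2.2.1 γ hγ, comp_tFun (Gamma_le_of_dvd h2 hγ), derivFun_tFun, mul_one] at h
    exact h.symm
  · obtain ⟨s, hs, -⟩ := hexp δ
    exact ⟨_, fun i => by rw [ModularCurve.coeffMap_coeff]; exact (s.coeff i).2, hs⟩
  · obtain ⟨s, hs, hs'⟩ := hexp δ
    rw [hs.expansion_eq, ← map_mul, hs']

/-- `d / dt` on the ring of level `L`. -/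
def derivT : LRing L O →+ LRing L O where
  toFun f := ⟨derivFun f.1, (derivFun_mem h2 hO f).1⟩
  map_zero' := Subtype.ext (funext fun τ => by
    show normalizedDerivOfComplex (fun _ => (0 : ℂ)) τ / _ = 0
    rw [normalizedDerivOfComplex_const, Pi.zero_apply, zero_div])
  map_add' f g := Subtype.ext (funext fun τ => by
    show normalizedDerivOfComplex (f.1 + g.1) τ / _ = _
    rw [normalizedDerivOfComplex_add _ _ f.2.1 g.2.1, Pi.add_apply, add_div]
    rfl)

/-- The function underlying `derivT f` is `df / dt`. -/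
lemma coe_derivT (f : LRing L O) : (derivT h2 hO f).1 = derivFun f.1 := rfl

/-- The Leibniz rule for `d / dt`. -/
lemma derivT_mul (f g : LRing L O) :
    derivT h2 hO (f * g) = derivT h2 hO f * g + f * derivT h2 hO g := Subtype.ext (funext fun τ => by
  show normalizedDerivOfComplex (f.1 * g.1) τ / _ =
    normalizedDerivOfComplex f.1 τ / _ * g.1 τ + f.1 τ * (normalizedDerivOfComplex g.1 τ / _)
  rw [normalizedDerivOfComplex_mul _ _ f.2.1 g.2.1]
  simp only [Pi.add_apply, Pi.mul_apply]
  ring)

/-- `dt / dt = 1`. -/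
lemma derivT_tL : derivT h2 hO (tL h2 hO) = 1 := Subtype.ext derivFun_tFun

/-- `d / dt` kills constants. -/
lemma derivT_const {c : ℂ} (hc : c ∈ O) :
    derivT h2 hO (constL c hc : LRing L O) = 0 := Subtype.ext (funext fun τ => by
  show normalizedDerivOfComplex (fun _ => c) τ / _ = 0
  rw [normalizedDerivOfComplex_const, Pi.zero_apply, zero_div])

/-- `d / dt` kills `1`. -/
lemma derivT_one : derivT h2 hO 1 = 0 := by
  have h := derivT_mul h2 hO 1 1
  simp only [mul_one, one_mul] at h
  simpa using h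

/-- `df = (df / dt) dt` on expansions. -/
lemma expB_derivT_mul (δ : SL(2, ℤ)) (f : LRing L O) :
    expB L O δ (derivT h2 hO f) * theta (expB L O δ (tL h2 hO)) = theta (expB L O δ f) := by
  have inj : Function.Injective (coeffMap O.subtype) := fun s t h =>
    HahnSeries.ext (funext fun i => Subtype.val_injective (by
      simpa using congrArg (fun u : LaurentSeries ℂ => u.coeff i) h))
  refine inj ?_
  rw [map_mul, coeffMap_expB, expAt_apply, coe_derivT]
  exact (derivFun_mem h2 hO f).2 δ

omit [NeZero L] in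
/-- Composition with an element of `SL(2, ℤ)` on the ring of level `L`. -/
def compL (γ : SL(2, ℤ)) : LRing L O →+* LRing L O := (actAut L O γ⁻¹).toRingHom

omit [NeZero L] in
/-- The function underlying `compL γ f`. -/
lemma coe_compL (γ : SL(2, ℤ)) (f : LRing L O) : (compL γ f).1 = comp f.1 γ := by
  show comp f.1 γ⁻¹⁻¹ = _
  rw [inv_inv]

/-- The chain rule for composition with `γ`. -/
lemma derivT_compL (γ : SL(2, ℤ)) (f : LRing L O) :
    derivT h2 hO (compL γ f) =
      compL γ (derivT h2 hO f) * derivT h2 hO (compL γ (tL h2 hO)) := Subtype.ext (by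
  rw [Subring.coe_mul, coe_derivT, coe_derivT, coe_compL, coe_compL, coe_compL, coe_derivT,
    coe_tL, derivFun_comp f.2.1])

/-- The action on differentials `f dt`. -/
def tw (γ : SL(2, ℤ)) : LRing L O →+ LRing L O where
  toFun f := compL γ f * derivT h2 hO (compL γ (tL h2 hO))
  map_zero' := by simp
  map_add' f g := by rw [map_add, add_mul]

/-- The expansions of a translated differential. -/
lemma diffExp_tw (γ δ : SL(2, ℤ)) (f : LRing L O) :
    diffExp (lamChart L h2) hO δ (tw h2 hO γ f) = diffExp (lamChart L h2) hO (γ * δ) f := by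
  have e : ∀ g : LRing L O, expB L O δ (compL γ g) = expB L O (γ * δ) g := fun g =>
    DiffLift.expB_ext (by rw [coe_compL, comp_comp])
  show expB L O δ (compL γ f * derivT h2 hO (compL γ (tL h2 hO))) * _ = _
  rw [map_mul, mul_assoc, expB_derivT_mul, e, e]
  rfl

end Fermat.Agent.AtP.ThreeOdd
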