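import Fermat.Agent.AtP.ThreeOdd.LevelTwo
import Mathlib.RingTheory.Invariant.Basic
import Mathlib.FieldTheory.IsAlgClosed.Basic

/-!
# Values modulo `π` at the points where `t² - t + 1 = 0`
-/

set_option autoImplicit false

noncomputable section

open UpperHalfPlane CongruenceSubgroup
open scoped MatrixGroups

namespace Fermat.Agent.AtP.ThreeOdd

open Fermat.Agent.KummerES
open ModularCurve (coeffMap)

variable {L : ℕ} [NeZero L] {O : Subring ℂ} {k : Type*} [Field k]

/-- The reduction extends to the integers over `O`. -/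
theorem exists_extRed [IsAlgClosed k] (red : O →+* k) (hsurj : Function.Surjective red) :
    ∃ e : integralClosure O ℂ →+* k, ∀ r : O, e (algebraMap O (integralClosure O ℂ) r) = red r := by
  have : (RingHom.ker red).IsMaximal := RingHom.ker_isMaximal_of_surjective red hsurj
  obtain ⟨Q, hQ, hQc⟩ := Ideal.exists_ideal_over_maximal_of_isIntegral
    (S := integralClosure O ℂ) (RingHom.ker red) (by
      rw [(RingHom.injective_iff_ker_eq_bot _).mp]
      · exact bot_le
      · exact fun a b h => Subtype.ext (congrArg (fun x : integralClosure O ℂ => (x : ℂ)) h))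
  have := hQ
  let : Field (integralClosure O ℂ ⧸ Q) := Ideal.Quotient.field Q
  set f : O →+* integralClosure O ℂ ⧸ Q :=
    (Ideal.Quotient.mk Q).comp (algebraMap O (integralClosure O ℂ))
  let ι : k →+* integralClosure O ℂ ⧸ Q :=
    (RingHom.liftOfSurjective red hsurj) ⟨f, fun x hx => by
      rw [RingHom.mem_ker, RingHom.comp_apply, Ideal.Quotient.eq_zero_iff_mem, ← Ideal.mem_comap,
        hQc]
      exact hx⟩
  have hι : ∀ r, ι (red r) = f r := fun r =>
    RingHom.liftOfRightInverse_comp_apply red _ _ _ r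
  have hint : ι.IsIntegral := by
    refine RingHom.IsIntegral.tower_top red ι ?_
    rw [show ι.comp red = f from RingHom.ext hι]
    exact RingHom.IsIntegral.trans _ _ (algebraMap_isIntegral_iff.mpr inferInstance)
      (RingHom.isIntegral_of_surjective _ Ideal.Quotient.mk_surjective)
  let E := RingEquiv.ofBijective ι (IsAlgClosed.ringHom_bijective_of_isIntegral ι hint)
  refine ⟨E.symm.toRingHom.comp (Ideal.Quotient.mk Q), fun r => ?_⟩
  show E.symm (f r) = red r
  rw [← hι]
  exact E.symm_apply_apply (red r)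

variable (h2 : 2 ∣ L) (hO : zetaRing L ≤ O)

include h2 hO in
/-- Values at a point with `t² - t + 1 = 0` are integral. -/
theorem isIntegral_apply {z : ℍ} (hz : IsCM z) (f : LRing L O) : IsIntegral O (f.1 z) := by
  classical
  let := Fintype.ofFinite (levelGroup L O 2)
  set P := MulSemiringAction.charpoly (levelGroup L O 2) f with hP
  let ev : LRing L O →+* ℂ :=
    (Pi.evalRingHom (fun _ : ℍ => ℂ) z).comp (weak (Gamma L) L O).subtype
  set S := integralClosure O ℂ
  have hcoeff : ↑(P.map ev).coeffs ⊆ (S.toSubring : Set ℂ) := by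
    intro c hc
    obtain ⟨n, -, rfl⟩ := Polynomial.mem_coeffs_iff.mp hc
    rw [Polynomial.coeff_map]
    exact isIntegral_apply_two h2 hO hz ⟨_, mem_level_of_fixed (P.coeff n) fun g =>
      MulSemiringAction.smul_coeff_charpoly f n g⟩
  have hmon : P.Monic := by
    rw [hP, MulSemiringAction.charpoly_eq]
    exact Polynomial.monic_prod_of_monic _ _ fun g _ => Polynomial.monic_X_sub_C _
  have hS : IsIntegral S (f.1 z) := by
    refine ⟨(P.map ev).toSubring S.toSubring hcoeff,
      (Polynomial.monic_toSubring _ _ _).mpr (hmon.map ev), ?_⟩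
    have h0 : (P.map ev).eval (ev f) = 0 := by
      rw [Polynomial.eval_map, Polynomial.eval₂_at_apply, hP, MulSemiringAction.eval_charpoly,
        map_zero]
    rw [Polynomial.eval₂_eq_eval_map]
    exact (congrArg (Polynomial.eval (ev f))
      (Polynomial.map_toSubring (P.map ev) S.toSubring hcoeff)).trans h0
  exact isIntegral_trans (f.1 z) hS

variable (e : integralClosure O ℂ →+* k)

/-- Reduction of the value at `z`. -/
def evalAt (z : ℍ) (hz : IsCM z) : LRing L O →+* k :=
  e.comp (((Pi.evalRingHom (fun _ : ℍ => ℂ) z).comp (weak (Gamma L) L O).subtype).codRestrict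
    (integralClosure O ℂ) fun f => isIntegral_apply h2 hO hz f)

/-- The reduced value only depends on the value. -/
lemma evalAt_congr {z : ℍ} (hz : IsCM z) {z' : ℍ} (hz' : IsCM z') {f g : LRing L O}
    (h : f.1 z = g.1 z') : evalAt h2 hO e z hz f = evalAt h2 hO e z' hz' g :=
  congrArg e (Subtype.ext h)

/-- The reduced value of a constant. -/
lemma evalAt_const {z : ℍ} (hz : IsCM z) (red : O →+* k)
    (he : ∀ r : O, e (algebraMap O (integralClosure O ℂ) r) = red r) (r : O) :
    evalAt h2 hO e z hz (constL r.1 r.2) = red r := by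
  rw [← he]
  exact congrArg e (Subtype.ext rfl)

/-- `t ≡ -1` at these points in characteristic `3`. -/
lemma evalAt_tL [CharP k 3] {z : ℍ} (hz : IsCM z) : evalAt h2 hO e z hz (tL h2 hO) = -1 := by
  set x := evalAt h2 hO e z hz (tL h2 hO)
  have h : x ^ 2 - x + 1 = 0 := by
    have : evalAt h2 hO e z hz (tL h2 hO ^ 2 - tL h2 hO + 1) = 0 :=
      (congrArg e (Subtype.ext (show tFun z ^ 2 - tFun z + 1 = 0 from hz))).trans (map_zero e)
    simpa using this
  have h3 : (3 : k) = 0 := CharP.cast_eq_zero k 3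
  have : (x + 1) ^ 2 = 0 := by linear_combination h + x * h3
  exact eq_neg_of_add_eq_zero_left (pow_eq_zero_iff two_ne_zero |>.mp this)

/-- A fixed point of an element of order three modulo two. -/
lemma isCM_of_fixed {γ : SL(2, ℤ)} (hγ : (red2 γ).1.trace = 1) {z : ℍ} (hz : γ • z = z) :
    IsCM z := by
  have h0 := lam_ne_zero z
  have h1 := lam_ne_one z
  have h := lam_smul γ z
  rw [hz] at h
  have hl : lam z ^ 2 - lam z + 1 = 0 := by
    have hx : 1 - lam z ≠ 0 := sub_ne_zero.mpr h1.symm
    rcases mob_of_trace hγ with e | e <;> rw [e _ h0 h1] at h <;> field_simp at h <;>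
      first
      | linear_combination h
      | linear_combination -h
  show (lam z)⁻¹ ^ 2 - (lam z)⁻¹ + 1 = 0
  field_simp
  linear_combination hl

/-- The element `(0, -1; 1, 1)`. -/
def rhoMat : SL(2, ℤ) := ⟨!![0, -1; 1, 1], by rw [Matrix.det_fin_two_of]; norm_num⟩

/-- The point `(-1 + √3 i) / 2`. -/
def rhoPt : ℍ := ⟨⟨-1 / 2, Real.sqrt 3 / 2⟩, by positivity⟩

lemma rhoMat_trace : (red2 rhoMat).1.trace = 1 := by decide

/-- `rhoMat` fixes `rhoPt`. -/
lemma rhoMat_smul : rhoMat • rhoPt = rhoPt := by
  apply UpperHalfPlane.ext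
  rw [UpperHalfPlane.specialLinearGroup_apply]
  have hs : Real.sqrt 3 * Real.sqrt 3 = 3 := Real.mul_self_sqrt (by norm_num)
  have hd : ((rhoPt : ℂ) + 1) ≠ 0 := fun h => by
    have := congrArg Complex.im h
    simp [rhoPt] at this
  simp [rhoMat]
  rw [div_eq_iff hd]
  apply Complex.ext <;> simp [rhoPt] <;> nlinarith

/-- The translates of `rhoPt` satisfy `t² - t + 1 = 0`. -/
lemma isCM_smul_rhoPt (δ : SL(2, ℤ)) : IsCM (δ • rhoPt) := by
  refine isCM_of_fixed (γ := δ * rhoMat * δ⁻¹) ?_ ?_
  · rw [map_mul, map_mul, map_inv, Matrix.SpecialLinearGroup.coe_mul,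
      Matrix.SpecialLinearGroup.coe_mul, Matrix.trace_mul_cycle,
      ← Matrix.SpecialLinearGroup.coe_mul, inv_mul_cancel, Matrix.SpecialLinearGroup.coe_one,
      one_mul, rhoMat_trace]
  · rw [mul_smul, mul_smul, inv_smul_smul, rhoMat_smul]

end Fermat.Agent.AtP.ThreeOdd
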