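import Fermat.Agent.AtP.ThreeOdd.Basic

/-!
# A congruent cusp form of odd level from an invariant lift

The polar parts of an invariant lift are `π` times a family invariant under `threeSub M`; its
restriction to one of the three classes of cusps is realised by a differential of level
`Γ(2) ∩ Γ₀(M)`, whose three translates remove the poles.
-/

set_option autoImplicit false

noncomputable section

open UpperHalfPlane CongruenceSubgroup ModularFormClass
open scoped MatrixGroups Manifold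

namespace Fermat.Agent.AtP.ThreeOdd

open Fermat.Agent.KummerES Fermat.Agent.AtP.DiffLift
open ModularCurve (coeffMap)
open Fermat.Agent.ModularFunctionField (theta twist)

/-- The cusp `δ ∞` lies in the class of `∞` modulo two. -/
def IsInftyClass (δ : SL(2, ℤ)) : Prop := (red2 δ).1 1 0 = 0

instance : DecidablePred IsInftyClass := fun δ =>
  inferInstanceAs (Decidable ((red2 δ).1 1 0 = 0))

lemma isInftyClass_mul_of_mem_Gamma {δ g : SL(2, ℤ)} (h : g ∈ Gamma 2) :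
    IsInftyClass (g * δ) ↔ IsInftyClass δ := by
  rw [Gamma_two_eq, MonoidHom.mem_ker] at h
  rw [IsInftyClass, IsInftyClass, map_mul, h, one_mul]

lemma isInftyClass_mul_T (δ : SL(2, ℤ)) :
    IsInftyClass (δ * ModularGroup.T) ↔ IsInftyClass δ := by
  rw [IsInftyClass, IsInftyClass, map_mul, Matrix.SpecialLinearGroup.coe_mul]
  have hT : (red2 ModularGroup.T).1 = !![1, 1; 0, 1] := by decide
  rw [hT, Matrix.mul_apply, Fin.sum_univ_two]
  simp

/-- An element of trace one modulo two moves every cusp once into the class of `∞`. -/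
lemma sum_range_three_ite {R : Type*} [AddCommMonoid R] {γ : SL(2, ℤ)}
    (hγ : (red2 γ).1.trace = 1) (δ : SL(2, ℤ)) (z : R) :
    (∑ e ∈ Finset.range 3, if IsInftyClass (γ ^ e * δ) then z else 0) = z := by
  have key : ∀ a b c d a' b' c' d' : ZMod 2,
      (!![a, b; c, d] : Matrix (Fin 2) (Fin 2) (ZMod 2)).det = 1 →
      (!![a', b'; c', d'] : Matrix (Fin 2) (Fin 2) (ZMod 2)).det = 1 →
      (!![a', b'; c', d'] : Matrix (Fin 2) (Fin 2) (ZMod 2)).trace = 1 →
      ((Finset.range 3).filter fun e : ℕ =>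
        ((!![a', b'; c', d'] : Matrix (Fin 2) (Fin 2) (ZMod 2)) ^ e * !![a, b; c, d]) 1 0 = 0).card
          = 1 := by decide
  have h1 := (red2 δ).det_coe
  have h2 := (red2 γ).det_coe
  rw [Matrix.eta_fin_two (red2 δ).1] at h1
  rw [Matrix.eta_fin_two (red2 γ).1] at h2 hγ
  have h := key _ _ _ _ _ _ _ _ h1 h2 hγ
  rw [← Matrix.eta_fin_two (red2 δ).1, ← Matrix.eta_fin_two (red2 γ).1] at h
  rw [← Finset.sum_filter, Finset.sum_const]
  rw [show ((Finset.range 3).filter fun e => IsInftyClass (γ ^ e * δ)).card = 1 from ?_, one_smul]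
  rw [← h]
  refine congrArg Finset.card (Finset.filter_congr fun e _ => ?_)
  rw [IsInftyClass, map_mul, map_pow, Matrix.SpecialLinearGroup.coe_mul,
    Matrix.SpecialLinearGroup.coe_pow]

variable {L M : ℕ} [NeZero L] {O : Subring ℂ} {k : Type*} [Field k]

/-- Symmetrising a `threeSub M`-invariant family of translates gives a cusp form. -/
theorem exists_cuspForm_of_invariant [NeZero M] (h2 : 2 ∣ L) (hO : zetaRing L ≤ O)
    (G : SL(2, ℤ) → ℍ → ℂ) (ser : SL(2, ℤ) → LaurentSeries O)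
    (hGexp : ∀ δ, HasExp L (G δ) (HahnSeries.C ((L : ℂ)⁻¹) * coeffMap O.subtype (ser δ)))
    (hlow : ∀ δ, LowBd 1 (ser δ))
    (hGsl : ∀ δ ε : SL(2, ℤ), ∀ τ : ℍ, G δ (ε • τ) * denom ε τ ^ (-2 : ℤ) = G (δ * ε) τ)
    (hG3 : ∀ g ∈ threeSub M, ∀ δ, G (g * δ) = G δ) :
    ∃ (F : CuspForm (Gamma0 M) 2) (c : ℕ → O), (∀ n, qCoeff F n = c n) ∧
      ∀ n, 2 * c n = (ser 1 + ser ModularGroup.T).coeff ((L : ℤ) * n) := by
  obtain ⟨u2, hu2⟩ : IsUnit (2 : O) := by
    obtain ⟨c, hc⟩ := h2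
    have hu := isUnit_natCast_level (L := L) hO
    rw [hc, Nat.cast_mul, Nat.cast_ofNat] at hu
    exact isUnit_of_mul_isUnit_left hu
  set sc : ℂ := ((↑u2⁻¹ : O) : ℂ) * L with hsc
  let G₂ : SL(2, ℤ) → ℍ → ℂ := fun δ => (fun _ => sc) * (G δ + G (ModularGroup.T * δ))
  let ser₂ : SL(2, ℤ) → LaurentSeries O := fun δ =>
    HahnSeries.C (↑u2⁻¹ : O) * (ser δ + ser (ModularGroup.T * δ))
  have hG₂ : ∀ δ, HasExp L (G₂ δ) (coeffMap O.subtype (ser₂ δ)) := by
    intro δ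
    have h := (HasExp.const (L := L) sc).mul ((hGexp δ).add (hGexp (ModularGroup.T * δ)))
    have e : coeffMap O.subtype (ser₂ δ) = HahnSeries.single 0 sc *
        (HahnSeries.C ((L : ℂ)⁻¹) * coeffMap O.subtype (ser δ) +
          HahnSeries.C ((L : ℂ)⁻¹) * coeffMap O.subtype (ser (ModularGroup.T * δ))) := by
      have hL' : (L : ℂ) ≠ 0 := by exact_mod_cast NeZero.ne L
      simp only [ser₂, map_mul, map_add, ← mul_add, ← mul_assoc, HahnSeries.C_apply,
        ModularCurve.coeffMap_single, HahnSeries.single_mul_single, zero_add, hsc,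
        Subring.coe_subtype, mul_inv_cancel_right₀ hL']
    rw [e]
    exact h
  have hlow₂ : ∀ δ, LowBd 1 (ser₂ δ) := fun δ => by
    simp only [ser₂]
    rw [HahnSeries.C_mul_eq_smul]
    exact ((hlow _).add (hlow _)).smul _
  have hslash : ∀ δ : SL(2, ℤ), ∀ τ : ℍ, G₂ 1 (δ • τ) * denom δ τ ^ (-2 : ℤ) = G₂ δ τ := by
    intro δ τ
    simp only [G₂, Pi.mul_apply, Pi.add_apply, mul_one]
    rw [mul_assoc, add_mul, hGsl, hGsl, one_mul]
  have hG₂inv : ∀ g ∈ Gamma0 M, G₂ g = G₂ 1 := fun g hg => by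
    simp only [G₂, mul_one]
    congr 1
    rcases mem_threeSub_or hg with hs | hs
    · rw [show g = g * 1 from (mul_one g).symm, hG3 g hs,
        show ModularGroup.T * (g * 1) = ModularGroup.T * g * ModularGroup.T⁻¹ * ModularGroup.T by
          group, hG3 _ (T_conj_mem hs)]
    · rw [add_comm (G 1)]
      refine congrArg₂ (· + ·) ?_ ?_
      · rw [show g = g * ModularGroup.T⁻¹ * ModularGroup.T by group, hG3 _ hs]
      · rw [show ModularGroup.T * g = ModularGroup.T * (g * ModularGroup.T⁻¹) * ModularGroup.T⁻¹ *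
            (ModularGroup.T * ModularGroup.T * 1) by group, hG3 _ (T_conj_mem hs),
          hG3 _ (T_sq_mem M)]
  obtain ⟨F, hF⟩ := exists_cuspForm_of_family G₂ ser₂ hG₂ hlow₂ (fun δ => funext fun τ =>
    (ModularForm.SL_slash_apply ..).trans (hslash δ τ)) hG₂inv
  refine ⟨F, fun n => (ser₂ 1).coeff ((L : ℤ) * n), hF, fun n => ?_⟩
  simp only [ser₂, mul_one, HahnSeries.C_mul_eq_smul, HahnSeries.coeff_smul, smul_eq_mul]
  rw [← hu2, ← mul_assoc, Units.mul_inv, one_mul]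

variable (C : Chart 2 L)

/-- The expansions of `a θ t` as a family on the cusps of `Γ`. -/
lemma diffExp_mk (hO : zetaRing L ≤ O) {Γ : Subgroup SL(2, ℤ)} (hL : Gamma L ≤ Γ)
    (h2 : Γ ≤ Gamma 2) (f : weak Γ L O) (g : SL(2, ℤ)) :
    diffExp C hO (QuotientGroup.mk g : SL(2, ℤ) ⧸ Γ).out⁻¹
        (Subring.inclusion (weak_mono hL le_rfl) f) =
      diffExp C hO g⁻¹ (Subring.inclusion (weak_mono hL le_rfl) f) := by
  obtain ⟨⟨u, hu⟩, hg⟩ := QuotientGroup.mk_out_eq_mul Γ g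
  have hu' : u⁻¹ ∈ Γ := inv_mem hu
  rw [hg, mul_inv_rev]
  refine congrArg₂ (fun x y => x * theta y) (expB_ext ?_)
    (expB_ext (comp_t_mul C (h2 hu') _))
  show comp f.1 (u⁻¹ * g⁻¹) = comp f.1 g⁻¹
  rw [← comp_comp, f.2.2.1 _ hu']

include C in
lemma diffExp_T (hO : zetaRing L ≤ O) (δ : SL(2, ℤ)) (f : LRing L O) :
    diffExp C hO (δ * ModularGroup.T) f = twist (zetaUnit hO) (diffExp C hO δ f) := by
  rw [diffExp, diffExp, ← zpow_one ModularGroup.T, expB_mul_T_zpow hO, expB_mul_T_zpow hO,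
    zpow_one, map_mul, ModularFunctionField.theta_twist]

/-- Right translation by an element of `threeSub M` permutes the cusps of `Γ(2) ∩ Γ₀(M)`. -/
lemma mk_mul_eq {g h c : SL(2, ℤ)} (hc : c ∈ threeSub M)
    (hgh : (QuotientGroup.mk g : SL(2, ℤ) ⧸ (Gamma 2 ⊓ Gamma0 M)) = QuotientGroup.mk h) :
    (QuotientGroup.mk (g * c) : SL(2, ℤ) ⧸ (Gamma 2 ⊓ Gamma0 M)) = QuotientGroup.mk (h * c) := by
  rw [QuotientGroup.eq] at hgh ⊢
  rw [show (g * c)⁻¹ * (h * c) = c⁻¹ * (g⁻¹ * h) * c by group]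
  refine ⟨?_, (Gamma0 M).mul_mem ((Gamma0 M).mul_mem ((Gamma0 M).inv_mem hc.1) hgh.2) hc.1⟩
  have := (Gamma_normal 2).conj_mem _ hgh.1 c⁻¹
  rwa [inv_inv] at this

/-- The restriction of an invariant family without residue to one class has no residue. -/
lemma res_infty_eq_zero [Fintype (SL(2, ℤ) ⧸ (Gamma 2 ⊓ Gamma0 M))] {R : Type*} [CommRing R]
    [IsDomain R] [CharZero R] (p : SL(2, ℤ) → R)
    (hwd : ∀ g : SL(2, ℤ), p (QuotientGroup.mk g : SL(2, ℤ) ⧸ (Gamma 2 ⊓ Gamma0 M)).out⁻¹ = p g⁻¹)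
    {γ : SL(2, ℤ)} (hγ : γ ∈ threeSub M) (htr : (red2 γ).1.trace = 1)
    (hinv : ∀ δ, p (γ * δ) = p δ)
    (hres : ∑ x : SL(2, ℤ) ⧸ (Gamma 2 ⊓ Gamma0 M), p x.out⁻¹ = 0) :
    (∑ x : SL(2, ℤ) ⧸ (Gamma 2 ⊓ Gamma0 M), if IsInftyClass x.out⁻¹ then p x.out⁻¹ else 0) =
      0 := by
  set S := ∑ x : SL(2, ℤ) ⧸ (Gamma 2 ⊓ Gamma0 M), if IsInftyClass x.out⁻¹ then p x.out⁻¹ else 0
  have h3 : ∀ e ∈ Finset.range 3, (∑ x : SL(2, ℤ) ⧸ (Gamma 2 ⊓ Gamma0 M),
      if IsInftyClass (γ ^ e * x.out⁻¹) then p x.out⁻¹ else 0) = S := by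
    intro e _
    let r : SL(2, ℤ) ⧸ (Gamma 2 ⊓ Gamma0 M) → SL(2, ℤ) ⧸ (Gamma 2 ⊓ Gamma0 M) :=
      fun x => QuotientGroup.mk (x.out * (γ ^ e)⁻¹)
    have hr : Function.Injective r := fun x y hxy => by
      have h := mk_mul_eq (pow_mem hγ e) hxy
      simpa [mul_assoc] using h
    have hpe : ∀ δ, p (γ ^ e * δ) = p δ := by
      clear hr r
      intro δ
      rename_i he
      clear he
      induction e generalizing δ with
      | zero => simp
      | succ e ih => rw [pow_succ, mul_assoc, ih, hinv]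
    refine Fintype.sum_equiv (Equiv.ofBijective r (Finite.injective_iff_bijective.1 hr)) _ _
      fun x => ?_
    simp only [Equiv.ofBijective_apply, r]
    obtain ⟨⟨u, hu⟩, hg⟩ := QuotientGroup.mk_out_eq_mul (Gamma 2 ⊓ Gamma0 M) (x.out * (γ ^ e)⁻¹)
    rw [hwd, mul_inv_rev, inv_inv, hpe, hg, mul_inv_rev, mul_inv_rev, inv_inv]
    simp only [isInftyClass_mul_of_mem_Gamma (inv_mem hu : u⁻¹ ∈ Gamma 2 ⊓ Gamma0 M).1]
  have h := Finset.sum_congr rfl h3
  rw [Finset.sum_comm, Finset.sum_congr rfl fun x _ => sum_range_three_ite htr _ _, hres,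
    Finset.sum_const, Finset.card_range, nsmul_eq_mul] at h
  exact (mul_eq_zero.1 h.symm).resolve_left (by exact_mod_cast (by norm_num : (3 : ℕ) ≠ 0))

/-- The translates removing the polar parts of an invariant lift. -/
theorem exists_correction [IsAlgClosed k] [IsNoetherianRing O] (H : LevelHyp 2 L O) (red : O →+* k)
    (π : O) (hπ0 : π ≠ 0) (hsurj : Function.Surjective red) (hker : ∀ r, red r = 0 ↔ π ∣ r)
    (hjac : π ∈ (⊥ : Ideal O).jacobson) (hS : SpecialFibre L O π.1 π.2)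
    (hL : Gamma L ≤ Gamma 2 ⊓ Gamma0 M) {γ : SL(2, ℤ)} (hγ : γ ∈ threeSub M)
    (htr : (red2 γ).1.trace = 1) (a₁ : weak (Gamma 2 ⊓ Gamma0 M) L O)
    (hinv : ∀ δ, diffExp C H.le (γ * δ) (Subring.inclusion (weak_mono hL le_rfl) a₁) =
      diffExp C H.le δ (Subring.inclusion (weak_mono hL le_rfl) a₁))
    (hred : ∀ δ (i : ℤ), i ≤ 0 →
      red ((diffExp C H.le δ (Subring.inclusion (weak_mono hL le_rfl) a₁)).coeff i) = 0) :
    ∃ q : weak (Gamma 2 ⊓ Gamma0 M) L O, ∀ δ (i : ℤ), i ≤ 0 →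
      (diffExp C H.le δ (Subring.inclusion (weak_mono hL le_rfl) a₁)).coeff i =
        π * ∑ e ∈ Finset.range 3,
          (diffExp C H.le (γ ^ e * δ) (Subring.inclusion (weak_mono hL le_rfl) q)).coeff i := by
  classical
  have : (Gamma 2 ⊓ Gamma0 M).FiniteIndex := Subgroup.finiteIndex_of_le hL
  let : Fintype (SL(2, ℤ) ⧸ (Gamma 2 ⊓ Gamma0 M)) := Subgroup.fintypeQuotientOfFiniteIndex
  obtain ⟨hres0, hpolar⟩ := exists_polar_weak C red π H hπ0 hsurj hker hjac hS hL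
    (inf_le_left : Gamma 2 ⊓ Gamma0 M ≤ Gamma 2) one_zero_mem
  set z : SL(2, ℤ) → LaurentSeries O :=
    fun δ => diffExp C H.le δ (Subring.inclusion (weak_mono hL le_rfl) a₁) with hz
  choose q₀ hq₀ using fun (δ : SL(2, ℤ)) (i : ℤ) => (hker _).mp (show
    red (if i ≤ 0 then (z δ).coeff i else 0) = 0 by
      split_ifs with hi
      · exact hred δ i hi
      · exact map_zero red)
  have hq1 : ∀ δ (i : ℤ), i ≤ 0 → (z δ).coeff i = π * q₀ δ i := fun δ i hi => by
    have h := hq₀ δ i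
    rwa [if_pos hi] at h
  have hq2 : ∀ δ (i : ℤ), 0 < i → q₀ δ i = 0 := fun δ i hi => by
    have h := hq₀ δ i
    rw [if_neg (not_le.mpr hi)] at h
    exact (mul_eq_zero.1 h.symm).resolve_left hπ0
  let p : SL(2, ℤ) → LaurentSeries O := fun δ =>
    ⟨q₀ δ, (z δ).isPWO_support.mono fun i hi => by
      rcases le_or_gt i 0 with h | h
      · show (z δ).coeff i ≠ 0
        rw [hq1 δ i h]
        exact mul_ne_zero hπ0 hi
      · exact absurd (hq2 δ i h) hi⟩
  -- `p` only depends on the expansion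
  have hpext : ∀ δ δ', z δ = z δ' → p δ = p δ' := fun δ δ' h => HahnSeries.ext (funext fun i => by
    rcases le_or_gt i 0 with hi | hi
    · exact mul_left_cancel₀ (a := π) hπ0 ((hq1 δ i hi).symm.trans (h ▸ hq1 δ' i hi))
    · exact (hq2 δ i hi).trans (hq2 δ' i hi).symm)
  have hzwd : ∀ g : SL(2, ℤ),
      z (QuotientGroup.mk g : SL(2, ℤ) ⧸ (Gamma 2 ⊓ Gamma0 M)).out⁻¹ = z g⁻¹ := fun g =>
    diffExp_mk C H.le hL inf_le_left a₁ g
  have hpinv : ∀ δ, p (γ * δ) = p δ := fun δ => hpext _ _ (hinv δ)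
  have hpT : ∀ δ, p (δ * ModularGroup.T) = twist (zetaUnit H.le) (p δ) := fun δ =>
    HahnSeries.ext (funext fun i => by
      rw [ModularFunctionField.twist_coeff]
      rcases le_or_gt i 0 with hi | hi
      · refine mul_left_cancel₀ (a := π) hπ0 ?_
        show π * q₀ (δ * ModularGroup.T) i = π * (_ * q₀ δ i)
        rw [← hq1 _ i hi, hz]
        simp only
        rw [diffExp_T C H.le, ModularFunctionField.twist_coeff, mul_left_comm π, ← hq1 δ i hi]
      · show q₀ (δ * ModularGroup.T) i = _ * q₀ δ i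
        rw [hq2 _ i hi, hq2 _ i hi, mul_zero])
  let v : SL(2, ℤ) ⧸ (Gamma 2 ⊓ Gamma0 M) → LaurentSeries O :=
    fun x => if IsInftyClass x.out⁻¹ then p x.out⁻¹ else 0
  have hvmk : ∀ g : SL(2, ℤ), v (QuotientGroup.mk g) =
      if IsInftyClass g⁻¹ then p g⁻¹ else 0 := fun g => by
    obtain ⟨⟨u, hu⟩, hg⟩ := QuotientGroup.mk_out_eq_mul (Gamma 2 ⊓ Gamma0 M) g
    simp only [v]
    rw [hpext _ _ (hzwd g)]
    simp only [hg, mul_inv_rev,
      isInftyClass_mul_of_mem_Gamma (inv_mem hu : u⁻¹ ∈ Gamma 2 ⊓ Gamma0 M).1]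
  have hvfam : IsFam (transl (Gamma 2 ⊓ Gamma0 M)) (zetaUnit H.le) v := fun x => by
    induction x using QuotientGroup.induction_on with
    | H g =>
      rw [transl_apply, MulAction.Quotient.smul_mk, smul_eq_mul, hvmk, hvmk, mul_inv_rev, inv_inv]
      simp only [isInftyClass_mul_T]
      split_ifs with hc
      · exact hpT _
      · rw [map_zero]
  have hvpos : ∀ x (i : ℤ), 0 < i → (v x).coeff i = 0 := fun x i hi => by
    simp only [v]
    split_ifs
    · exact hq2 _ i hi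
    · rfl
  have hvres : res v = 0 := by
    have h0 : ∑ x : SL(2, ℤ) ⧸ (Gamma 2 ⊓ Gamma0 M), q₀ x.out⁻¹ 0 = 0 := by
      refine (mul_eq_zero.1 ?_).resolve_left hπ0
      rw [Finset.mul_sum, Finset.sum_congr rfl fun x _ => (hq1 _ 0 le_rfl).symm]
      exact hres0 a₁
    have h := res_infty_eq_zero (fun δ => q₀ δ 0)
      (fun g => congrArg (fun s : LaurentSeries O => s.coeff 0) (hpext _ _ (hzwd g))) hγ htr
      (fun δ => congrArg (fun s : LaurentSeries O => s.coeff 0) (hpinv δ)) h0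
    rw [res, ← h]
    refine Finset.sum_congr rfl fun x _ => ?_
    simp only [v]
    split_ifs <;> rfl
  obtain ⟨q, hq⟩ := hpolar v hvfam hvpos hvres
  refine ⟨q, fun δ i hi => ?_⟩
  have hpe : ∀ e : ℕ, ∀ δ, p (γ ^ e * δ) = p δ := fun e => by
    induction e with
    | zero => simp
    | succ e ih => intro δ; rw [pow_succ, mul_assoc, ih, hpinv]
  rw [Finset.sum_congr rfl fun e _ => show (diffExp C H.le (γ ^ e * δ)
      (Subring.inclusion (weak_mono hL le_rfl) q)).coeff i =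
        if IsInftyClass (γ ^ e * δ) then q₀ δ i else 0 by
      rw [hq _ i hi, hvmk, inv_inv, hpe]
      split_ifs <;> rfl, sum_range_three_ite htr]
  exact hq1 δ i hi

/-- The corrected differential is invariant. -/
lemma diffFun_invariant {γ g : SL(2, ℤ)} (hγ : γ ∈ threeSub M) (htr : (red2 γ).1.trace = 1)
    (hg : g ∈ threeSub M) (f q : weak (Gamma 2 ⊓ Gamma0 M) L O)
    (hf : ∀ δ, DiffLift.diffFun C f.1 (γ * δ) = DiffLift.diffFun C f.1 δ) (c : ℍ → ℂ)
    (δ : SL(2, ℤ)) :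
    DiffLift.diffFun C f.1 (g * δ) -
        c * ∑ e ∈ Finset.range 3, DiffLift.diffFun C q.1 (γ ^ e * (g * δ)) =
      DiffLift.diffFun C f.1 δ - c * ∑ e ∈ Finset.range 3, DiffLift.diffFun C q.1 (γ ^ e * δ) := by
  have hΓfun : ∀ (f : weak (Gamma 2 ⊓ Gamma0 M) L O), ∀ u ∈ Gamma 2 ⊓ Gamma0 M, ∀ δ,
      DiffLift.diffFun C f.1 (u * δ) = DiffLift.diffFun C f.1 δ := fun f u hu δ => by
    rw [DiffLift.diffFun, DiffLift.diffFun, comp_t_mul C hu.1, ← comp_comp, f.2.2.1 u hu]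
  have hsum1 : ∀ δ, ∑ e ∈ Finset.range 3, DiffLift.diffFun C q.1 (γ ^ e * (γ * δ)) =
      ∑ e ∈ Finset.range 3, DiffLift.diffFun C q.1 (γ ^ e * δ) := fun δ => by
    simp only [Finset.sum_range_succ, Finset.sum_range_zero, zero_add, pow_zero, one_mul,
      pow_one, ← mul_assoc, ← pow_two]
    rw [show γ ^ 2 * γ = γ ^ 3 from (pow_succ γ 2).symm, hΓfun q _ (pow_three_mem hγ htr) δ]
    abel
  obtain ⟨d, u, hu, rfl⟩ := exists_pow_mul hγ htr hg
  have hconj : ∀ e : ℕ, γ ^ e * u * (γ ^ e)⁻¹ ∈ Gamma 2 ⊓ Gamma0 M := fun e =>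
    ⟨(Gamma_normal 2).conj_mem _ hu.1 _, (Gamma0 M).mul_mem ((Gamma0 M).mul_mem
      ((Gamma0 M).pow_mem hγ.1 e) hu.2) ((Gamma0 M).inv_mem ((Gamma0 M).pow_mem hγ.1 e))⟩
  rw [mul_assoc, hΓfun f u hu, Finset.sum_congr rfl fun e _ => show
      DiffLift.diffFun C q.1 (γ ^ e * (u * (γ ^ d * δ))) =
        DiffLift.diffFun C q.1 (γ ^ e * (γ ^ d * δ)) by
    rw [show γ ^ e * (u * (γ ^ d * δ)) = γ ^ e * u * (γ ^ e)⁻¹ * (γ ^ e * (γ ^ d * δ)) by group,
      hΓfun q _ (hconj e)]]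
  induction d with
  | zero => rw [pow_zero, one_mul]
  | succ d ih =>
    rw [pow_succ', mul_assoc γ, hf, hsum1]
    exact ih (mem_threeSub.2 ⟨(Gamma0 M).mul_mem hu.2 ((Gamma0 M).pow_mem hγ.1 d),
      threeTwo.mul_mem (Gamma_two_le_threeTwo hu.1) (threeTwo.pow_mem hγ.2 d)⟩)

/-- **Differentials at odd level lift once they lift invariantly.** -/
theorem exists_cuspForm_lift_of_invariant [NeZero M] [IsAlgClosed k] (h2 : 2 ∣ L) (red : O →+* k)
    (π : O) (H : LevelHyp 2 L O) {n₀ : ℕ} (hB : CoeffHyp O π.1 n₀)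
    (hsurj : Function.Surjective red) (hker : ∀ r, red r = 0 ↔ π ∣ r) (hML : M ∣ L) (hM : Odd M)
    (a : LRing L O)
    (ha : ∀ (δ : SL(2, ℤ)) (i : ℤ), i ≤ 0 →
      red ((diffExp (lamChart L h2) H.le δ a).coeff i) = 0)
    (hinv : ∀ γ ∈ Gamma0 M, ∀ δ,
      coeffMap red (diffExp (lamChart L h2) H.le (γ * δ) a) =
        coeffMap red (diffExp (lamChart L h2) H.le δ a))
    (hlift : InvariantLift h2 M red H.le a) :
    ∃ (F : CuspForm (Gamma0 M) 2) (c : ℕ → O), (∀ n, qCoeff F n = c n) ∧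
      ∀ n, red (c n) = red ((diffExp (lamChart L h2) H.le 1 a).coeff ((L : ℤ) * n)) := by
  classical
  have := hB.dvr
  generalize hC : lamChart L h2 = C at ha hinv ⊢
  have hπ0 : π ≠ 0 := hB.irred.ne_zero
  have hjac : π ∈ (⊥ : Ideal O).jacobson := by
    rw [IsLocalRing.jacobson_eq_maximalIdeal ⊥ bot_ne_top]
    exact (IsLocalRing.mem_maximalIdeal _).mpr hB.irred.not_isUnit
  have hS := specialFibre H hB (localGen H hB)
  have hL : Gamma L ≤ Gamma 2 ⊓ Gamma0 M := Gamma_le_inf h2 hML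
  obtain ⟨a₁, ha₁inv, ha₁red⟩ := hlift
  rw [hC] at ha₁inv ha₁red
  -- `a₁` is of level `Γ(2) ∩ Γ₀(M)`
  have ha₁mem : a₁.1 ∈ weak (Gamma 2 ⊓ Gamma0 M) L O := by
    refine ⟨a₁.2.1, fun u hu => ?_, a₁.2.2.2⟩
    have h := ha₁inv u (inf_le_threeSub hu) 1
    have ht : expB L O u (chartTL C H.le) = expB L O 1 (chartTL C H.le) := by
      have := expB_ext (f := chartTL C H.le) (g := chartTL C H.le) (comp_t_mul C hu.1 1)
      rwa [mul_one] at this
    simp only [diffExp, mul_one, ht] at h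
    have hne : theta (expB L O 1 (chartTL C H.le)) ≠ 0 := fun h0 => by
      have := coeffMap_theta_t_ne_zero C red H.le 1
      rw [h0, map_zero] at this
      exact this rfl
    have h' := congrArg (coeffMap O.subtype) (mul_right_cancel₀ hne h)
    rw [coeffMap_expB, coeffMap_expB, expAt_apply, expAt_apply] at h'
    have e1 := hasExp_expansion a₁.2 u
    have e2 := hasExp_expansion a₁.2 1
    rw [h'] at e1
    rw [comp_one] at e2 e1
    exact e1.fun_eq e2
  obtain ⟨γ, hγ, htr⟩ := exists_threeSub_trace hM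
  obtain ⟨f₁, rfl⟩ : ∃ f₁ : weak (Gamma 2 ⊓ Gamma0 M) L O,
      Subring.inclusion (weak_mono hL le_rfl) f₁ = a₁ := ⟨⟨a₁.1, ha₁mem⟩, Subtype.ext rfl⟩
  obtain ⟨q, hq⟩ := exists_correction C H red π hπ0 hsurj hker hjac hS hL hγ htr f₁
    (fun δ => ha₁inv γ hγ δ) fun δ i hi => by
      rw [← ModularCurve.coeffMap_coeff red, ha₁red δ, ModularCurve.coeffMap_coeff]
      exact ha δ i hi
  set incl : weak (Gamma 2 ⊓ Gamma0 M) L O →+* LRing L O :=
    Subring.inclusion (weak_mono hL le_rfl)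
  let G : SL(2, ℤ) → ℍ → ℂ := fun δ => DiffLift.diffFun C f₁.1 δ -
    (fun _ => (π : ℂ)) * ∑ e ∈ Finset.range 3, DiffLift.diffFun C q.1 (γ ^ e * δ)
  let ser : SL(2, ℤ) → LaurentSeries O := fun δ => diffExp C H.le δ (incl f₁) -
    HahnSeries.C π * ∑ e ∈ Finset.range 3, diffExp C H.le (γ ^ e * δ) (incl q)
  have hlow : ∀ δ, LowBd 1 (ser δ) := fun δ i hi => by
    simp only [ser, HahnSeries.coeff_sub, HahnSeries.C_mul_eq_smul, HahnSeries.coeff_smul,
      smul_eq_mul, HahnSeries.coeff_sum]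
    rw [hq δ i (by omega), sub_self]
  have hGexp : ∀ δ, HasExp L (G δ) (HahnSeries.C ((L : ℂ)⁻¹) * coeffMap O.subtype (ser δ)) := by
    intro δ
    have h := (hasExp_diffFun C H.le δ (incl f₁)).sub ((HasExp.const (L := L) (π : ℂ)).mul
      (HasExp.finset_sum (Finset.range 3)
        fun e _ => hasExp_diffFun C H.le (γ ^ e * δ) (incl q)))
    have e : HahnSeries.C ((L : ℂ)⁻¹) * coeffMap O.subtype (ser δ) =
        HahnSeries.C ((L : ℂ)⁻¹) * coeffMap O.subtype (diffExp C H.le δ (incl f₁)) -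
          HahnSeries.single 0 (π : ℂ) * ∑ e ∈ Finset.range 3, HahnSeries.C ((L : ℂ)⁻¹) *
            coeffMap O.subtype (diffExp C H.le (γ ^ e * δ) (incl q)) := by
      simp only [ser, map_sub, map_mul, map_sum, HahnSeries.C_apply,
        ModularCurve.coeffMap_single, Subring.coe_subtype]
      rw [← Finset.mul_sum, mul_sub]
      ring
    rw [e]
    exact h
  have hGsl : ∀ δ ε : SL(2, ℤ), ∀ τ : ℍ, G δ (ε • τ) * denom ε τ ^ (-2 : ℤ) = G (δ * ε) τ := fun δ ε τ => by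
    have hx : ∀ (f : ℍ → ℂ) (u : SL(2, ℤ)), DiffLift.diffFun C f u (ε • τ) *
        denom ε τ ^ (-2 : ℤ) = DiffLift.diffFun C f (u * ε) τ := fun f u => by
      rw [← ModularForm.SL_slash_apply, DiffLift.diffFun_slash]
    simp only [G, Pi.sub_apply, Pi.mul_apply, Finset.sum_apply, sub_mul, mul_assoc, Finset.sum_mul,
      hx]
  have hG3 : ∀ g ∈ threeSub M, ∀ δ, G (g * δ) = G δ := fun g hg δ =>
    diffFun_invariant C hγ htr hg f₁ q (fun δ => (hasExp_diffFun C H.le (γ * δ) (incl f₁)).fun_eq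
      (by rw [ha₁inv γ hγ δ]; exact hasExp_diffFun C H.le δ (incl f₁))) _ δ
  obtain ⟨F, c, hc, hc'⟩ := exists_cuspForm_of_invariant h2 H.le G ser hGexp hlow hGsl hG3
  refine ⟨F, c, hc, fun n => ?_⟩
  have hπ : red π = 0 := (hker _).mpr dvd_rfl
  have hs : ∀ δ, coeffMap red (ser δ) = coeffMap red (diffExp C H.le δ a) := fun δ => by
    simp only [ser, map_sub, map_mul, HahnSeries.C_apply, ModularCurve.coeffMap_single, hπ,
      HahnSeries.single_eq_zero, zero_mul, sub_zero, ha₁red]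
  have h := congrArg red (hc' n)
  rw [map_mul, map_ofNat, ← ModularCurve.coeffMap_coeff red, map_add, hs, hs,
    ← mul_one ModularGroup.T, hinv _ T_mem_Gamma0, HahnSeries.coeff_add,
    ModularCurve.coeffMap_coeff, ← two_mul] at h
  refine mul_left_cancel₀ ?_ h
  have h2u : IsUnit (2 : O) := by
    obtain ⟨d, hd⟩ := h2
    have hu := isUnit_natCast_level (L := L) H.le
    rw [hd, Nat.cast_mul, Nat.cast_ofNat] at hu
    exact isUnit_of_mul_isUnit_left hu
  simpa [map_ofNat] using (h2u.map red).ne_zero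

end Fermat.Agent.AtP.ThreeOdd
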