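import Fermat.Agent.AtP.ThreeOdd.Points
import Mathlib.Data.Fintype.EquivFin

/-!
# An exactly invariant differential from vanishing at the fixed points

Away from the points fixed by the element of order three the trace is surjective; near such a
point `a = Tr (- a / (t + 1) ^ 2)` as `∑ (x + i) ^ 2 = -1` in characteristic three, `x = 1/(t+1)`.
-/

set_option autoImplicit false

noncomputable section

open UpperHalfPlane CongruenceSubgroup
open scoped MatrixGroups

namespace Fermat.Agent.AtP.ThreeOdd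

open Fermat.Agent.KummerES
open DiffLift (diffExp)

variable {M L : ℕ} [NeZero L] {O : Subring ℂ} {k : Type*} [Field k]

/-- A generator of `threeSub M` modulo `Γ(2) ∩ Γ₀(M)`, inverse to `ρ` modulo two. -/
lemma exists_gam (hM : Odd M) :
    ∃ γ ∈ threeSub M, red2 γ = (red2 rhoMat)⁻¹ ∧ γ * γ * γ ∈ gamP M := by
  let γ : SL(2, ℤ) :=
    ⟨!![1, 1; (M : ℤ), M + 1], by rw [Matrix.det_fin_two_of]; ring⟩
  have hred : red2 γ = (red2 rhoMat)⁻¹ := by
    have e : ((M : ℤ) : ZMod 2) = 1 := by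
      rw [Int.cast_natCast, ← ZMod.natCast_mod, Nat.odd_iff.1 hM, Nat.cast_one]
    refine Subtype.ext ?_
    rw [show ((red2 rhoMat)⁻¹).1 = !![1, 1; 1, 0] by decide]
    have h2 : (1 : ZMod 2) + 1 = 0 := rfl
    have h2' : (M : ZMod 2) = 1 := by exact_mod_cast e
    ext i j
    fin_cases i <;> fin_cases j <;> simp [γ, red2, h2', h2]
  have h0 : γ ∈ Gamma0 M := by simp [γ, Gamma0_mem]
  have h3 : γ ∈ threeTwo := by
    rw [mem_threeTwo, hred]
    exact Or.inr (by decide)
  refine ⟨γ, ⟨h0, h3⟩, hred, Subgroup.mem_inf.mpr ⟨?_, mul_mem (mul_mem h0 h0) h0⟩⟩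
  rw [Gamma_two_eq, MonoidHom.mem_ker, map_mul, map_mul, hred]
  decide

omit [NeZero L] in
lemma compL_compL (a b : SL(2, ℤ)) (f : LRing L O) : compL a (compL b f) = compL (b * a) f :=
  Subtype.ext (by rw [coe_compL, coe_compL, coe_compL, comp_comp])

lemma conj_mem_gamP {g η : SL(2, ℤ)} (hg : g ∈ Gamma0 M) (hη : η ∈ gamP M) :
    g * η * g⁻¹ ∈ gamP M :=
  Subgroup.mem_inf.mpr ⟨(Gamma_normal 2).conj_mem _ hη.1 g,
    mul_mem (mul_mem hg (Subgroup.mem_inf.mp hη).2) (inv_mem hg)⟩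

omit [NeZero L] in
/-- Translates by `Γ₀(M)` of invariant functions are invariant. -/
lemma IsGam.compL {f : LRing L O} (hf : IsGam M f) {g : SL(2, ℤ)} (hg : g ∈ Gamma0 M) :
    IsGam M (ThreeOdd.compL g f) := fun η hη => by
  rw [compL_compL, show g * η = g * η * g⁻¹ * g by group, ← compL_compL,
    hf _ (conj_mem_gamP hg hη)]

/-- The two possible transformations of `t` under an element of order three modulo two. -/
lemma tL_comp_rel (h2 : 2 ∣ L) (hO : zetaRing L ≤ O) {g : SL(2, ℤ)}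
    (hg : (red2 g).1.trace = 1) :
    compL g (tL h2 hO) * tL h2 hO = tL h2 hO - 1 ∨
      compL g (tL h2 hO) * (1 - tL h2 hO) = 1 := by
  rcases mob_of_trace hg with e | e
  · refine Or.inl (Subtype.ext (funext fun τ => ?_))
    simp only [Subring.coe_mul, coe_compL, coe_tL, AddSubgroupClass.coe_sub, Subring.coe_one,
      Pi.mul_apply, Pi.sub_apply, Pi.one_apply, comp_apply]
    have h0 := lam_ne_zero τ
    have h1 : 1 - lam τ ≠ 0 := sub_ne_zero.mpr (lam_ne_one τ).symm
    show (lam (g • τ))⁻¹ * (lam τ)⁻¹ = (lam τ)⁻¹ - 1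
    rw [lam_smul, e _ h0 (lam_ne_one τ)]
    field_simp
  · refine Or.inr (Subtype.ext (funext fun τ => ?_))
    simp only [Subring.coe_mul, coe_compL, coe_tL, AddSubgroupClass.coe_sub, Subring.coe_one,
      Pi.mul_apply, Pi.sub_apply, Pi.one_apply, comp_apply]
    have h0 := lam_ne_zero τ
    have h1 : lam τ - 1 ≠ 0 := sub_ne_zero.mpr (lam_ne_one τ)
    show (lam (g • τ))⁻¹ * (1 - (lam τ)⁻¹) = 1
    rw [lam_smul, e _ h0 (lam_ne_one τ)]
    field_simp

namespace Sys

variable (S : Sys L O k)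

/-- The slope of an element of order three at a point is `1` modulo `π`, and the second
derivative is a unit. -/
lemma ev_slope [CharP k 3] {g : SL(2, ℤ)} (hg : (red2 g).1.trace = 1) {z : ℍ} (hz : IsCM z) :
    S.ev z hz (S.D (compL g (tL S.h2 S.hO))) = 1 ∧
      S.ev z hz (S.D (S.D (compL g (tL S.h2 S.hO)))) ≠ 0 := by
  have h3 : (3 : k) = 0 := CharP.cast_eq_zero k 3
  have ht : S.ev z hz (tL S.h2 S.hO) = -1 := evalAt_tL S.h2 S.hO S.e hz
  set u := compL g (tL S.h2 S.hO)
  set U := S.ev z hz u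
  set V := S.ev z hz (S.D u)
  set X := S.ev z hz (S.D (S.D u))
  rcases tL_comp_rel S.h2 S.hO hg with h | h
  · have e0 := congrArg (S.ev z hz) h
    have e1 := congrArg (fun f => S.ev z hz (S.D f)) h
    have e2 := congrArg (fun f => S.ev z hz (S.D (S.D f))) h
    simp only [Sys.D, map_sub, map_add, derivT_mul, derivT_tL, derivT_one, mul_one, sub_zero,
      map_zero] at e0 e1 e2
    simp only [Sys.ev, map_mul, map_one] at e0 e1 e2
    change U * S.ev z hz (tL S.h2 S.hO) = S.ev z hz (tL S.h2 S.hO) - 1 at e0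
    change V * S.ev z hz (tL S.h2 S.hO) + U = 1 at e1
    change X * S.ev z hz (tL S.h2 S.hO) + V + V = 0 at e2
    rw [ht] at e0 e1 e2
    have hV : V = 1 := by linear_combination -e1 - e0
    refine ⟨hV, fun hX => one_ne_zero (α := k) ?_⟩
    linear_combination h3 - e2 + 2 * hV - hX
  · have e0 := congrArg (S.ev z hz) h
    have e1 := congrArg (fun f => S.ev z hz (S.D f)) h
    have e2 := congrArg (fun f => S.ev z hz (S.D (S.D f))) h
    simp only [Sys.D, map_sub, map_add, map_neg, derivT_mul, derivT_tL, derivT_one, mul_neg, mul_one,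
      zero_sub, map_zero] at e0 e1 e2
    simp only [Sys.ev, map_mul, map_sub, map_one] at e0 e1 e2
    change U * (1 - S.ev z hz (tL S.h2 S.hO)) = 1 at e0
    change V * (1 - S.ev z hz (tL S.h2 S.hO)) + -U = 0 at e1
    change X * (1 - S.ev z hz (tL S.h2 S.hO)) + -V + -V = 0 at e2
    rw [ht] at e0 e1 e2
    have hV : V = 1 := by linear_combination 2 * e1 + e0 - V * h3
    refine ⟨hV, fun hX => one_ne_zero (α := k) ?_⟩
    linear_combination h3 + e2 + 2 * hV - 2 * hX

/-- Invariance of the differential at all cusps is congruence of the translated function. -/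
lemma R_tw_eq {g : SL(2, ℤ)} {a : LRing L O}
    (h : ∀ δ, S.R (g * δ) a * S.w (g * δ) = S.R δ a * S.w δ) (δ : SL(2, ℤ)) :
    S.R δ (tw S.h2 S.hO g a) = S.R δ a :=
  mul_right_cancel₀ (S.w_ne_zero δ) ((S.R_tw g δ a).trans (h δ))

/-- An invariant differential vanishes at a fixed point. -/
theorem ev_eq_zero_of_fixed [CharP k 3] {g : SL(2, ℤ)} (hg : (red2 g).1.trace = 1) {z : ℍ}
    (hz : IsCM z) (hgz : g • z = z) {a : LRing L O}
    (h : ∀ δ, S.R (g * δ) a * S.w (g * δ) = S.R δ a * S.w δ) : S.ev z hz a = 0 := by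
  have hval : ∀ f : LRing L O, S.ev z hz (compL g f) = S.ev z hz f := fun f =>
    evalAt_congr S.h2 S.hO S.e _ _ (by rw [coe_compL, comp_apply, hgz])
  have e := S.ev_D_eq hz (S.R_tw_eq h)
  obtain ⟨h1, h2⟩ := S.ev_slope hg hz
  rw [show tw S.h2 S.hO g a = compL g a * S.D (compL g (tL S.h2 S.hO)) from rfl, Sys.D, derivT_mul,
    derivT_compL, map_add, map_mul, map_mul, map_mul, hval, hval,
    show S.ev z hz (derivT S.h2 S.hO (compL g (tL S.h2 S.hO))) = 1 from h1, mul_one, mul_one,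
    add_eq_left, mul_eq_zero] at e
  exact e.resolve_right h2

variable [CharP k 3]

/-- The translated square inverses of `t + 1` add up to `-1`. -/
lemma sum_inv_sq {γ : SL(2, ℤ)} (hγ : (red2 γ).1.trace = 1) (δ : SL(2, ℤ)) :
    (S.R δ (muL S.h2 S.hO))⁻¹ ^ 2 + (S.R (γ * δ) (muL S.h2 S.hO))⁻¹ ^ 2 +
      (S.R (γ * (γ * δ)) (muL S.h2 S.hO))⁻¹ ^ 2 = -1 := by
  have h3 : (3 : LaurentSeries k) = 0 := by
    rw [← map_ofNat (HahnSeries.C : k →+* LaurentSeries k) 3,
      show (3 : k) = 0 from CharP.cast_eq_zero k 3, map_zero]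
  have hμ : ∀ η, S.R η (muL S.h2 S.hO) = S.R η (tL S.h2 S.hO) + 1 := fun η => by
    rw [muL, map_add, map_one]
  have hne : ∀ η, S.R η (tL S.h2 S.hO) + 1 ≠ 0 := fun η => hμ η ▸ S.R_muL_ne_zero η
  rcases tL_comp_rel S.h2 S.hO hγ with h | h
  · have step : ∀ η, (S.R (γ * η) (muL S.h2 S.hO))⁻¹ = (S.R η (muL S.h2 S.hO))⁻¹ - 1 := by
      intro η
      have e := congrArg (S.R η) h
      rw [map_mul, map_sub, map_one, R_compL] at e
      rw [hμ, hμ]
      have h1 := hne η
      have h2 := hne (γ * η)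
      field_simp
      linear_combination e + S.R η (tL S.h2 S.hO) * h3
    rw [step (γ * δ), step δ]
    generalize (S.R δ (muL S.h2 S.hO))⁻¹ = x
    linear_combination (x ^ 2 - 2 * x + 2) * h3
  · have step : ∀ η, (S.R (γ * η) (muL S.h2 S.hO))⁻¹ = (S.R η (muL S.h2 S.hO))⁻¹ + 1 := by
      intro η
      have e := congrArg (S.R η) h
      rw [map_mul, map_sub, map_one, R_compL] at e
      rw [hμ, hμ]
      have h1 := hne η
      have h2 := hne (γ * η)
      field_simp
      linear_combination e - S.R (γ * η) (tL S.h2 S.hO) * h3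
    rw [step (γ * δ), step δ]
    generalize (S.R δ (muL S.h2 S.hO))⁻¹ = x
    linear_combination (x ^ 2 + 2 * x + 2) * h3

omit [CharP k 3] in
/-- An element `γ` of order three modulo `Γ(2) ∩ Γ₀(M)` permutes the points by `sh`, of order
dividing three, whose fixed points are fixed in `ℍ` by elements of trace one of `threeSub M`. -/
lemma exists_shift (hML : M ∣ L) {γ : SL(2, ℤ)} (hγ : γ ∈ threeSub M)
    (hγ2 : red2 γ = (red2 rhoMat)⁻¹) (hγ3 : γ * γ * γ ∈ gamP M) :
    ∃ sh : Pts M → Pts M,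
      (∀ {f : LRing L O}, IsGam M f → ∀ x, S.val x (compL γ f) = S.val (sh x) f) ∧
      (∀ x, sh (sh (sh x)) = x) ∧
      ∀ x, sh x = x → ∃ σ ∈ threeSub M, σ 0 0 + σ 1 1 = 1 ∧ (red2 σ).1.trace = 1 ∧
        σ • pt x = pt x := by
  classical
  have := finite_pts S.h2 hML
  let := Fintype.ofFinite (Pts M)
  have hker : ∀ x : Pts M, γ * rep x * rhoMat ∈ Gamma 2 := fun x => by
    have := rep_mem x
    rw [Gamma_two_eq, MonoidHom.mem_ker] at this ⊢
    rw [map_mul, map_mul, this, hγ2, mul_one, inv_mul_cancel]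
  set sh : Pts M → Pts M := fun x => cls (γ * rep x * rhoMat) (hker x)
  have hval : ∀ {f : LRing L O}, IsGam M f → ∀ x, S.val x (compL γ f) = S.val (sh x) f := by
    intro f hf x
    rw [S.val_cls hf]
    exact evalAt_congr S.h2 S.hO S.e _ _ (by
      rw [coe_compL, comp_apply, pt, mul_smul, mul_smul, rhoMat_smul])
  refine ⟨sh, hval, fun x => ?_, fun x hx => ?_⟩
  · choose δe hδe hδev using fun x => S.exists_delta (M := M) hML x
    by_contra hne
    have h := hval (((hδe x).compL hγ.1).compL hγ.1) x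
    rw [hval ((hδe x).compL hγ.1), hval (hδe x), compL_compL, compL_compL, ← mul_assoc,
      hδe x _ hγ3] at h
    rw [hδev, hδev, if_pos rfl, if_neg hne] at h
    exact one_ne_zero h
  · have hmem : γ * rep x * rhoMat * (rep x)⁻¹ ∈ gamP M :=
      (cls_eq_iff (hker x) (rep_mem x)).mp (hx.trans (cls_rep x).symm)
    set σ := rep x * rhoMat * (rep x)⁻¹
    have hσ : σ ∈ threeSub M := by
      rw [show σ = γ⁻¹ * (γ * rep x * rhoMat * (rep x)⁻¹) by simp [σ, mul_assoc]]
      exact mul_mem (inv_mem hγ) (inf_le_threeSub hmem)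
    have htr : σ 0 0 + σ 1 1 = 1 := by
      have e : (σ : Matrix (Fin 2) (Fin 2) ℤ).trace =
          (rhoMat : Matrix (Fin 2) (Fin 2) ℤ).trace := by
        rw [Matrix.SpecialLinearGroup.coe_mul, Matrix.SpecialLinearGroup.coe_mul,
          Matrix.trace_mul_cycle, ← Matrix.SpecialLinearGroup.coe_mul, inv_mul_cancel,
          Matrix.SpecialLinearGroup.coe_one, one_mul]
      simpa [Matrix.trace_fin_two, rhoMat] using e
    refine ⟨σ, hσ, htr, ?_, ?_⟩
    · have := congrArg (Int.cast : ℤ → ZMod 2) htr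
      push_cast at this
      simpa [red2, Matrix.trace_fin_two] using this
    · rw [pt, ← mul_smul, show σ * rep x = rep x * rhoMat by simp [σ], mul_smul, rhoMat_smul]

omit [CharP k 3] in
open scoped Classical in
/-- A function `E` taking the value `1` at one point of each free orbit and `0` at the others: its
trace `h` is invariant and vanishes exactly at the fixed points. -/
lemma exists_orbit_indicator (hML : M ∣ L) {γ : SL(2, ℤ)} (hγ0 : γ ∈ Gamma0 M)
    (hγ3 : γ * γ * γ ∈ gamP M) {sh : Pts M → Pts M}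
    (hval : ∀ {f : LRing L O}, IsGam M f → ∀ x, S.val x (compL γ f) = S.val (sh x) f)
    (hsh : ∀ x, sh (sh (sh x)) = x) :
    ∃ E h : LRing L O, IsGam M E ∧ IsGam M h ∧ h = E + compL γ E + compL γ (compL γ E) ∧
      compL γ h = h ∧ ∀ x, S.val x h = if sh x = x then 0 else 1 := by
  classical
  have := finite_pts S.h2 hML
  let := Fintype.ofFinite (Pts M)
  choose δe hδe hδev using fun x => S.exists_delta (M := M) hML x
  obtain ⟨N, ⟨en⟩⟩ := Finite.exists_equiv_fin (Pts M)
  set P : Pts M → Prop := fun x => en x < en (sh x) ∧ en x < en (sh (sh x))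
  set E : LRing L O := ∑ x ∈ Finset.univ.filter P, δe x
  have hE : IsGam M E := IsGam.sum _ fun x _ => hδe x
  have hEv : ∀ y, S.val y E = if P y then 1 else 0 := fun y => by
    simp only [E, map_sum, hδev, Finset.sum_ite_eq, Finset.mem_filter, Finset.mem_univ, true_and]
  refine ⟨E, _, hE, (hE.add (hE.compL hγ0)).add ((hE.compL hγ0).compL hγ0), rfl, ?_, fun x => ?_⟩
  · have hc : compL γ (compL γ (compL γ E)) = E := by
      rw [compL_compL, compL_compL, ← mul_assoc, hE _ hγ3]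
    rw [map_add, map_add, hc]; ring
  · rw [map_add, map_add, hval (hE.compL hγ0), hval hE, hval hE, hEv, hEv, hEv]
    by_cases hx : sh x = x
    · simp [P, hx]
    · rw [if_neg hx]
      have h12 : sh (sh x) ≠ sh x := fun e => hx (by
        have := congrArg (fun y => sh (sh y)) e
        simp only [hsh] at this
        exact this)
      have h02 : sh (sh x) ≠ x := fun e => hx (by
        have := congrArg sh e
        rw [hsh] at this
        exact this.symm)
      have n1 : en (sh x) ≠ en x := fun e => hx (en.injective e)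
      have n2 : en (sh (sh x)) ≠ en x := fun e => h02 (en.injective e)
      have n3 : en (sh (sh x)) ≠ en (sh x) := fun e => h12 (en.injective e)
      simp only [P, hsh]
      rcases lt_or_gt_of_ne n1 with a1 | a1 <;> rcases lt_or_gt_of_ne n2 with a2 | a2 <;>
        rcases lt_or_gt_of_ne n3 with a3 | a3 <;>
        simp [a1, a2, a3, a1.not_gt, a2.not_gt, a3.not_gt] <;> omega

omit [CharP k 3] in
/-- The three translates of a function of level `Γ(2) ∩ Γ₀(M)` add up to a differential invariant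
under `threeSub M`. -/
lemma diffExp_trace_invariant {γ : SL(2, ℤ)} (hγ : γ ∈ threeSub M)
    (hγ2 : red2 γ = (red2 rhoMat)⁻¹) (hγ3 : γ * γ * γ ∈ gamP M) {φ : LRing L O} (hφ : IsGam M φ)
    {σ : SL(2, ℤ)} (hσ : σ ∈ threeSub M) (δ : SL(2, ℤ)) :
    diffExp (lamChart L S.h2) S.hO (σ * δ)
        (φ + tw S.h2 S.hO γ φ + tw S.h2 S.hO (γ * γ) φ) =
      diffExp (lamChart L S.h2) S.hO δ (φ + tw S.h2 S.hO γ φ + tw S.h2 S.hO (γ * γ) φ) := by
  set F : SL(2, ℤ) → LaurentSeries O := fun η => diffExp (lamChart L S.h2) S.hO η φ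
  have hF : ∀ η ∈ gamP M, ∀ δ, F (η * δ) = F δ := fun η hη δ => by
    show diffExp _ _ _ φ = diffExp _ _ _ φ
    rw [← diffExp_tw, show tw S.h2 S.hO η φ = φ from ?_]
    show compL η φ * derivT S.h2 S.hO (compL η (tL S.h2 S.hO)) = φ
    rw [hφ η hη, IsGam.tL S.h2 S.hO η hη, derivT_tL, mul_one]
  have hexp : ∀ δ, diffExp (lamChart L S.h2) S.hO δ
      (φ + tw S.h2 S.hO γ φ + tw S.h2 S.hO (γ * γ) φ) = F δ + F (γ * δ) + F (γ * γ * δ) :=
    fun δ => by
      simp only [F, ← diffExp_tw]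
      simp only [diffExp, map_add, add_mul]
  have hgen : ∀ δ, F (γ * δ) + F (γ * (γ * δ)) + F (γ * γ * (γ * δ)) =
      F δ + F (γ * δ) + F (γ * γ * δ) := fun δ => by
    rw [← mul_assoc γ γ δ, show γ * γ * (γ * δ) = γ * γ * γ * δ by group, hF _ hγ3]
    abel
  have hgam : ∀ η ∈ gamP M, ∀ δ, F (η * δ) + F (γ * (η * δ)) + F (γ * γ * (η * δ)) =
      F δ + F (γ * δ) + F (γ * γ * δ) := fun η hη δ => by
    rw [hF η hη, show γ * (η * δ) = γ * η * γ⁻¹ * (γ * δ) by group, hF _ (conj_mem_gamP hγ.1 hη),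
      show γ * γ * (η * δ) = γ * γ * η * (γ * γ)⁻¹ * (γ * γ * δ) by group,
      hF _ (conj_mem_gamP (mul_mem hγ.1 hγ.1) hη)]
  rw [hexp, hexp]
  obtain ⟨e, u, hu, rfl⟩ := exists_pow_mul hγ (by rw [hγ2]; decide) hσ
  rw [mul_assoc u]
  refine (hgam u hu _).trans ?_
  clear hσ
  induction e with
  | zero => rw [pow_zero, one_mul]
  | succ e ih =>
    rw [pow_succ', mul_assoc, ← ih]
    simpa only [mul_assoc] using hgen (γ ^ e * δ)

/-- With `h` the invariant trace of `E` and `c = (1 - h)² a / (t + 1)²`, the trace of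
`φ = E (2 - h) a - c` is congruent to `a`, as `∑ (t + 1)⁻² = -1` over the translates. -/
lemma coeffMap_diffExp_trace {γ : SL(2, ℤ)} (hγ : γ ∈ threeSub M)
    (hγ2 : red2 γ = (red2 rhoMat)⁻¹) {a E h c : LRing L O}
    (hinv : ∀ g ∈ threeSub M, ∀ δ, S.R (g * δ) a * S.w (g * δ) = S.R δ a * S.w δ)
    (hh : h = E + compL γ E + compL γ (compL γ E)) (hhγ : compL γ h = h)
    (hcR : ∀ δ, S.R δ ((1 - h) * (1 - h) * a) =
      S.R δ (muL S.h2 S.hO) ^ 2 * S.R δ c) (δ : SL(2, ℤ)) :
    ModularCurve.coeffMap S.red (diffExp (lamChart L S.h2) S.hO δ ((E * (2 - h) * a - c) +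
        tw S.h2 S.hO γ (E * (2 - h) * a - c) + tw S.h2 S.hO (γ * γ) (E * (2 - h) * a - c))) =
      ModularCurve.coeffMap S.red (diffExp (lamChart L S.h2) S.hO δ a) := by
  have htr : (red2 γ).1.trace = 1 := by rw [hγ2]; decide
  rw [coeffMap_diffExp, coeffMap_diffExp, map_add, map_add, add_mul, add_mul, R_tw, R_tw]
  set φ := E * (2 - h) * a - c with hφ
  set A := S.R δ a * S.w δ
  have hA : ∀ η ∈ threeSub M, S.R (η * δ) a * S.w (η * δ) = A := fun η hη => hinv η hη δ
  have hinvh : ∀ {η : SL(2, ℤ)}, η = γ ∨ η = γ * γ → S.R (η * δ) h = S.R δ h := by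
    intro η hη
    rw [← R_compL]
    rcases hη with rfl | rfl
    · rw [hhγ]
    · rw [← compL_compL, hhγ, hhγ]
  set H := S.R δ h
  set m₀ := S.R δ (muL S.h2 S.hO)
  have hterm : ∀ η, η ∈ threeSub M → S.R (η * δ) h = H → S.R (η * δ) φ * S.w (η * δ) =
      S.R (η * δ) E * (2 - H) * A -
        (1 - H) * (1 - H) * A * (S.R (η * δ) (muL S.h2 S.hO))⁻¹ ^ 2 := by
    intro η hη hH
    have hm := S.R_muL_ne_zero (η * δ)
    have e := hcR (η * δ)
    rw [map_mul, map_mul, map_sub, map_one, hH] at e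
    have hc' : S.R (η * δ) c = (1 - H) * (1 - H) * S.R (η * δ) a *
        (S.R (η * δ) (muL S.h2 S.hO))⁻¹ ^ 2 := by
      rw [e]; field_simp
    rw [hφ, map_sub, map_mul, map_mul, map_sub, map_ofNat, hH, hc']
    linear_combination (S.R (η * δ) E * (2 - H) -
      (1 - H) * (1 - H) * (S.R (η * δ) (muL S.h2 S.hO))⁻¹ ^ 2) * hA η hη
  have t0 := hterm 1 (one_mem _) (by rw [one_mul])
  rw [one_mul] at t0
  rw [t0, hterm γ hγ (hinvh (Or.inl rfl)),
    hterm (γ * γ) (mul_mem hγ hγ) (hinvh (Or.inr rfl))]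
  have hs := S.sum_inv_sq htr δ
  rw [← mul_assoc γ γ δ] at hs
  have hHE : S.R δ E + S.R (γ * δ) E + S.R (γ * γ * δ) E = H := by
    show _ = S.R δ h
    rw [hh, map_add, map_add, R_compL, R_compL, R_compL, ← mul_assoc]
  linear_combination (2 - H) * A * hHE - (1 - H) * (1 - H) * A * hs

/-- **The exactly invariant differential.** -/
theorem exists_invariant (hM : Odd M) (hML : M ∣ L) {a : LRing L O} (ha : IsGam M a)
    (hinv : ∀ g ∈ threeSub M, ∀ δ, S.R (g * δ) a * S.w (g * δ) = S.R δ a * S.w δ)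
    (hcrit : ∀ g ∈ threeSub M, g 0 0 + g 1 1 = 1 → ∀ (z : ℍ) (hz : IsCM z), g • z = z →
      S.ev z hz (S.D a) = 0) :
    InvariantLift S.h2 M S.red S.hO a := by
  classical
  obtain ⟨γ, hγ, hγ2, hγ3⟩ := exists_gam hM
  obtain ⟨sh, hval, hsh, hshfix⟩ := S.exists_shift hML hγ hγ2 hγ3
  obtain ⟨E, h, hE, hhΓ, hh, hhγ, hvh⟩ := S.exists_orbit_indicator hML hγ.1 hγ3 hval hsh
  have hfix : ∀ x, sh x = x → S.val x a = 0 ∧ S.val x (S.D a) = 0 := by
    intro x hx
    obtain ⟨σ, hσ, htr, hσ2, hfx⟩ := hshfix x hx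
    exact ⟨S.ev_eq_zero_of_fixed hσ2 (isCM_pt x) hfx (hinv σ hσ),
      hcrit σ hσ htr _ (isCM_pt x) hfx⟩
  have hga0 : ∀ x, S.val x ((1 - h) * (1 - h) * a) = 0 := fun x => by
    rw [map_mul, map_mul, map_sub, map_one, hvh]
    by_cases hx : sh x = x
    · rw [(hfix x hx).1, mul_zero]
    · simp [hx]
  have hga1 : ∀ x, S.val x (S.D ((1 - h) * (1 - h) * a)) = 0 := fun x => by
    rw [Sys.D, derivT_mul, derivT_mul, map_add, map_mul, map_mul, map_mul, map_add, map_mul,
      map_mul, show S.val x (1 - h) = 1 - S.val x h by rw [map_sub, map_one], hvh]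
    by_cases hx : sh x = x
    · rw [(hfix x hx).1, show S.val x (derivT S.h2 S.hO a) = 0 from (hfix x hx).2]
      ring
    · simp [hx]
  obtain ⟨c, hc, hcR⟩ := S.exists_eq_muL_sq_mul hML
    (((IsGam.one.sub hhΓ).mul (IsGam.one.sub hhΓ)).mul ha) hga0 hga1
  have hφ : IsGam M (E * (2 - h) * a - c) := by
    refine ((hE.mul ?_).mul ha).sub hc
    rw [← one_add_one_eq_two]
    exact (IsGam.one.add IsGam.one).sub hhΓ
  exact ⟨_, fun σ hσ δ => S.diffExp_trace_invariant hγ hγ2 hγ3 hφ hσ δ,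
    fun δ => S.coeffMap_diffExp_trace hγ hγ2 hinv hh hhγ hcR δ⟩

end Sys

end Fermat.Agent.AtP.ThreeOdd
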