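import Fermat.Agent.AtP.ThreeOdd.HeckeSum
import Fermat.Agent.AtP.ClassThreeElliptic
import Fermat.Agent.AtP.ThreeOdd.TraceLift

/-!
# The derivative of an eigen differential vanishes at the fixed points

For `ℓ ≡ 1 (mod 3)` the `ℓ + 1` terms of `T_ℓ (a θ t)` at a point fixed by an element of trace one
form orbits of order three, whose derivatives cancel modulo `3`, and two terms which both have the
derivative of `a`; an eigenvalue other than `2` forces the latter to vanish.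
-/

set_option autoImplicit false

noncomputable section

open UpperHalfPlane CongruenceSubgroup Derivative
open scoped MatrixGroups OnePoint

namespace Fermat.Agent.AtP.ThreeOdd

open Fermat.Agent.KummerES
open HeckeLattice (Idx gamma0System)
open Matrix.SpecialLinearGroup (mapGL)
open DiffLift (diffExp)

variable {M L ℓ : ℕ} [NeZero L] [hℓ : Fact ℓ.Prime] {O : Subring ℂ} {k : Type*} [Field k]

namespace Sys

variable (S : Sys L O k)

lemma ev_raise (H' : LevelHyp 2 (L * ℓ) O) {z : ℍ} (hz : IsCM z) {f : LRing L O}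
    {g : LRing (L * ℓ) O} (h : g.1 z = f.1 z) : (S.raise H').ev z hz g = S.ev z hz f :=
  congrArg S.e (Subtype.ext h)

lemma R_hk_congr (H' : LevelHyp 2 (L * ℓ) O) (x : Idx ℓ) {f g : LRing L O}
    (h : ∀ δ, S.R δ f = S.R δ g) (δ : SL(2, ℤ)) :
    (S.raise H').R δ (hk H'.le x f) = (S.raise H').R δ (hk H'.le x g) := by
  obtain ⟨u, rfl⟩ := S.exists_eq_add h
  rw [map_add, map_mul, show hk H'.le x (cst S.π) = cst (S.raise H').π from rfl, map_add,
    R_π_mul, add_zero]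

lemma tw_bx (H' : LevelHyp 2 (L * ℓ) O) (a : LRing L O) {γ u : SL(2, ℤ)} {x y : Idx ℓ}
    (h : HeckeLattice.rep ℓ x * mapGL ℝ γ = mapGL ℝ u * HeckeLattice.rep ℓ y) :
    tw (S.raise H').h2 (S.raise H').hO γ (S.bx H' a x) =
      hk H'.le y (tw S.h2 S.hO u a) * (S.raise H').D (hk H'.le y (tL S.h2 S.hO)) := by
  show compL γ (hk H'.le x a * derivT _ _ (hk H'.le x (tL S.h2 S.hO))) * derivT _ _ (compL γ _) =
    hk H'.le y (compL u a * derivT S.h2 S.hO (compL u (tL S.h2 S.hO))) * _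
  rw [map_mul, mul_assoc, ← derivT_compL, compL_hk H'.le h, compL_hk H'.le h,
    derivT_hk S.h2 S.hO H'.le y (compL u (tL S.h2 S.hO)), map_mul, mul_assoc]

/-- Values and derivatives of a translate at a fixed point. -/
lemma ev_tw_fixed [CharP k 3] {g : SL(2, ℤ)} (hg : (red2 g).1.trace = 1) {z : ℍ} (hz : IsCM z)
    (hgz : g • z = z) (f : LRing L O) :
    S.ev z hz (tw S.h2 S.hO g f) = S.ev z hz f ∧
      S.ev z hz (S.D (tw S.h2 S.hO g f)) =
        S.ev z hz (S.D f) + S.ev z hz f * S.ev z hz (S.D (S.D (compL g (tL S.h2 S.hO)))) := by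
  have hval : ∀ u : LRing L O, S.ev z hz (compL g u) = S.ev z hz u := fun u =>
    evalAt_congr S.h2 S.hO S.e _ _ (by rw [coe_compL, comp_apply, hgz])
  obtain ⟨h1, -⟩ := S.ev_slope hg hz
  have h1' : S.ev z hz (derivT S.h2 S.hO (compL g (tL S.h2 S.hO))) = 1 := h1
  show S.ev z hz (compL g f * derivT S.h2 S.hO (compL g (tL S.h2 S.hO))) = _ ∧
    S.ev z hz (S.D (compL g f * derivT S.h2 S.hO (compL g (tL S.h2 S.hO)))) = _
  refine ⟨by rw [map_mul, hval, h1', mul_one], ?_⟩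
  rw [Sys.D, derivT_mul, derivT_compL, map_add, map_mul, map_mul, map_mul, hval, hval, h1',
    mul_one, mul_one]

/-- The term of a fixed coset. -/
lemma ev_D_bx_fixed [CharP k 3] (h3 : ℓ % 3 = 1) (H' : LevelHyp 2 (L * ℓ) O) {a : LRing L O}
    {g g₀ : SL(2, ℤ)} (hg : g 0 0 + g 1 1 = 1) {z : ℍ} (hz : IsCM z) (hgz : g • z = z)
    (ha0 : S.ev z hz a = 0) (hinv : ∀ δ, S.R δ (tw S.h2 S.hO g₀ a) = S.R δ a) {j : ZMod ℓ}
    {p q : ℤ} (hpq : p ^ 2 + p * q + q ^ 2 = (ℓ : ℤ))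
    (hA : ((mapGL ℝ g₀ * HeckeLattice.rep ℓ (j : Idx ℓ) : GL (Fin 2) ℝ) : Matrix (Fin 2) (Fin 2) ℝ) =
      !![((p + q * g 0 0 : ℤ) : ℝ), ((q * g 0 1 : ℤ) : ℝ);
        ((q * g 1 0 : ℤ) : ℝ), ((p + q * g 1 1 : ℤ) : ℝ)]) :
    (S.raise H').ev z hz ((S.raise H').D (S.bx H' a (j : Idx ℓ))) = S.ev z hz (S.D a) := by
  have h3k : (3 : k) = 0 := CharP.cast_eq_zero k 3
  set A : GL (Fin 2) ℝ := mapGL ℝ g₀ * HeckeLattice.rep ℓ (j : Idx ℓ)
  have hdet := g.det_coe
  rw [Matrix.det_fin_two] at hdet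
  have hAdet : A.val.det = (ℓ : ℝ) := by
    rw [hA, Matrix.det_fin_two_of, ← Int.cast_mul, ← Int.cast_mul, ← Int.cast_sub,
      show (p + q * g 0 0) * (p + q * g 1 1) - q * g 0 1 * (q * g 1 0) = (ℓ : ℤ) by
        linear_combination hpq + q ^ 2 * hdet + p * q * hg, Int.cast_natCast]
  have hact : ∀ w : ℍ, g₀ • HeckeLattice.rep ℓ (j : Idx ℓ) • w = A • w := fun w => by
    rw [show g₀ • HeckeLattice.rep ℓ (j : Idx ℓ) • w =
      mapGL ℝ g₀ • HeckeLattice.rep ℓ (j : Idx ℓ) • w from rfl, ← mul_smul]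
  have hpos : 0 < A.val.det := by
    rw [hAdet]; exact_mod_cast hℓ.out.pos
  -- the eigenvalue
  set μ : ℂ := (g 1 0 : ℂ) * z + g 1 1 with hμdef
  have hμne : μ ≠ 0 := by
    have := denom_ne_zero g z
    simpa [μ, denom] using this
  have hfix : (g 0 0 : ℂ) * z + g 0 1 = z * μ := by
    have h := congrArg (fun w : ℍ => (w : ℂ)) hgz
    simp only [UpperHalfPlane.specialLinearGroup_apply] at h
    have h' : ((g 0 0 : ℂ) * z + g 0 1) / μ = z := by simpa [μ] using h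
    exact (div_eq_iff hμne).mp h'
  have hμ2 : μ ^ 2 - μ + 1 = 0 := by
    have hg' : (g 0 0 : ℂ) + g 1 1 = 1 := by exact_mod_cast hg
    have hd' : (g 0 0 : ℂ) * g 1 1 - g 0 1 * g 1 0 = 1 := by exact_mod_cast hdet
    linear_combination (μ : ℂ) * hg' - hd' - (g 1 0 : ℂ) * hfix
  have hden : denom A z = (p : ℂ) + q * μ := by
    rw [denom, hA]
    simp [μ]
    ring
  have hAz : A • z = z := by
    apply UpperHalfPlane.ext
    rw [coe_smul_of_det_pos (by simpa using hpos), div_eq_iff (denom_ne_zero A z), hden, num, hA]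
    simp
    linear_combination (q : ℂ) * hfix
  have hint : IsIntegral O μ :=
    ⟨Polynomial.X ^ 2 - Polynomial.X + 1, by monicity!, by simpa using hμ2⟩
  set μ' : integralClosure O ℂ := ⟨μ, hint⟩
  have heμ : S.e μ' = -1 := by
    have h : S.e μ' ^ 2 - S.e μ' + 1 = 0 := by
      have := congrArg S.e (show μ' ^ 2 - μ' + 1 = 0 from Subtype.ext hμ2)
      simpa using this
    have : (S.e μ' + 1) ^ 2 = 0 := by linear_combination h + S.e μ' * h3k
    exact eq_neg_of_add_eq_zero_left (pow_eq_zero_iff two_ne_zero |>.mp this)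
  -- rewrite the term
  set C : LRing (L * ℓ) O :=
    (S.raise H').D (hk H'.le (j : Idx ℓ) (compL g₀ (tL S.h2 S.hO))) with hC
  have hC' : C = hk H'.le (j : Idx ℓ) (derivT S.h2 S.hO (compL g₀ (tL S.h2 S.hO))) *
      (S.raise H').D (hk H'.le (j : Idx ℓ) (tL S.h2 S.hO)) := derivT_hk S.h2 S.hO H'.le _ _
  have hb : ∀ δ, (S.raise H').R δ (S.bx H' a (j : Idx ℓ)) =
      (S.raise H').R δ (hk H'.le (j : Idx ℓ) (compL g₀ a) * C) := fun δ => by
    rw [hC', ← mul_assoc, ← map_mul (hk H'.le (j : Idx ℓ)), bx, map_mul, map_mul]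
    exact congrArg (· * _) ((S.R_hk_congr H' _ hinv δ).symm)
  have hD : (S.raise H').D (hk H'.le (j : Idx ℓ) (compL g₀ a)) =
      hk H'.le (j : Idx ℓ) (compL g₀ (S.D a)) * C := by
    rw [hC', ← mul_assoc, ← map_mul (hk H'.le (j : Idx ℓ)), ← derivT_compL]
    exact derivT_hk S.h2 S.hO H'.le _ _
  have hval : ∀ f : LRing L O,
      (S.raise H').ev z hz (hk H'.le (j : Idx ℓ) (compL g₀ f)) = S.ev z hz f := fun f => by
    refine S.ev_raise H' hz ?_
    rw [coe_hk, coe_compL, comp_apply, hact, hAz]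
  have hCz : C.1 z * ((p : ℂ) + q * μ) ^ 2 = ℓ := by
    have hfun : (hk H'.le (j : Idx ℓ) (compL g₀ (tL S.h2 S.hO))).1 = fun σ => tFun (A • σ) :=
      funext fun σ => by
        rw [coe_hk, coe_compL, comp_apply, coe_tL, hact]
    rw [hC, Sys.D, coe_derivT, hfun, ← hden]
    show normalizedDerivOfComplex (fun σ => tFun (A • σ)) z / _ * _ = _
    rw [deriv_comp_GL mdiff_tFun hpos, hAz, hAdet]
    have h1 := deriv_tFun_ne_zero z
    have h2 := denom_ne_zero A z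
    push_cast
    field_simp
  have hℓ1 : (ℓ : k) = 1 := by
    conv_lhs => rw [← Nat.div_add_mod ℓ 3, h3]
    push_cast
    rw [h3k, zero_mul, zero_add]
  have hC1 : (S.raise H').ev z hz C = 1 := by
    have h : (S.raise H').ev z hz C * (S.e ((p : integralClosure O ℂ) + q * μ')) ^ 2 = (ℓ : k) := by
      rw [← map_natCast S.e ℓ]
      refine ((congrArg (_ * ·) (map_pow S.e _ 2).symm).trans (map_mul S.e _ _).symm).trans
        (congrArg S.e (Subtype.ext ?_))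
      simpa [μ'] using hCz
    rw [map_add, map_mul, heμ, map_intCast, map_intCast, hℓ1] at h
    have hpq' : (p : k) ^ 2 + p * q + q ^ 2 = 1 := by
      rw [← hℓ1]; exact_mod_cast congrArg (Int.cast : ℤ → k) hpq
    linear_combination h - (S.raise H').ev z hz C * hpq' +
      (S.raise H').ev z hz C * (p : k) * q * h3k
  rw [(S.raise H').ev_D_eq hz hb, Sys.D, derivT_mul, map_add, map_mul, map_mul,
    show derivT (S.raise H').h2 (S.raise H').hO (hk H'.le (j : Idx ℓ) (compL g₀ a)) = _ from hD,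
    map_mul, hval, hval, ha0, hC1]
  ring

/-- **The derivative vanishes at the fixed points.** -/
theorem ev_D_eq_zero_of_eigen [CharP k 3] (hML : M ∣ L) {a : LRing L O}
    (hinv : ∀ γ ∈ Gamma0 M, ∀ δ, S.R (γ * δ) a * S.w (γ * δ) = S.R δ a * S.w δ)
    (ha : ∀ i : ℤ, i ≤ 0 → S.red ((diffExp (lamChart L S.h2) S.hO 1 a).coeff i) = 0)
    (heig : EigenPrimes S.h2 S.red S.hO a) {g : SL(2, ℤ)} (hg0 : g ∈ Gamma0 M)
    (hg : g 0 0 + g 1 1 = 1) {z : ℍ} (hz : IsCM z) (hgz : g • z = z) :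
    S.ev z hz (S.D a) = 0 := by
  classical
  have hg2 : (red2 g).1.trace = 1 := by
    have := congrArg (Int.cast : ℤ → ZMod 2) hg
    push_cast at this
    simpa [red2, Matrix.trace_fin_two] using this
  have hdet := g.det_coe
  rw [Matrix.det_fin_two] at hdet
  have hc0 : g 1 0 ≠ 0 := fun h => by
    rw [h, mul_zero, sub_zero] at hdet
    nlinarith [sq_nonneg (g 0 0 - g 1 1)]
  obtain ⟨ℓ, hℓ, hℓm, h3, ⟨H'⟩, aℓ, haℓ, hheig⟩ := heig (L * (g 1 0).natAbs)
    (Nat.mul_pos (Nat.pos_of_ne_zero (NeZero.ne L)) (Int.natAbs_pos.mpr hc0))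
  have hℓL : ¬ ℓ ∣ L := fun h => hℓm (h.mul_right _)
  have hℓM : ¬ ℓ ∣ M := fun h => hℓL (h.trans hML)
  have hc : ¬ (ℓ : ℤ) ∣ g 1 0 := fun h => hℓm ((Int.natCast_dvd.mp h).mul_left _)
  set γ : Gamma0 M := ⟨g, hg0⟩
  obtain ⟨j, g₀, p, q, hne, honly, hs, hfix⟩ := exists_fixed_pair hℓM γ h3 hg hc
  set CS := gamma0System M ℓ hℓM
  set S' := S.raise H'
  set F : Idx ℓ → k := fun x => S'.ev z hz (S'.D (S.bx H' a x))
  set E : Idx ℓ → k := fun x => S'.ev z hz (S.bx H' a x)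
  set X := S'.ev z hz (S'.D (S'.D (compL g (tL S'.h2 S'.hO))))
  have hrel : ∀ x, E (CS.next γ x) = E x ∧ F (CS.next γ x) = F x + E x * X := by
    intro x
    have h : HeckeLattice.rep ℓ x * mapGL ℝ g = mapGL ℝ (CS.cocycle γ x : SL(2, ℤ)) * HeckeLattice.rep ℓ (CS.next γ x) :=
      CS.rep_mul γ x
    have e : ∀ δ, S'.R δ (tw S'.h2 S'.hO g (S.bx H' a x)) = S'.R δ (S.bx H' a (CS.next γ x)) :=
      fun δ => by
        rw [S.tw_bx H' a h, bx, map_mul, map_mul,
          S.R_hk_congr H' _ (S.R_tw_eq (hinv _ (CS.cocycle γ x).2)) δ]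
    obtain ⟨e1, e2⟩ := S'.ev_tw_fixed hg2 hz hgz (S.bx H' a x)
    exact ⟨(S'.ev_eq hz e).symm.trans e1, (S'.ev_D_eq hz e).symm.trans e2⟩
  have ha0 : S.ev z hz a = 0 := S.ev_eq_zero_of_fixed hg2 hz hgz (hinv g hg0)
  have hF : ∀ i, F (j i : Idx ℓ) = S.ev z hz (S.D a) := fun i =>
    S.ev_D_bx_fixed h3 H' hg hz hgz ha0 (S.R_tw_eq (hinv _ (g₀ i).2)) (hfix i).2.2.1 (hfix i).2.2.2
  set T : Finset (Idx ℓ) := (Finset.univ.erase (j 0 : Idx ℓ)).erase (j 1 : Idx ℓ) with hT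
  have hmem : ∀ x, x ∈ T ↔ x ≠ (j 0 : Idx ℓ) ∧ x ≠ (j 1 : Idx ℓ) := fun x => by
    simp [hT, and_comm]
  have hfx : ∀ i, CS.next γ (j i : Idx ℓ) = (j i : Idx ℓ) := fun i => (hfix i).1
  have hrest := sum_eq_zero_of_triangle (CS.next γ) hs F T
    (fun x hx => by
      obtain ⟨h1, h2⟩ := (hmem x).mp hx
      refine (hmem _).mpr ⟨fun h => h1 ?_, fun h => h2 ?_⟩
      · rw [← hs x, h, hfx, hfx]
      · rw [← hs x, h, hfx, hfx])
    (fun x hx h => ((honly x h).elim ((hmem x).mp hx).1 ((hmem x).mp hx).2))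
    (fun x _ => by
      rw [(hrel (CS.next γ x)).2, (hrel x).2, (hrel x).1]
      linear_combination (F x + E x * X) * (CharP.cast_eq_zero k 3 : ((3 : ℕ) : k) = 0))
  have htot : ∑ x : Idx ℓ, F x = (aℓ : k) * S.ev z hz (S.D a) := by
    have h := S'.ev_D_eq hz (S.R_sum_bx hℓL H' (hinv _ T_mem_Gamma0) ha aℓ hheig)
    rw [map_sum, map_sum, map_zsmul, map_zsmul, zsmul_eq_mul] at h
    exact h.trans (congrArg (_ * ·) (S.ev_raise H' hz rfl))
  rw [← Finset.add_sum_erase _ _ (Finset.mem_univ (j 0 : Idx ℓ)),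
    ← Finset.add_sum_erase _ _ (Finset.mem_erase.mpr
      ⟨fun h => hne.symm (OnePoint.coe_injective h), Finset.mem_univ (j 1 : Idx ℓ)⟩),
    ← hT, hrest, add_zero, hF, hF] at htot
  by_contra hne0
  exact haℓ (mul_right_cancel₀ hne0 (htot.symm.trans (two_mul _).symm))

end Sys

end Fermat.Agent.AtP.ThreeOdd
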