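import Fermat.Agent.AtP.ThreeOdd.Sys
import Fermat.Agent.KummerES.HeckeWeak
import Fermat.Agent.KummerES.SpecialFibreMain
import Fermat.Agent.AtP.DiffLiftCusps

/-!
# Composition with the representatives of `T_ℓ`

`f ↦ f (rep x • τ)` maps the ring of level `L` to the ring of level `L * ℓ`.
-/

set_option autoImplicit false

noncomputable section

open UpperHalfPlane CongruenceSubgroup Derivative
open scoped MatrixGroups Manifold OnePoint

namespace Fermat.Agent.AtP.ThreeOdd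

open Fermat.Agent.KummerES
open HeckeLattice (Idx rep)
open Matrix.SpecialLinearGroup (mapGL)
open ModularCurve (coeffMap qExpand)
open Fermat.Agent.ModularFunctionField (theta subst)
open DiffLift (zetaUnit)

/-- The chain rule for a matrix of positive determinant. -/
lemma deriv_comp_GL {f : ℍ → ℂ} (hf : MDiff f) {g : GL (Fin 2) ℝ} (hg : 0 < g.val.det) (τ : ℍ) :
    normalizedDerivOfComplex (fun σ => f (g • σ)) τ =
      normalizedDerivOfComplex f (g • τ) * ((g.val.det : ℂ) / denom g τ ^ 2) := by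
  have h1 := (UpperHalfPlane.hasStrictDerivAt_smul hg τ).hasDerivAt
  have h2 : HasDerivAt (f ∘ ofComplex) (deriv (f ∘ ofComplex) ((g • τ : ℍ) : ℂ))
      (((fun z : ℂ => ((g • ofComplex z : ℍ) : ℂ))) (τ : ℂ)) := by
    simp only [ofComplex_apply]
    exact (UpperHalfPlane.mdifferentiableAt_iff.1 (hf _)).hasDerivAt
  have e : (f ∘ ofComplex) ∘ (fun z : ℂ => ((g • ofComplex z : ℍ) : ℂ)) =
      (fun σ => f (g • σ)) ∘ ofComplex := funext fun z => by
    simp only [Function.comp_apply, ofComplex_apply]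
  have h3 := (h2.comp (τ : ℂ) h1).deriv
  rw [e] at h3
  rw [normalizedDerivOfComplex, normalizedDerivOfComplex, h3]
  ring

lemma derivFun_comp_GL {f : ℍ → ℂ} (hf : MDiff f) {g : GL (Fin 2) ℝ} (hg : 0 < g.val.det) :
    derivFun (fun σ => f (g • σ)) =
      (fun σ => derivFun f (g • σ)) * derivFun (fun σ => tFun (g • σ)) := by
  funext τ
  simp only [derivFun, Pi.mul_apply, deriv_comp_GL hf hg, deriv_comp_GL mdiff_tFun hg]
  have h1 := deriv_tFun_ne_zero (g • τ)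
  have h2 := deriv_tFun_ne_zero τ
  field_simp

variable {L ℓ : ℕ} [NeZero L] [hℓ : Fact ℓ.Prime] {O : Subring ℂ}

omit [NeZero L] in
lemma exists_rep_mul_Gamma {γ : SL(2, ℤ)} (hγ : γ ∈ Gamma (L * ℓ)) (x : Idx ℓ) :
    ∃ u ∈ Gamma L, rep ℓ x * mapGL ℝ γ = mapGL ℝ u * rep ℓ x := by
  have hl : (ℓ : ℝ) ≠ 0 := by exact_mod_cast hℓ.out.ne_zero
  obtain ⟨h00, h01, h10, h11⟩ := Gamma_mem.mp hγ
  have e00 : ((L * ℓ : ℕ) : ℤ) ∣ γ 0 0 - 1 := by
    rw [← ZMod.intCast_zmod_eq_zero_iff_dvd]; push_cast; rw [h00, sub_self]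
  have e11 : ((L * ℓ : ℕ) : ℤ) ∣ γ 1 1 - 1 := by
    rw [← ZMod.intCast_zmod_eq_zero_iff_dvd]; push_cast; rw [h11, sub_self]
  obtain ⟨a, ha⟩ := e00
  obtain ⟨d, hd⟩ := e11
  obtain ⟨b, hb⟩ := (ZMod.intCast_zmod_eq_zero_iff_dvd _ _).mp h01
  obtain ⟨c, hc⟩ := (ZMod.intCast_zmod_eq_zero_iff_dvd _ _).mp h10
  have hdet := γ.det_coe
  rw [Matrix.det_fin_two] at hdet
  push_cast at ha hb hc hd
  have ha' : γ 0 0 = 1 + L * ℓ * a := by linear_combination ha
  have hd' : γ 1 1 = 1 + L * ℓ * d := by linear_combination hd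
  rw [ha', hd', hb, hc] at hdet
  have mk : ∀ p q r s : ℤ, p * s - q * r = 1 → (L : ℤ) ∣ p - 1 → (L : ℤ) ∣ q → (L : ℤ) ∣ r →
      (L : ℤ) ∣ s - 1 → ∃ u ∈ Gamma L, (u : Matrix (Fin 2) (Fin 2) ℤ) = !![p, q; r, s] := by
    intro p q r s h hp hq hr hs
    refine ⟨⟨!![p, q; r, s], by rw [Matrix.det_fin_two_of]; exact h⟩,
      Gamma_mem.mpr ⟨?_, ?_, ?_, ?_⟩, rfl⟩
    · exact ((ZMod.intCast_eq_intCast_iff_dvd_sub 1 p L).mpr hp).symm.trans Int.cast_one
    · exact (ZMod.intCast_zmod_eq_zero_iff_dvd _ _).mpr hq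
    · exact (ZMod.intCast_zmod_eq_zero_iff_dvd _ _).mpr hr
    · exact ((ZMod.intCast_eq_intCast_iff_dvd_sub 1 s L).mpr hs).symm.trans Int.cast_one
  cases x using OnePoint.rec with
  | infty =>
    obtain ⟨u, hu, huv⟩ := mk (1 + L * ℓ * a) (L * ℓ * b * ℓ) (L * c) (1 + L * ℓ * d)
      (by linear_combination hdet) ⟨ℓ * a, by ring⟩ ⟨ℓ * b * ℓ, by ring⟩ ⟨c, rfl⟩
      ⟨ℓ * d, by ring⟩
    refine ⟨u, hu, Units.ext ?_⟩
    ext i j
    fin_cases i <;> fin_cases j <;>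
      simp [rep, hℓ.out.ne_zero, Matrix.mul_apply, Fin.sum_univ_two, huv, ha', hd', hb, hc] <;>
      ring
  | coe t =>
    set m : ℤ := ((t.val : ℕ) : ℤ) with hm
    obtain ⟨u, hu, huv⟩ := mk (1 + L * ℓ * a + m * (L * ℓ * c))
      (L * (b + m * d - m * a - m ^ 2 * c)) (L * ℓ * c * ℓ) (1 + L * ℓ * d - m * (L * ℓ * c))
      (by linear_combination hdet) ⟨ℓ * a + m * (ℓ * c), by ring⟩ ⟨_, rfl⟩ ⟨ℓ * c * ℓ, by ring⟩
      ⟨ℓ * d - m * (ℓ * c), by ring⟩
    refine ⟨u, hu, Units.ext ?_⟩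
    ext i j
    fin_cases i <;> fin_cases j <;>
      simp [rep, hℓ.out.ne_zero, Matrix.mul_apply, Fin.sum_univ_two, huv, ha', hd', hb, hc, hm] <;>
      ring

lemma comp_rep_mem (hO' : zetaRing (L * ℓ) ≤ O) (x : Idx ℓ) (f : LRing L O) :
    (fun τ => f.1 (rep ℓ x • τ)) ∈ weak (Gamma (L * ℓ)) (L * ℓ) O := by
  refine ⟨f.2.1.comp (mdifferentiable_smul (det_rep_pos' x)), fun γ hγ => ?_, fun δ => ?_⟩
  · obtain ⟨u, hu, h⟩ := exists_rep_mul_Gamma hγ x
    funext τ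
    show f.1 (rep ℓ x • (mapGL ℝ γ • τ)) = _
    rw [← mul_smul, h, mul_smul]
    exact congrFun (f.2.2.1 u hu) (rep ℓ x • τ)
  · obtain ⟨v, z, hv⟩ := exists_rep_mul_SL x δ
    obtain ⟨c, e, hc, he, hcB, hq⟩ :=
      qL_rep_coeff_mem (ℓ := ℓ) z (hO' (zetaC_mem_zetaRing (L * ℓ)))
    have : NeZero e := ⟨he⟩
    obtain ⟨s, hsB, hs⟩ := f.2.2.2 v
    refine ⟨qExpand ℂ e (KummerES.twist c hc s), qExpand_mem_coeffSubring e fun i => ?_, ?_⟩
    · rw [KummerES.twist_coeff]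
      exact mul_mem (hcB i) (hsB i)
    · have h2 := hs.subst (L' := L * ℓ) (fun τ => rep ℓ z • τ) hc e hq
      have h3 : comp (fun τ => f.1 (rep ℓ x • τ)) δ = comp f.1 v ∘ fun τ => rep ℓ z • τ := by
        funext τ
        show f.1 (rep ℓ x • (mapGL ℝ δ • τ)) = f.1 (mapGL ℝ v • (rep ℓ z • τ))
        rw [← mul_smul, hv, mul_smul]
      rw [h3]
      exact h2

/-- Composition with the representative `x` of `T_ℓ`. -/
def hk (hO' : zetaRing (L * ℓ) ≤ O) (x : Idx ℓ) : LRing L O →+* LRing (L * ℓ) O where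
  toFun f := ⟨fun τ => f.1 (rep ℓ x • τ), comp_rep_mem hO' x f⟩
  map_one' := rfl
  map_mul' _ _ := rfl
  map_zero' := rfl
  map_add' _ _ := rfl

variable (L ℓ O) in
/-- The ring of level `L` in the ring of level `L * ℓ`. -/
def inclL : LRing L O →+* LRing (L * ℓ) O := Subring.inclusion (weak_Gamma_le_mul L ℓ O)

/-- The values of `hk x f`. -/
lemma coe_hk (hO' : zetaRing (L * ℓ) ≤ O) (x : Idx ℓ) (f : LRing L O) (τ : ℍ) :
    (hk hO' x f).1 τ = f.1 (rep ℓ x • τ) := rfl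

section Deriv

variable (h2 : 2 ∣ L) (hO : zetaRing L ≤ O) (hO' : zetaRing (L * ℓ) ≤ O)

/-- The chain rule for the representatives of `T_ℓ`. -/
lemma derivT_hk (x : Idx ℓ) (f : LRing L O) :
    derivT (h2.mul_right ℓ) hO' (hk hO' x f) =
      hk hO' x (derivT h2 hO f) * derivT (h2.mul_right ℓ) hO' (hk hO' x (tL h2 hO)) :=
  Subtype.ext (derivFun_comp_GL f.2.1 (det_rep_pos' x))

/-- The coordinate is the same at level `L * ℓ`. -/
lemma inclL_tL : inclL L ℓ O (tL h2 hO) = tL (h2.mul_right ℓ) hO' := rfl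

/-- Moving `γ` past a representative. -/
lemma compL_hk {γ u : SL(2, ℤ)} {x y : Idx ℓ}
    (h : rep ℓ x * mapGL ℝ γ = mapGL ℝ u * rep ℓ y) (f : LRing L O) :
    compL γ (hk hO' x f) = hk hO' y (compL u f) := Subtype.ext (funext fun τ => by
  rw [coe_compL, comp_apply, coe_hk, coe_hk, coe_compL, comp_apply,
    show γ • τ = mapGL ℝ γ • τ from rfl, ← mul_smul, h, mul_smul]
  rfl)

end Deriv

section Expansion

lemma twist_eq_twist (u : ℂˣ) (s : LaurentSeries ℂ) :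
    ModularFunctionField.twist u s = KummerES.twist (u : ℂ) u.ne_zero s := by
  ext i
  simp [Units.val_zpow_eq_zpow_val]

lemma expB_comp_eq_subst {f : LRing L O} {g : LRing (L * ℓ) O} (u : ℍ → ℍ) (c : Oˣ) (e : ℕ)
    [NeZero e] (hq : ∀ τ, qL L (u τ) = ((c : O) : ℂ) * qL (L * ℓ) τ ^ e) (hg : g.1 = f.1 ∘ u) :
    expB (L * ℓ) O 1 g = subst c e (expB L O 1 f) := by
  refine ModularFunctionField.coeffMap_injective O.subtype Subtype.val_injective ?_
  rw [coeffMap_expB, expAt_apply, ModularFunctionField.coeffMap_subst, coeffMap_expB, expAt_apply,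
    ModularFunctionField.subst_apply, twist_eq_twist, comp_one, comp_one, hg]
  have h := hasExp_expansion f.2 1
  rw [comp_one] at h
  exact (h.subst u (Units.ne_zero _) e hq).expansion_eq

variable (hO' : zetaRing (L * ℓ) ≤ O)

/-- The expansion at `∞` after a representative `j`. -/
lemma expB_hk_coe (j : ZMod ℓ) (f : LRing L O) :
    expB (L * ℓ) O 1 (hk hO' (j : Idx ℓ) f) =
      subst (zetaUnit hO' ^ j.val) 1 (expB L O 1 f) := by
  refine expB_comp_eq_subst (fun τ => rep ℓ (j : Idx ℓ) • τ) _ 1 (fun τ => ?_) rfl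
  rw [Units.val_pow_eq_pow_val, SubmonoidClass.coe_pow, DiffLift.coe_zetaUnit, pow_one]
  show Function.Periodic.qParam L ((ModularForm.heckeMatrix ℓ j.val • τ : ℍ) : ℂ) = _
  have hl : (ℓ : ℂ) ≠ 0 := by exact_mod_cast hℓ.out.ne_zero
  have hL : (L : ℂ) ≠ 0 := by exact_mod_cast NeZero.ne L
  rw [ModularForm.coe_heckeMatrix_smul hℓ.out.ne_zero, qL, zetaC, Function.Periodic.qParam,
    Function.Periodic.qParam, ← Complex.exp_nat_mul, ← Complex.exp_add]
  congr 1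
  push_cast
  field_simp
  ring

/-- The expansion at `∞` after the representative `∞`. -/
lemma expB_hk_infty (f : LRing L O) :
    expB (L * ℓ) O 1 (hk hO' (∞ : Idx ℓ) f) = subst 1 (ℓ ^ 2) (expB L O 1 f) := by
  refine expB_comp_eq_subst (fun τ => rep ℓ (∞ : Idx ℓ) • τ) _ (ℓ ^ 2) (fun τ => ?_) rfl
  rw [Units.val_one, OneMemClass.coe_one, one_mul]
  show Function.Periodic.qParam L ((ModularForm.heckeDiagMatrix ℓ • τ : ℍ) : ℂ) = _
  have hl : (ℓ : ℂ) ≠ 0 := by exact_mod_cast hℓ.out.ne_zero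
  have hL : (L : ℂ) ≠ 0 := by exact_mod_cast NeZero.ne L
  rw [ModularForm.coe_heckeDiagMatrix_smul hℓ.out.ne_zero, qL, Function.Periodic.qParam,
    Function.Periodic.qParam, ← Complex.exp_nat_mul]
  congr 1
  push_cast
  field_simp

/-- The expansion at `∞` read at level `L * ℓ`. -/
lemma expB_inclL (f : LRing L O) :
    expB (L * ℓ) O 1 (inclL L ℓ O f) = subst 1 ℓ (expB L O 1 f) := by
  refine expB_comp_eq_subst id _ ℓ (fun τ => ?_) rfl
  rw [Units.val_one, OneMemClass.coe_one, one_mul, id, ← zpow_natCast]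
  exact (qL_mul_zpow L ℓ τ).symm

end Expansion

end Fermat.Agent.AtP.ThreeOdd
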