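import Fermat.Agent.AtP.ThreeOdd.HeckeMap
import Fermat.Agent.AtP.DiffLiftEigen

/-!
# The expansion at `∞` of `T_ℓ` of a differential modulo `π`
-/

set_option autoImplicit false

noncomputable section

open UpperHalfPlane CongruenceSubgroup
open scoped MatrixGroups OnePoint

namespace Fermat.Agent.AtP.ThreeOdd

open Fermat.Agent.KummerES
open HeckeLattice (Idx rep)
open ModularCurve (coeffMap qExpand)
open Fermat.Agent.ModularFunctionField (theta subst)
open DiffLift (diffExp zetaUnit)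

variable {M L ℓ : ℕ} [NeZero L] [hℓ : Fact ℓ.Prime] {O : Subring ℂ} {k : Type*} [Field k]

omit [NeZero L] in
open scoped Classical in
lemma sum_pow_val {R : Type*} [CommRing R] [IsDomain R] {w : R} (hw : w ^ ℓ = 1) :
    ∑ j : ZMod ℓ, w ^ j.val = if w = 1 then (ℓ : R) else 0 := by
  split_ifs with h
  · simp [h]
  · have e : (∑ j : ZMod ℓ, w ^ j.val) * w = ∑ j : ZMod ℓ, w ^ j.val := by
      rw [Finset.sum_mul]
      refine Fintype.sum_equiv (Equiv.addRight (1 : ZMod ℓ)) _ _ fun j => ?_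
      rw [← pow_succ, Equiv.coe_addRight, ZMod.val_add, ZMod.val_one, ← pow_eq_pow_mod _ hw]
    have e' : (∑ j : ZMod ℓ, w ^ j.val) * (w - 1) = 0 := by rw [mul_sub, e, mul_one, sub_self]
    exact (mul_eq_zero.mp e').resolve_right (sub_ne_zero.mpr h)

open scoped Classical in
/-- `T_ℓ` on series in the parameter of level `L`. -/
theorem hecke_series (hℓL : ¬ ℓ ∣ L) (r : kˣ) (hr : IsPrimitiveRoot (r : k) (L * ℓ))
    (A : LaurentSeries k) (hsupp : ∀ i, A.coeff i ≠ 0 → (L : ℤ) ∣ i ∧ 0 < i) (a : k)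
    (heig : ∀ n : ℕ, A.coeff ((L : ℤ) * (ℓ * n : ℕ)) +
      (if ℓ ∣ n then (ℓ : k) * A.coeff ((L : ℤ) * (n / ℓ : ℕ)) else 0) =
        a * A.coeff ((L : ℤ) * n)) :
    (∑ j : ZMod ℓ, subst (r ^ j.val) 1 A) + HahnSeries.C ((ℓ : k) ^ 2) * subst 1 (ℓ ^ 2) A =
      HahnSeries.C a * (HahnSeries.C (ℓ : k) * subst 1 ℓ A) := by
  have hℓp : Prime (ℓ : ℤ) := Nat.prime_iff_prime_int.mp hℓ.out
  have hL0 : (L : ℤ) ≠ 0 := by exact_mod_cast NeZero.ne L
  have hl0 : (ℓ : ℤ) ≠ 0 := hℓp.ne_zero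
  have hne : ∀ i, i ≤ 0 → A.coeff i = 0 := fun i hi => by
    by_contra h
    exact absurd (hsupp i h).2 hi.not_gt
  ext i
  rw [HahnSeries.coeff_add, HahnSeries.coeff_sum]
  simp only [HahnSeries.C_mul_eq_smul, HahnSeries.coeff_smul, smul_eq_mul]
  have hS : ∑ j : ZMod ℓ, (subst (r ^ j.val) 1 A).coeff i =
      (∑ j : ZMod ℓ, ((r : k) ^ i) ^ j.val) * A.coeff i := by
    rw [Finset.sum_mul]
    refine Finset.sum_congr rfl fun j _ => ?_
    rw [ModularFunctionField.subst_apply, ModularCurve.qExpand_one_apply,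
      ModularFunctionField.twist_coeff, Units.val_zpow_eq_zpow_val, Units.val_pow_eq_pow_val,
      ← zpow_natCast, ← zpow_natCast, ← zpow_mul, ← zpow_mul, mul_comm i]
  rw [hS]
  have hroot : ∀ m : ℤ, i = L * m →
      (∑ j : ZMod ℓ, ((r : k) ^ i) ^ j.val) = if (ℓ : ℤ) ∣ m then (ℓ : k) else 0 := by
    intro m hm
    have hz : IsPrimitiveRoot ((r : k) ^ L) ℓ :=
      hr.pow (Nat.pos_of_ne_zero (NeZero.ne (L * ℓ))) rfl
    rw [hm, zpow_mul, zpow_natCast]
    rw [sum_pow_val (by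
      rw [← zpow_natCast (((r : k) ^ L) ^ m), ← zpow_mul, mul_comm, zpow_mul, zpow_natCast,
        hz.pow_eq_one, one_zpow])]
    exact if_congr (hz.zpow_eq_one_iff_dvd m) rfl rfl
  by_cases hdiv : ((L : ℤ) * ℓ) ∣ i
  · obtain ⟨n, rfl⟩ := hdiv
    have e1 : (subst 1 ℓ A).coeff ((L : ℤ) * ℓ * n) = A.coeff ((L : ℤ) * n) := by
      rw [show (L : ℤ) * ℓ * n = (ℓ : ℤ) * (L * n) by ring,
        ModularFunctionField.subst_coeff_mul, one_zpow, Units.val_one, one_mul]
    have e2 : (subst 1 (ℓ ^ 2) A).coeff ((L : ℤ) * ℓ * n) =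
        if (ℓ : ℤ) ∣ n then A.coeff ((L : ℤ) * (n / ℓ)) else 0 := by
      split_ifs with h
      · obtain ⟨n', rfl⟩ := h
        rw [Int.mul_ediv_cancel_left _ hl0,
          show (L : ℤ) * ℓ * ((ℓ : ℤ) * n') = ((ℓ ^ 2 : ℕ) : ℤ) * (L * n') by push_cast; ring,
          ModularFunctionField.subst_coeff_mul, one_zpow, Units.val_one, one_mul]
      · refine ModularFunctionField.subst_coeff_of_not_dvd 1 _ A fun h' => h ?_
        push_cast at h'
        rw [sq, mul_comm (L : ℤ), mul_assoc, mul_dvd_mul_iff_left hl0] at h'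
        exact (hℓp.dvd_or_dvd h').resolve_left (by exact_mod_cast hℓL)
    rw [hroot (ℓ * n) (by ring), if_pos (dvd_mul_right _ _), e1, e2]
    rcases le_or_gt n 0 with hn | hn
    · have h0 : (L : ℤ) * ℓ * n ≤ 0 := mul_nonpos_of_nonneg_of_nonpos (by positivity) hn
      have h1 : (L : ℤ) * n ≤ 0 := mul_nonpos_of_nonneg_of_nonpos (by positivity) hn
      have h2 : (L : ℤ) * (n / ℓ) ≤ 0 := mul_nonpos_of_nonneg_of_nonpos (by positivity)
        (by
          have := Int.ediv_le_ediv (by exact_mod_cast hℓ.out.pos : (0 : ℤ) < ℓ) hn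
          simpa using this)
      simp [hne _ h0, hne _ h1, hne _ h2]
    · lift n to ℕ using hn.le
      have h := heig n
      rw [Int.natCast_mul, ← mul_assoc] at h
      simp only [Int.natCast_dvd_natCast, ← Int.natCast_div]
      rw [← mul_left_comm (ℓ : k) a, ← h]
      split_ifs <;> ring
  · have e1 : (subst 1 ℓ A).coeff i = 0 := by
      by_cases h : (ℓ : ℤ) ∣ i
      · obtain ⟨i', rfl⟩ := h
        rw [ModularFunctionField.subst_coeff_mul, one_zpow, Units.val_one, one_mul]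
        by_contra h'
        exact hdiv ((mul_comm (L : ℤ) ℓ) ▸ mul_dvd_mul_left (ℓ : ℤ) (hsupp i' h').1)
      · exact ModularFunctionField.subst_coeff_of_not_dvd 1 _ A h
    have e2 : (subst 1 (ℓ ^ 2) A).coeff i = 0 := by
      by_cases h : ((ℓ ^ 2 : ℕ) : ℤ) ∣ i
      · obtain ⟨i', rfl⟩ := h
        rw [ModularFunctionField.subst_coeff_mul, one_zpow, Units.val_one, one_mul]
        by_contra h'
        refine hdiv ((mul_comm (L : ℤ) ℓ) ▸ mul_dvd_mul ?_ (hsupp i' h').1)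
        exact Int.natCast_dvd_natCast.mpr (dvd_pow_self ℓ two_ne_zero)
      · exact ModularFunctionField.subst_coeff_of_not_dvd 1 _ A h
    rw [e1, e2, mul_zero, mul_zero, mul_zero, add_zero]
    by_cases hi : (L : ℤ) ∣ i
    · obtain ⟨m, rfl⟩ := hi
      rw [hroot m rfl, if_neg fun h => hdiv (mul_dvd_mul_left _ h), zero_mul]
    · rw [show A.coeff i = 0 from by_contra fun h => hi (hsupp i h).1, mul_zero]

namespace Sys

variable (S : Sys L O k)

/-- The same reduction at level `L * ℓ`. -/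
abbrev raise (H' : LevelHyp 2 (L * ℓ) O) : Sys (L * ℓ) O k :=
  ⟨S.h2.mul_right ℓ, H', S.red, S.π, S.n, S.hB, S.hker, S.hsurj, S.e, S.he⟩

/-- A congruence at `∞` is a congruence at all cusps. -/
lemma R_eq_of_one {f g : LRing L O} (h : S.R 1 f = S.R 1 g) (δ : SL(2, ℤ)) :
    S.R δ f = S.R δ g := by
  have hk : kerAt O S.π.1 1 (f - g) :=
    (kerAt_iff_dvd S.π.2 1 _).mpr (DiffLift.C_dvd_of_coeffMap_eq_zero S.red S.π S.hker (by
      show S.R 1 (f - g) = 0
      rw [map_sub, h, sub_self]))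
  obtain ⟨w, hw⟩ := Ideal.mem_span_singleton.mp ((S.H.specialFibre S.hB).mem_span 1 _ hk)
  have hw' : f = g + cst S.π * w := by
    rw [show cst S.π * w = f - g from hw.symm]
    ring
  rw [hw', map_add, R_π_mul, add_zero]

/-- `(a θ t) ∣ rep x`, divided by `θ t`. -/
def bx (H' : LevelHyp 2 (L * ℓ) O) (a : LRing L O) (x : Idx ℓ) : LRing (L * ℓ) O :=
  hk H'.le x a * (S.raise H').D (hk H'.le x (tL S.h2 S.hO))

lemma diffExp_subst (H' : LevelHyp 2 (L * ℓ) O) (a : LRing L O) (g gt : LRing (L * ℓ) O) (c : Oˣ)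
    (e : ℕ) [NeZero e] (hg : expB (L * ℓ) O 1 g = subst c e (expB L O 1 a))
    (hgt : expB (L * ℓ) O 1 gt = subst c e (expB L O 1 (tL S.h2 S.hO))) :
    (S.raise H').R 1 (g * (S.raise H').D gt) * (S.raise H').w 1 =
      HahnSeries.C (e : k) * subst (Units.map (S.red : O →* k) c) e
        (coeffMap S.red (diffExp (lamChart L S.h2) S.hO 1 a)) := by
  rw [← coeffMap_diffExp]
  change coeffMap S.red (expB (L * ℓ) O 1 (g * derivT (S.raise H').h2 (S.raise H').hO gt) *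
    theta (expB (L * ℓ) O 1 (tL (S.raise H').h2 (S.raise H').hO))) = _
  rw [map_mul (expB (L * ℓ) O 1), mul_assoc, expB_derivT_mul, hg, hgt,
    ModularFunctionField.theta_subst]
  rw [show subst c e (expB L O 1 a) * (HahnSeries.C (e : O) *
      subst c e (theta (expB L O 1 (tL S.h2 S.hO)))) = HahnSeries.C (e : O) *
        subst c e (diffExp (lamChart L S.h2) S.hO 1 a) by
      rw [diffExp, map_mul]; ring,
    map_mul, ModularFunctionField.coeffMap_C, map_natCast, ModularFunctionField.coeffMap_subst]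

/-- **`T_ℓ` of an eigen differential.** -/
theorem R_sum_bx (hℓL : ¬ ℓ ∣ L) (H' : LevelHyp 2 (L * ℓ) O) {a : LRing L O}
    (hT : ∀ δ, S.R (ModularGroup.T * δ) a * S.w (ModularGroup.T * δ) = S.R δ a * S.w δ)
    (ha : ∀ i : ℤ, i ≤ 0 → S.red ((diffExp (lamChart L S.h2) S.hO 1 a).coeff i) = 0)
    (aℓ : ℤ) (heig : ∀ n : ℕ,
      S.red ((diffExp (lamChart L S.h2) S.hO 1 a).coeff ((L : ℤ) * (ℓ * n : ℕ))) +
        (if ℓ ∣ n then (ℓ : k) *
          S.red ((diffExp (lamChart L S.h2) S.hO 1 a).coeff ((L : ℤ) * (n / ℓ : ℕ))) else 0) =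
        (aℓ : k) * S.red ((diffExp (lamChart L S.h2) S.hO 1 a).coeff ((L : ℤ) * n)))
    (δ : SL(2, ℤ)) :
    (S.raise H').R δ (∑ x : Idx ℓ, S.bx H' a x) =
      (S.raise H').R δ (aℓ • inclL L ℓ O a) := by
  refine (S.raise H').R_eq_of_one ?_ δ
  refine mul_right_cancel₀ ((S.raise H').w_ne_zero 1) ?_
  set A := coeffMap S.red (diffExp (lamChart L S.h2) S.hO 1 a)
  set r : kˣ := Units.map (S.red : O →* k) (zetaUnit H'.le)
  have hr : IsPrimitiveRoot (r : k) (L * ℓ) := DiffLift.isPrimitiveRoot_red H'.le S.red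
  have hA : ∀ i, A.coeff i ≠ 0 → (L : ℤ) ∣ i ∧ 0 < i := fun i hi => by
    rw [ModularCurve.coeffMap_coeff] at hi
    refine ⟨by_contra fun h => hi ?_, lt_of_not_ge fun h => hi (ha i h)⟩
    refine DiffLift.coeffMap_diffExp_of_not_dvd _ S.red S.hO a (fun η => ?_) h
    rw [coeffMap_diffExp, coeffMap_diffExp, hT]
  have key := hecke_series hℓL r hr A hA (aℓ : k) fun n => by
    simp only [A, ModularCurve.coeffMap_coeff]
    exact heig n
  have hj : ∀ j : ZMod ℓ, (S.raise H').R 1 (S.bx H' a (j : Idx ℓ)) * (S.raise H').w 1 =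
      subst (r ^ j.val) 1 A := fun j => by
    rw [bx, S.diffExp_subst H' a _ _ _ 1 (expB_hk_coe H'.le j a) (expB_hk_coe H'.le j _),
      Nat.cast_one, map_one, one_mul, map_pow]
  have hi : (S.raise H').R 1 (S.bx H' a (∞ : Idx ℓ)) * (S.raise H').w 1 =
      HahnSeries.C ((ℓ : k) ^ 2) * subst 1 (ℓ ^ 2) A := by
    rw [bx, S.diffExp_subst H' a _ _ _ (ℓ ^ 2) (expB_hk_infty H'.le a) (expB_hk_infty H'.le _),
      map_one, Nat.cast_pow]
  have hs : (S.raise H').R 1 (inclL L ℓ O a) * (S.raise H').w 1 =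
      HahnSeries.C (ℓ : k) * subst 1 ℓ A := by
    have h := S.diffExp_subst H' a (inclL L ℓ O a) (inclL L ℓ O (tL S.h2 S.hO)) 1 ℓ (expB_inclL a)
      (expB_inclL _)
    rw [inclL_tL S.h2 S.hO H'.le, Sys.D, derivT_tL, mul_one, map_one] at h
    exact h
  rw [map_sum, Finset.sum_mul, map_zsmul, zsmul_eq_mul, mul_assoc, hs]
  have hsplit : ∀ F : Idx ℓ → LaurentSeries k,
      ∑ x : Idx ℓ, F x = F ∞ + ∑ j : ZMod ℓ, F (j : Idx ℓ) := fun F => Fintype.sum_option F
  rw [hsplit, hi, Finset.sum_congr rfl fun j _ => hj j, add_comm, key, map_intCast]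

end Sys

end Fermat.Agent.AtP.ThreeOdd
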