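import Fermat.Agent.AtP.ThreeOdd.Deriv

/-!
# The ring of level two at `t = -1`

The ring of level two is generated by the constants, `t`, `1/t` and `1/(t - 1)`, so each element
is `c₀ + c₁ (t + 1)` up to a multiple of `(t + 1)²`, and its values where `t² - t + 1 = 0` are
integral.
-/

set_option autoImplicit false

noncomputable section

open UpperHalfPlane CongruenceSubgroup
open scoped MatrixGroups

namespace Fermat.Agent.AtP.ThreeOdd

open Fermat.Agent.KummerES
open DiffLift (chartT chartU expsLine chartTL LineData)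

variable {L : ℕ} [NeZero L] {O : Subring ℂ} (h2 : 2 ∣ L) (hO : zetaRing L ≤ O)

/-- The constant `r` in the ring of level two. -/
def cstTwo : O →+* weak (Gamma 2) L O where
  toFun r := ⟨fun _ => (r : ℂ), const_mem_weak r.2⟩
  map_one' := rfl
  map_mul' _ _ := rfl
  map_zero' := rfl
  map_add' _ _ := rfl

/-- The generated subring of level two. -/
def genTwo : Subring (weak (Gamma 2) L O) :=
  Subring.closure (Set.range (cstTwo (L := L) (O := O)) ∪
    (insert (chartT (lamChart L h2) hO)
      (Set.range fun x : Fin 2 => chartU (lamChart L h2) hO (some x))))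

lemma chartT_mem_genTwo : chartT (lamChart L h2) hO ∈ genTwo h2 hO :=
  Subring.subset_closure (Set.mem_union_right _ (Set.mem_insert _ _))

lemma chartU_mem_genTwo (x : Fin 2) :
    chartU (lamChart L h2) hO (some x) ∈ genTwo h2 hO :=
  Subring.subset_closure (Set.mem_union_right _ (Set.mem_insert_of_mem _ ⟨x, rfl⟩))

theorem genTwo_eq_top : genTwo h2 hO = ⊤ := by
  classical
  set C := lamChart L h2
  have : (Gamma 2).FiniteIndex := Subgroup.finiteIndex_of_le (Gamma_le_of_dvd h2)
  let : Fintype DiffLift.Line := Subgroup.fintypeQuotientOfFiniteIndex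
  refine eq_top_iff.mpr fun f _ => ?_
  have hcst : ∀ r, cstTwo r ∈ genTwo h2 hO := fun r =>
    Subring.subset_closure (Or.inl ⟨r, rfl⟩)
  obtain ⟨q, hq, hreg⟩ := (DiffLift.chartLine C hO).exists_polar
    (s := expsLine C f) (DiffLift.exps_fam hO f)
  have hP : ∃ P ∈ genTwo h2 hO, expsLine C P = q := by
    clear hreg
    induction hq using Submodule.span_induction with
    | mem x hx =>
      obtain ⟨⟨o, j⟩, rfl⟩ := hx
      cases o with
      | none =>
        exact ⟨chartT C hO ^ (j + 1),
          pow_mem (chartT_mem_genTwo h2 hO) _, map_pow _ _ _⟩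
      | some x =>
        exact ⟨chartU C hO (some x) ^ (j + 1),
          pow_mem (chartU_mem_genTwo h2 hO x) _,
          map_pow _ _ _⟩
    | zero => exact ⟨0, zero_mem _, map_zero _⟩
    | add x y _ _ hx hy =>
      obtain ⟨A, hA, rfl⟩ := hx
      obtain ⟨B, hB, rfl⟩ := hy
      exact ⟨A + B, add_mem hA hB, map_add _ _ _⟩
    | smul r x _ hx =>
      obtain ⟨A, hA, rfl⟩ := hx
      refine ⟨cstTwo r * A, mul_mem (hcst r) hA, funext fun y => ?_⟩
      rw [map_mul, Pi.mul_apply, Pi.smul_apply, ← HahnSeries.C_mul_eq_smul]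
      congr 1
      exact congrFun (DiffLift.exps_const r.2) y
  obtain ⟨P, hPmem, rfl⟩ := hP
  have hconst := C.eq_const_of_regular hO (f - P).2 fun i j hj => by
    rw [← DiffLift.coe_expsLine_repPt C (f - P) i j, map_sub, Pi.sub_apply,
      hreg (DiffLift.repPt C i) j hj]
    rfl
  have hc : (expansion L (f - P).1).coeff 0 ∈ O := by
    have := expansion_mem (f - P).2 1 0
    rwa [comp_one] at this
  rw [show f = P + cstTwo ⟨_, hc⟩ by rw [← sub_eq_iff_eq_add']; exact Subtype.ext hconst]
  exact add_mem hPmem (hcst _)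

/-- `t + 1` in the ring of level `L`. -/
def muL : LRing L O := tL h2 hO + 1

include h2 hO in
/-- Two is invertible in the coefficients. -/
lemma isUnit_two : IsUnit (2 : O) :=
  IsUnit.of_mul_eq_one ⟨(2 : ℂ)⁻¹, hO (inv_two_mem_zetaRing h2)⟩ (Subtype.ext (by
    show ((2 : O) : ℂ) * (2 : ℂ)⁻¹ = 1
    rw [show ((2 : O) : ℂ) = 2 from rfl]; norm_num))

/-- The Taylor expansion to second order at `t = -1` on the ring of level two. -/
theorem exists_taylor (f : LRing L O) (hf : ∀ g : levelGroup L O 2, g • f = f) :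
    ∃ (c₀ c₁ : O) (g : LRing L O), (∀ σ : levelGroup L O 2, σ • g = g) ∧
      f = constL c₀.1 c₀.2 + constL c₁.1 c₁.2 * muL h2 hO + muL h2 hO ^ 2 * g := by
  set ι : weak (Gamma 2) L O →+* LRing L O :=
    Subring.inclusion (weak_mono (Gamma_le_of_dvd h2) le_rfl)
  set μ : LRing L O := muL h2 hO
  set K : O →+* LRing L O := ι.comp (cstTwo (L := L)) with hK
  have hKc : ∀ c : O, K c = constL c.1 c.2 := fun c => Subtype.ext rfl
  suffices h : ∀ F : weak (Gamma 2) L O,
      ∃ (c₀ c₁ : O) (g : weak (Gamma 2) L O), ι F = K c₀ + K c₁ * μ + μ ^ 2 * ι g by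
    obtain ⟨c₀, c₁, g, hg⟩ := h ⟨f.1, mem_level_of_fixed f hf⟩
    exact ⟨c₀, c₁, ι g, fun σ => smul_inclLevel h2 σ g, by rw [← hKc, ← hKc, ← hg]; exact Subtype.ext rfl⟩
  intro F
  have hF : F ∈ genTwo h2 hO := by rw [genTwo_eq_top]; exact Subring.mem_top F
  induction hF using Subring.closure_induction with
  | mem x hx =>
    rcases hx with ⟨r, rfl⟩ | hx | ⟨x, rfl⟩
    · exact ⟨r, 0, 0, by simp [hK]⟩
    · subst hx
      refine ⟨-1, 1, 0, ?_⟩
      rw [map_neg, map_one, map_zero ι, mul_zero, one_mul, add_zero]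
      show tL h2 hO = -1 + μ
      simp only [μ, muL]
      ring
    · have hu : ι (chartU (lamChart L h2) hO (some x)) *
          (μ - 1 - K ⟨(lamChart L h2).val x, hO ((lamChart L h2).val_mem x)⟩) = 1 := by
        refine Subtype.ext (funext fun τ => ?_)
        have h := congrFun ((lamChart L h2).inv_mul x) τ
        show (lamChart L h2).inv x τ * ((tFun τ + 1) - 1 - (lamChart L h2).val x) = 1
        rw [add_sub_cancel_right, mul_comm]
        exact h
      obtain ⟨i, hi⟩ : ∃ i : O, K i * (-1 - K ⟨(lamChart L h2).val x,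
          hO ((lamChart L h2).val_mem x)⟩) = 1 := by
        obtain ⟨w, hw⟩ := isUnit_two h2 hO
        obtain rfl | rfl : x = 0 ∨ x = 1 := by fin_cases x <;> simp
        · refine ⟨-((w⁻¹ : Oˣ) : O), ?_⟩
          rw [show (⟨(lamChart L h2).val 0, hO ((lamChart L h2).val_mem 0)⟩ : O) = 1 from
            Subtype.ext rfl, ← map_one K, ← map_neg, ← map_sub, ← map_mul]
          congr 1
          rw [show (-1 - 1 : O) = -(w : O) by rw [hw]; ring, neg_mul_neg, Units.inv_mul]
        · refine ⟨-1, ?_⟩
          rw [show (⟨(lamChart L h2).val 1, hO ((lamChart L h2).val_mem 1)⟩ : O) = 0 from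
            Subtype.ext rfl]
          simp
      set u := ι (chartU (lamChart L h2) hO (some x))
      set v := K ⟨(lamChart L h2).val x, hO ((lamChart L h2).val_mem x)⟩
      exact ⟨i, -(i * i), cstTwo (i * i) * chartU (lamChart L h2) hO (some x), by
        rw [map_neg, map_mul, map_mul ι, map_mul cstTwo, map_mul ι,
          show ι (cstTwo i) = K i from rfl]
        linear_combination (1 - K i * μ) * (K i * hu - u * hi)⟩
  | zero => exact ⟨0, 0, 0, by simp⟩
  | one => exact ⟨1, 0, 0, by simp⟩
  | add x y _ _ hx hy =>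
    obtain ⟨a, b, g, hg⟩ := hx
    obtain ⟨a', b', g', hg'⟩ := hy
    exact ⟨a + a', b + b', g + g', by
      rw [map_add ι, map_add ι, hg, hg', map_add, map_add]; ring⟩
  | neg x _ hx =>
    obtain ⟨a, b, g, hg⟩ := hx
    exact ⟨-a, -b, -g, by rw [map_neg ι, map_neg ι, hg, map_neg, map_neg]; ring⟩
  | mul x y _ _ hx hy =>
    obtain ⟨a, b, g, hg⟩ := hx
    obtain ⟨a', b', g', hg'⟩ := hy
    refine ⟨a * a', a * b' + a' * b,
      cstTwo b * cstTwo b' + g * y + (cstTwo a + cstTwo b * (chartT (lamChart L h2) hO + 1)) * g', ?_⟩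
    simp only [map_add, map_mul, map_one]
    simp only [← RingHom.comp_apply, ← hK, hg, hg', show ι (chartT (lamChart L h2) hO) + 1 = μ from rfl]
    ring

/-- A point where `t² - t + 1 = 0`. -/
def IsCM (z : ℍ) : Prop := tFun z ^ 2 - tFun z + 1 = 0

include h2 hO in
/-- Values of the ring of level two at such a point are integral. -/
theorem isIntegral_apply_two {z : ℍ} (hz : IsCM z) (F : weak (Gamma 2) L O) :
    IsIntegral O (F.1 z) := by
  have ht : IsIntegral O (tFun z) := by
    refine ⟨Polynomial.X ^ 2 - Polynomial.X + 1, by monicity!, ?_⟩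
    simpa [IsCM] using hz
  have hF : F ∈ genTwo h2 hO := by rw [genTwo_eq_top]; exact Subring.mem_top F
  induction hF using Subring.closure_induction with
  | mem x hx =>
    rcases hx with ⟨r, rfl⟩ | hx | ⟨x, rfl⟩
    · exact isIntegral_algebraMap (R := O) (A := ℂ) (x := r)
    · subst hx; exact ht
    · have h := congrFun ((lamChart L h2).inv_mul x) z
      change ((tFun z) - (lamChart L h2).val x) * (lamChart L h2).inv x z = 1 at h
      show IsIntegral O ((lamChart L h2).inv x z)
      obtain rfl | rfl : x = 0 ∨ x = 1 := by fin_cases x <;> simp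
      · have e : (lamChart L h2).inv 0 z = -tFun z := by
          refine mul_left_cancel₀ (sub_ne_zero.mpr (tFun_ne_one z)) ?_
          rw [show (1 : ℂ) = (lamChart L h2).val 0 from rfl, h]
          show (1 : ℂ) = (tFun z - 1) * -tFun z
          have hz' : tFun z ^ 2 - tFun z + 1 = 0 := hz
          linear_combination hz'
        rw [e]; exact ht.neg
      · have e : (lamChart L h2).inv 1 z = 1 - tFun z := by
          refine mul_left_cancel₀ (tFun_ne_zero z) ?_
          rw [show tFun z = tFun z - (lamChart L h2).val 1 from (sub_zero _).symm, h]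
          show (1 : ℂ) = (tFun z - 0) * (1 - (tFun z - 0))
          have hz' : tFun z ^ 2 - tFun z + 1 = 0 := hz
          linear_combination hz'
        rw [e]; exact isIntegral_one.sub ht
  | zero => exact isIntegral_zero
  | one => exact isIntegral_one
  | add x y _ _ hx hy => exact hx.add hy
  | neg x _ hx => exact hx.neg
  | mul x y _ _ hx hy => exact hx.mul hy

end Fermat.Agent.AtP.ThreeOdd
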