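import Fermat.Agent.AtP.ThreeOdd.Assembly
import Fermat.Prelude.Def_FLTPrelim_ModularRep

/-!
# Level lowering at an odd `p` for curves semistable at `p`

`levelLoweringPeuRamifiee` lowers level `M` to `M / p` when `p` exactly divides `M`, including
`p = 3` with `M / 3` odd.  The level need not be squarefree and the curve is only assumed
semistable at `p`; `levelLowering_of_isPeuRamifieeAt` and `levelLowering_of_isGoodPrimeFor` are
the two special cases.
-/

set_option autoImplicit false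

open Fermat.Agent.LevelLowering (CofiniteResModular)

namespace Fermat.Agent.AtP

/-- **Mazur's principle at `p` for a curve semistable at `p` with `p ∣ v_p Δ`:
residual modularity of level `M` descends to `M / p` when `p` exactly divides `M`.** -/
theorem levelLoweringPeuRamifiee
    (W : WeierstrassCurve ℤ) (hΔ : W.Δ ≠ 0) {p : ℕ} (hp : p.Prime) (hp2 : p ≠ 2)
    (hsemi : (p : ℤ) ∣ W.Δ → ¬ (p : ℤ) ∣ W.c₄) (hirr : W.ModRepIsIrreducible p)
    (hpeu : p ∣ padicValInt p W.Δ)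
    {M : ℕ} (hM : 0 < M) (hpM : p ∣ M) (hp2M : ¬ p ^ 2 ∣ M)
    (hmod : W.IsResiduallyModularOfLevel p M) : W.IsResiduallyModularOfLevel p (M / p) := by
  have : Fact p.Prime := ⟨hp⟩
  obtain ⟨N, rfl⟩ := hpM
  rw [Nat.mul_div_cancel_left N hp.pos]
  have hN : ¬ p ∣ N := fun h => hp2M (by rw [pow_two]; exact mul_dvd_mul_left p h)
  have hN0 : 0 < N := Nat.pos_of_ne_zero (right_ne_zero_of_mul hM.ne')
  have : NeZero N := ⟨hN0.ne'⟩
  refine isResiduallyModularOfLevel_of_cofiniteResModular hΔ hN0.ne' ?_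
  have hc := LevelLowering.cofiniteResModular_of_isResiduallyModularOfLevel hΔ hM.ne' hmod
  rcases cofiniteResModular_of_peu (supersingularExclusion W hΔ p hp2) hΔ hp2 hsemi hirr hpeu hN0
    hN hc with h | ⟨h3, hodd, -⟩
  · exact h
  · by_cases hs : ¬ (p : ℤ) ∣ W.Δ ∧ (p : ℤ) ∣ W.apOfModel p
    · exact supersingularExclusion W hΔ p hp2 hirr hs.1 hs.2 N hN0 hN hc
    · push Not at hs
      exact cofiniteResModular_of_localSplit_three hΔ h3 hirr
        (fun O _ _ _ hO => hasLocalSplit_of_semistable W hΔ hp2 hsemi hpeu hs O hO) hodd hN hc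

/-- Mazur's principle at `p` for `W[p]` peu ramifié at `p`. -/
theorem levelLowering_of_isPeuRamifieeAt
    (W : WeierstrassCurve ℤ) (hΔ : W.Δ ≠ 0) {p : ℕ} (hp : p.Prime) (hp2 : p ≠ 2)
    (hsemi : (p : ℤ) ∣ W.Δ → ¬ (p : ℤ) ∣ W.c₄) (hirr : W.ModRepIsIrreducible p)
    (hfin : (W.map (Int.castRingHom ℚ)).IsPeuRamifieeAt p p)
    {M : ℕ} (hM : 0 < M) (hpM : p ∣ M) (hp2M : ¬ p ^ 2 ∣ M)
    (hmod : W.IsResiduallyModularOfLevel p M) : W.IsResiduallyModularOfLevel p (M / p) :=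
  levelLoweringPeuRamifiee W hΔ hp hp2 hsemi hirr (padicValInt_of_isPeuRamifieeAt hfin)
    hM hpM hp2M hmod

/-- Mazur's principle at `p` for good reduction at `p`. -/
theorem levelLowering_of_isGoodPrimeFor
    (W : WeierstrassCurve ℤ) (hΔ : W.Δ ≠ 0) {p : ℕ} (hp : p.Prime) (hp2 : p ≠ 2)
    (hgood : W.IsGoodPrimeFor p) (hirr : W.ModRepIsIrreducible p)
    {M : ℕ} (hM : 0 < M) (hpM : p ∣ M) (hp2M : ¬ p ^ 2 ∣ M)
    (hmod : W.IsResiduallyModularOfLevel p M) : W.IsResiduallyModularOfLevel p (M / p) :=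
  levelLoweringPeuRamifiee W hΔ hp hp2 (fun h => absurd h hgood) hirr
    (by rw [padicValInt.eq_zero_of_not_dvd hgood]; exact dvd_zero p) hM hpM hp2M hmod

end Fermat.Agent.AtP
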