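import Fermat.Agent.AtP.ThreeOdd.Sys
import Fermat.Agent.AtP.DiffLiftForm

/-!
# The points `t ≡ -1` of the curve of `Γ(2) ∩ Γ₀(M)`

They are the reductions of the translates of `ρ = (-1 + √3 i)/2` by the cosets of
`Γ(2) ∩ Γ₀(M)` in `Γ(2)`; the Galois coordinates give functions which separate them and detect
divisibility by `(t + 1)²`.
-/

set_option autoImplicit false

noncomputable section

open UpperHalfPlane CongruenceSubgroup
open scoped MatrixGroups

namespace Fermat.Agent.AtP.ThreeOdd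

open Fermat.Agent.KummerES

/-- `Γ(2) ∩ Γ₀(M)`. -/
abbrev gamP (M : ℕ) : Subgroup SL(2, ℤ) := Gamma 2 ⊓ Gamma0 M

/-- The cosets of `Γ(2) ∩ Γ₀(M)` in `Γ(2)`. -/
abbrev Pts (M : ℕ) : Type := ↥(Gamma 2) ⧸ (gamP M).subgroupOf (Gamma 2)

variable {M L : ℕ} [NeZero L] {O : Subring ℂ} {k : Type*} [Field k]

/-- The representative of a point. -/
def rep (x : Pts M) : SL(2, ℤ) := (x.out : ↥(Gamma 2))⁻¹.1

/-- The representatives lie in `Γ(2)`. -/
lemma rep_mem (x : Pts M) : rep x ∈ Gamma 2 := (x.out : ↥(Gamma 2))⁻¹.2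

/-- The point of a coset. -/
def pt (x : Pts M) : ℍ := rep x • rhoPt

/-- The points satisfy `t² - t + 1 = 0`. -/
lemma isCM_pt (x : Pts M) : IsCM (pt x) := isCM_smul_rhoPt (rep x)

/-- The class of `δ`. -/
def cls (δ : SL(2, ℤ)) (hδ : δ ∈ Gamma 2) : Pts M :=
  QuotientGroup.mk (⟨δ, hδ⟩ : ↥(Gamma 2))⁻¹

/-- When two elements of `Γ(2)` give the same point. -/
lemma cls_eq_iff {δ δ' : SL(2, ℤ)} (hδ : δ ∈ Gamma 2) (hδ' : δ' ∈ Gamma 2) :
    (cls δ hδ : Pts M) = cls δ' hδ' ↔ δ * δ'⁻¹ ∈ gamP M := by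
  rw [cls, cls, QuotientGroup.eq, Subgroup.mem_subgroupOf]
  simp

/-- The class of the representative of a point. -/
lemma cls_rep (x : Pts M) : cls (rep x) (rep_mem x) = x := by
  simp only [cls, rep, Subtype.coe_eta, inv_inv, QuotientGroup.out_eq']

lemma rep_cls_mul (δ : SL(2, ℤ)) (hδ : δ ∈ Gamma 2) :
    rep (cls δ hδ : Pts M) * δ⁻¹ ∈ gamP M := by
  rw [← cls_eq_iff (rep_mem _) hδ, cls_rep]

/-- There are finitely many points. -/
lemma finite_pts (h2 : 2 ∣ L) (hML : M ∣ L) : Finite (Pts M) := by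
  have : (gamP M).FiniteIndex :=
    Subgroup.finiteIndex_of_le (DiffLift.Gamma_le_inf h2 hML)
  exact inferInstance

/-- Invariance under `Γ(2) ∩ Γ₀(M)`. -/
def IsGam (M : ℕ) (f : LRing L O) : Prop := ∀ γ ∈ gamP M, compL γ f = f

namespace IsGam

variable {f g : LRing L O}

omit [NeZero L] in
/-- Sums of invariant functions are invariant. -/
lemma add (hf : IsGam M f) (hg : IsGam M g) : IsGam M (f + g) := fun γ h => by
  rw [map_add, hf γ h, hg γ h]

omit [NeZero L] in
/-- Differences of invariant functions are invariant. -/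
lemma sub (hf : IsGam M f) (hg : IsGam M g) : IsGam M (f - g) := fun γ h => by
  rw [map_sub, hf γ h, hg γ h]

omit [NeZero L] in
/-- Products of invariant functions are invariant. -/
lemma mul (hf : IsGam M f) (hg : IsGam M g) : IsGam M (f * g) := fun γ h => by
  rw [map_mul, hf γ h, hg γ h]

omit [NeZero L] in
/-- Finite sums of invariant functions are invariant. -/
lemma sum {ι : Type*} (T : Finset ι) {F : ι → LRing L O} (h : ∀ i ∈ T, IsGam M (F i)) :
    IsGam M (∑ i ∈ T, F i) := fun γ hγ => by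
  rw [map_sum]
  exact Finset.sum_congr rfl fun i hi => h i hi γ hγ

omit [NeZero L] in
/-- Constants are invariant. -/
lemma cst (r : O) : IsGam M (Sys.cst r : LRing L O) := fun γ _ => Subtype.ext (by
  rw [coe_compL]; rfl)

omit [NeZero L] in
/-- `1` is invariant. -/
lemma one : IsGam M (1 : LRing L O) := fun _ _ => map_one _

omit [NeZero L] in
/-- Functions of level two are invariant. -/
lemma of_fixed (hf : ∀ σ : levelGroup L O 2, σ • f = f) : IsGam M f := fun γ hγ =>
  Subtype.ext (by rw [coe_compL]; exact (mem_level_of_fixed f hf).2.1 γ hγ.1)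

/-- The coordinate is invariant. -/
lemma tL (h2 : 2 ∣ L) (hO : zetaRing L ≤ O) : IsGam M (ThreeOdd.tL h2 hO) := fun γ hγ =>
  Subtype.ext (by rw [coe_compL]; exact comp_tFun hγ.1)

/-- Derivatives of invariant functions are invariant. -/
lemma derivT (h2 : 2 ∣ L) (hO : zetaRing L ≤ O) (hf : IsGam M f) :
    IsGam M (ThreeOdd.derivT h2 hO f) := fun γ hγ => by
  have h := derivT_compL h2 hO γ f
  rw [hf γ hγ, IsGam.tL h2 hO γ hγ, derivT_tL, mul_one] at h
  exact h.symm

omit [NeZero L] in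
/-- Values only depend on the coset. -/
lemma apply_eq (hf : IsGam M f) {δ δ' : SL(2, ℤ)} (h : δ * δ'⁻¹ ∈ gamP M) (z : ℍ) :
    f.1 (δ • z) = f.1 (δ' • z) := by
  have := congrFun (congrArg Subtype.val (hf _ h)) (δ' • z)
  rw [coe_compL, comp_apply, ← mul_smul, inv_mul_cancel_right] at this
  exact this

end IsGam

omit [NeZero L] in
lemma isGam_of_mem_weak {f : LRing L O} (hf : f.1 ∈ weak (gamP M) L O) : IsGam M f :=
  fun γ hγ => Subtype.ext (by rw [coe_compL]; exact hf.2.1 γ hγ)

namespace Sys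

variable (S : Sys L O k)

/-- The value modulo `π` at a point. -/
abbrev val (x : Pts M) : LRing L O →+* k := S.ev (pt x) (isCM_pt x)

/-- The value at the point of `δ`. -/
lemma val_cls {f : LRing L O} (hf : IsGam M f) (δ : SL(2, ℤ)) (hδ : δ ∈ Gamma 2) :
    S.val (cls δ hδ : Pts M) f = S.ev (δ • rhoPt) (isCM_smul_rhoPt δ) f :=
  evalAt_congr S.h2 S.hO S.e _ _ (hf.apply_eq (rep_cls_mul δ hδ) rhoPt)

/-- Translating a point. -/
lemma val_compL_rep (x y : Pts M) (f : LRing L O) :
    S.val y (compL (rep x * (rep y)⁻¹) f) = S.val x f :=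
  evalAt_congr S.h2 S.hO S.e _ _ (by
    rw [coe_compL, comp_apply, pt, pt, ← mul_smul, inv_mul_cancel_right])

/-- A function congruent to an invariant one is congruent to a `Γ(2) ∩ Γ₀(M)`-invariant one. -/
theorem exists_isGam_congr {a : LRing L O}
    (h : ∀ γ ∈ gamP M, ∀ δ, S.R (γ * δ) a * S.w (γ * δ) = S.R δ a * S.w δ) :
    ∃ a₀ : LRing L O, IsGam M a₀ ∧ ∀ δ, S.R δ a₀ = S.R δ a := by
  obtain ⟨a₀, hmem, ha₀⟩ := DiffLift.exists_invariant_congr S.red S.H
    (inf_le_left : gamP M ≤ Gamma 2) a fun γ hγ δ => by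
      have hw : S.w (γ * δ) = S.w δ :=
        congrArg (fun s => ModularCurve.coeffMap S.red (ModularFunctionField.theta s))
          (DiffLift.expB_ext (by rw [coe_tL, ← comp_comp, comp_tFun hγ.1]))
      have h' := h γ hγ δ
      rw [hw] at h'
      exact mul_right_cancel₀ (S.w_ne_zero δ) h'
  exact ⟨a₀, isGam_of_mem_weak hmem, ha₀⟩

include S in
open scoped Classical in
/-- Coordinates of `Γ(2) ∩ Γ₀(M)` over `Γ(2)`. -/
theorem exists_pointCoords (hML : M ∣ L) [Fintype (Pts M)] [DecidableEq (Pts M)] :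
    ∃ (ι : Type) (_ : Fintype ι) (x y : ι → LRing L O), (∀ i, IsGam M (x i) ∧ IsGam M (y i)) ∧
      ∀ δ ∈ Gamma 2, (∑ i, x i * compL δ (y i)) =
        if δ ∈ gamP M then 1 else 0 := by
  classical
  obtain ⟨ι, hι, x, y, hmem, hco⟩ := DiffLift.exists_coverCoords (Γ := gamP M) S.H inf_le_left
  refine ⟨ι, hι, x, y, fun i => ⟨isGam_of_mem_weak (hmem i).1, isGam_of_mem_weak (hmem i).2⟩,
    fun δ hδ => ?_⟩
  have hiff := DiffLift.mem_imageGroup_iff S.H (Γ := gamP M) (DiffLift.Gamma_le_inf S.h2 hML)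
    inf_le_left DiffLift.one_zero_mem (inv_mem hδ)
  have h := hco ⟨actAut L O δ⁻¹, ⟨δ⁻¹, inv_mem hδ, rfl⟩⟩
  simp only [hiff, inv_mem_iff] at h
  convert h using 2
  rfl

/-- The function taking the value `1` at `x` and `0` at the other points. -/
theorem exists_delta (hML : M ∣ L) [Fintype (Pts M)] [DecidableEq (Pts M)] (x : Pts M) :
    ∃ e : LRing L O, IsGam M e ∧ ∀ y : Pts M, S.val y e = if y = x then 1 else 0 := by
  classical
  obtain ⟨ι, _, a, b, hmem, hco⟩ := S.exists_pointCoords (M := M) hML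
  choose c hc using fun i => S.hsurj (S.val x (b i))
  refine ⟨∑ i, a i * cst (c i), IsGam.sum _ fun i _ => (hmem i).1.mul (IsGam.cst _), fun y => ?_⟩
  have hδ : rep x * (rep y)⁻¹ ∈ Gamma 2 := mul_mem (rep_mem x) (inv_mem (rep_mem y))
  have h := congrArg (S.val y) (hco _ hδ)
  rw [map_sum] at h
  simp only [map_mul, val_compL_rep] at h
  rw [map_sum]
  simp only [map_mul, ev_cst, hc]
  rw [h, apply_ite (S.val y), map_one, map_zero]
  refine if_congr ⟨fun hm => ?_, fun hm => ?_⟩ rfl rfl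
  · rw [← cls_rep x, ← cls_rep y, eq_comm]
    exact (cls_eq_iff _ _).mpr hm
  · rw [hm, mul_inv_cancel]
    exact one_mem _

/-- The trace to level two. -/
def traceTwo [Fintype (Pts M)] (f : LRing L O) : LRing L O := ∑ x : Pts M, compL (rep x) f

omit [NeZero L] in
lemma traceTwo_fixed [Fintype (Pts M)] {f : LRing L O} (hf : IsGam M f)
    (σ : levelGroup L O 2) : σ • traceTwo (M := M) f = traceTwo (M := M) f := by
  obtain ⟨γ, hγ, hσ⟩ := exists_rep L O 2 σ
  have e : σ • traceTwo (M := M) f = compL γ (traceTwo (M := M) f) :=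
    Subtype.ext (by rw [hσ, coe_compL])
  rw [e, traceTwo, map_sum]
  refine Fintype.sum_equiv ⟨fun x => cls (rep x * γ) (mul_mem (rep_mem x) hγ),
    fun x => cls (rep x * γ⁻¹) (mul_mem (rep_mem x) (inv_mem hγ)), fun x => ?_, fun x => ?_⟩ _ _
    fun x => ?_
  · conv_rhs => rw [← cls_rep x]
    rw [cls_eq_iff]
    simpa [mul_assoc] using rep_cls_mul (M := M) (rep x * γ) (mul_mem (rep_mem x) hγ)
  · conv_rhs => rw [← cls_rep x]
    rw [cls_eq_iff]
    simpa [mul_assoc] using rep_cls_mul (M := M) (rep x * γ⁻¹) (mul_mem (rep_mem x) (inv_mem hγ))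
  · refine Subtype.ext (funext fun τ => ?_)
    simp only [coe_compL, comp_apply, Equiv.coe_fn_mk, ← mul_smul]
    exact (hf.apply_eq (rep_cls_mul _ _) τ).symm

lemma sum_val [Fintype (Pts M)] (f : LRing L O) :
    S.ev rhoPt (by simpa using isCM_smul_rhoPt 1) (traceTwo (M := M) f) = ∑ x : Pts M, S.val x f := by
  rw [traceTwo, map_sum]
  exact Finset.sum_congr rfl fun x _ => evalAt_congr S.h2 S.hO S.e _ _ (by
    rw [coe_compL]; rfl)

lemma D_traceTwo [Fintype (Pts M)] (f : LRing L O) :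
    S.D (traceTwo (M := M) f) = traceTwo (M := M) (S.D f) := by
  rw [traceTwo, traceTwo, map_sum]
  refine Finset.sum_congr rfl fun x _ => ?_
  rw [Sys.D, derivT_compL,
    show compL (rep x) (tL S.h2 S.hO) = tL S.h2 S.hO from Subtype.ext (by
      rw [coe_compL]; exact comp_tFun (rep_mem x)), derivT_tL, mul_one]

/-- An invariant function with value and derivative zero at every point is divisible by
`(t + 1) ^ 2` modulo `π`. -/
theorem exists_eq_muL_sq_mul [CharP k 3] (hML : M ∣ L) {f : LRing L O} (hf : IsGam M f)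
    (h0 : ∀ x : Pts M, S.val x f = 0) (h1 : ∀ x : Pts M, S.val x (S.D f) = 0) :
    ∃ g : LRing L O, IsGam M g ∧ ∀ δ, S.R δ f = S.R δ (muL S.h2 S.hO) ^ 2 * S.R δ g := by
  classical
  have := finite_pts S.h2 hML
  let := Fintype.ofFinite (Pts M)
  obtain ⟨ι, _, a, b, hmem, hco⟩ := S.exists_pointCoords (M := M) hML
  have hrec : f = ∑ i, a i * traceTwo (M := M) (b i * f) := by
    simp only [traceTwo, map_mul, Finset.mul_sum, ← mul_assoc]
    rw [Finset.sum_comm]
    simp only [← Finset.sum_mul, hco _ (rep_mem _), ite_mul, one_mul, zero_mul]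
    rw [Finset.sum_eq_single (cls 1 (one_mem _))]
    · have hm : rep (cls 1 (one_mem _) : Pts M) ∈ gamP M := by
        simpa using rep_cls_mul (M := M) 1 (one_mem _)
      rw [if_pos hm, hf _ hm]
    · intro x _ hx
      rw [if_neg]
      intro hm
      refine hx ?_
      rw [← cls_rep x, cls_eq_iff]
      simpa using hm
    · simp
  have hz : IsCM rhoPt := by simpa using isCM_smul_rhoPt 1
  have hμ : S.ev rhoPt hz (muL S.h2 S.hO) = 0 := by
    rw [muL, map_add, map_one]
    exact add_eq_zero_iff_eq_neg.mpr (evalAt_tL S.h2 S.hO S.e hz)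
  have hT : ∀ i, ∃ g, IsGam M g ∧
      ∀ δ, S.R δ (traceTwo (M := M) (b i * f)) = S.R δ (muL S.h2 S.hO) ^ 2 * S.R δ g := by
    intro i
    obtain ⟨c₀, c₁, g, hg, he⟩ := exists_taylor S.h2 S.hO (traceTwo (M := M) (b i * f))
      (traceTwo_fixed ((hmem i).2.mul hf))
    refine ⟨g, IsGam.of_fixed hg, fun δ => ?_⟩
    have e0 : S.red c₀ = 0 := by
      have h := congrArg (S.ev rhoPt hz) he
      rw [sum_val, Finset.sum_eq_zero fun x _ => by rw [map_mul, h0, mul_zero]] at h
      simp only [map_add, map_mul, map_pow, hμ, ev_cst] at h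
      linear_combination -h
    have e1 : S.red c₁ = 0 := by
      have h := congrArg (fun u => S.ev rhoPt hz (S.D u)) he
      simp only [D_traceTwo] at h
      rw [sum_val, Finset.sum_eq_zero fun x _ => by
        rw [Sys.D, derivT_mul, map_add, map_mul, map_mul, h0, mul_zero, zero_add,
          show S.val x (derivT S.h2 S.hO f) = 0 from h1 x, mul_zero]] at h
      simp only [map_add, Sys.D, derivT_mul, derivT_const, derivT_tL, derivT_one, muL,
        pow_two] at h
      simp only [map_mul, map_add, map_one, map_zero, ev_cst, evalAt_tL, neg_add_cancel, zero_mul,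
        mul_zero, add_zero, zero_add, mul_one] at h
      exact h.symm
    rw [he, map_add, map_add, map_mul, map_mul, R_cst, R_cst, e0, e1, map_zero, zero_mul,
      zero_add, zero_add, map_pow]
  choose g hg hge using hT
  refine ⟨∑ i, a i * g i, IsGam.sum _ fun i _ => (hmem i).1.mul (hg i), fun δ => ?_⟩
  conv_lhs => rw [hrec]
  simp only [map_sum, map_mul, hge, Finset.mul_sum]
  exact Finset.sum_congr rfl fun i _ => by ring

end Sys

end Fermat.Agent.AtP.ThreeOdd
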