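import Fermat.Agent.AtP.ThreeOdd.Eval

/-!
# The data of a reduction of the level `L` ring at the points `t ≡ -1`
-/

set_option autoImplicit false

noncomputable section

open UpperHalfPlane CongruenceSubgroup
open scoped MatrixGroups

namespace Fermat.Agent.AtP.ThreeOdd

open Fermat.Agent.KummerES
open ModularCurve (coeffMap)
open Fermat.Agent.ModularFunctionField (theta)
open DiffLift (diffExp)

/-- A reduction of characteristic three of the level `L` ring, extended to the integers. -/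
structure Sys (L : ℕ) [NeZero L] (O : Subring ℂ) (k : Type*) [Field k] where
  h2 : 2 ∣ L
  H : LevelHyp 2 L O
  red : O →+* k
  π : O
  n : ℕ
  hB : CoeffHyp O π.1 n
  hker : ∀ r, red r = 0 ↔ π ∣ r
  hsurj : Function.Surjective red
  e : integralClosure O ℂ →+* k
  he : ∀ r : O, e (algebraMap O (integralClosure O ℂ) r) = red r

namespace Sys

variable {L : ℕ} [NeZero L] {O : Subring ℂ} {k : Type*} [Field k] (S : Sys L O k)

include S in
/-- The coefficients contain `ℤ[ζ_L, 1/L]`. -/
lemma hO : zetaRing L ≤ O := S.H.le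

/-- `d / dt`. -/
abbrev D : LRing L O →+ LRing L O := derivT S.h2 S.hO

/-- The value modulo `π`. -/
abbrev ev (z : ℍ) (hz : IsCM z) : LRing L O →+* k := evalAt S.h2 S.hO S.e z hz

/-- The reduced expansion at `δ ∞`. -/
def R (δ : SL(2, ℤ)) : LRing L O →+* LaurentSeries k := (coeffMap S.red).comp (expB L O δ)

/-- The reduced expansion of `θ t` at `δ ∞`. -/
def w (δ : SL(2, ℤ)) : LaurentSeries k :=
  coeffMap S.red (theta (expB L O δ (tL S.h2 S.hO)))

/-- The constants. -/
abbrev cst (r : O) : LRing L O := constL r.1 r.2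

/-- `θ t` is nonzero modulo `π` at every cusp. -/
lemma w_ne_zero (δ : SL(2, ℤ)) : S.w δ ≠ 0 :=
  DiffLift.coeffMap_theta_t_ne_zero (lamChart L S.h2) S.red S.hO δ

/-- The reduced expansion of `f θ t`. -/
lemma coeffMap_diffExp (δ : SL(2, ℤ)) (f : LRing L O) :
    coeffMap S.red (diffExp (lamChart L S.h2) S.hO δ f) = S.R δ f * S.w δ :=
  map_mul _ _ _

/-- The reduced expansion of a composite. -/
lemma R_compL (γ δ : SL(2, ℤ)) (f : LRing L O) : S.R δ (compL γ f) = S.R (γ * δ) f :=
  congrArg (coeffMap S.red) (DiffLift.expB_ext (by rw [coe_compL, comp_comp]))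

/-- The reduced expansion of a translated differential. -/
lemma R_tw (γ δ : SL(2, ℤ)) (f : LRing L O) :
    S.R δ (tw S.h2 S.hO γ f) * S.w δ = S.R (γ * δ) f * S.w (γ * δ) := by
  rw [← coeffMap_diffExp, ← coeffMap_diffExp, diffExp_tw]

/-- The reduced expansion of a constant. -/
lemma R_cst (δ : SL(2, ℤ)) (r : O) : S.R δ (cst r) = HahnSeries.C (S.red r) := by
  show coeffMap S.red (expB L O δ (constL r.1 r.2)) = _
  rw [expB_constL, HahnSeries.C_apply, ModularCurve.coeffMap_single]
  rfl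

/-- `π` reduces to zero. -/
lemma red_π : S.red S.π = 0 := (S.hker _).mpr dvd_rfl

/-- Multiples of `π` have reduced expansion zero. -/
lemma R_π_mul (δ : SL(2, ℤ)) (f : LRing L O) : S.R δ (cst S.π * f) = 0 := by
  rw [map_mul, R_cst, red_π, map_zero, zero_mul]

/-- The value modulo `π` of a constant. -/
lemma ev_cst {z : ℍ} (hz : IsCM z) (r : O) : S.ev z hz (cst r) = S.red r :=
  evalAt_const S.h2 S.hO S.e hz S.red S.he r

lemma exists_eq_smul {f : LRing L O} (π : O) {n : ℕ} (hB : CoeffHyp O π.1 n)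
    {K : Type*} [Field K] (red : O →+* K) (hker : ∀ r, red r = 0 ↔ π ∣ r)
    (h : ∀ δ, coeffMap red (expB L O δ f) = 0) : ∃ u, f = cst π * u :=
  dvd_of_forall_kerAt hB fun δ =>
    (kerAt_iff_dvd π.2 δ f).mpr (DiffLift.C_dvd_of_coeffMap_eq_zero red π hker (h δ))

/-- A congruence at all cusps is a congruence modulo `π`. -/
lemma exists_eq_add {f g : LRing L O} (h : ∀ δ, S.R δ f = S.R δ g) :
    ∃ u, f = g + cst S.π * u := by
  obtain ⟨u, hu⟩ := exists_eq_smul (f := f - g) S.π S.hB S.red S.hker fun δ => by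
    show S.R δ (f - g) = 0
    rw [map_sub, h, sub_self]
  exact ⟨u, by rw [← hu]; ring⟩

/-- The value modulo `π` only depends on the reduced expansions. -/
lemma ev_eq {z : ℍ} (hz : IsCM z) {f g : LRing L O} (h : ∀ δ, S.R δ f = S.R δ g) :
    S.ev z hz f = S.ev z hz g := by
  obtain ⟨u, rfl⟩ := S.exists_eq_add h
  rw [map_add, map_mul, ev_cst, red_π, zero_mul, add_zero]

lemma D_cst_mul (r : O) (f : LRing L O) : S.D (cst r * f) = cst r * S.D f := by
  rw [Sys.D, derivT_mul, derivT_const, zero_mul, zero_add]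

/-- The derivative modulo `π` only depends on the reduced expansions. -/
lemma ev_D_eq {z : ℍ} (hz : IsCM z) {f g : LRing L O} (h : ∀ δ, S.R δ f = S.R δ g) :
    S.ev z hz (S.D f) = S.ev z hz (S.D g) := by
  obtain ⟨u, rfl⟩ := S.exists_eq_add h
  rw [map_add, map_add, D_cst_mul, map_mul, ev_cst, red_π, zero_mul, add_zero]

/-- `t + 1` does not vanish modulo `π`. -/
lemma R_muL_ne_zero (δ : SL(2, ℤ)) : S.R δ (muL S.h2 S.hO) ≠ 0 := by
  intro h
  refine S.w_ne_zero δ ?_
  have h1 : coeffMap S.red (expB L O δ (tL S.h2 S.hO)) = -1 := by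
    have h' := h
    rw [muL, map_add, map_one] at h'
    exact eq_neg_of_add_eq_zero_left h'
  rw [w, ModularFunctionField.coeffMap_theta, h1]
  ext i
  rcases eq_or_ne i 0 with rfl | hi <;> simp [*, HahnSeries.coeff_one]

end Sys

/-- The system of a level ring. -/
theorem exists_sys {L : ℕ} [NeZero L] {O : Subring ℂ} {k : Type*} [Field k] [IsAlgClosed k]
    (h2 : 2 ∣ L) (H : LevelHyp 2 L O) (red : O →+* k) (π : O) {n : ℕ} (hB : CoeffHyp O π.1 n)
    (hsurj : Function.Surjective red) (hker : ∀ r, red r = 0 ↔ π ∣ r) :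
    ∃ S : Sys L O k, S.red = red ∧ S.π = π ∧ S.H = H ∧ S.n = n := by
  obtain ⟨e, he⟩ := exists_extRed red hsurj
  exact ⟨⟨h2, H, red, π, n, hB, hker, hsurj, e, he⟩, rfl, rfl, rfl, rfl⟩

end Fermat.Agent.AtP.ThreeOdd
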